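import Mathlib
import Fermat.Agent.S14.TransCore

/-!
# S13: the Galois group permutes the valuation subrings over a prime transitively

For `Ω/ℚ` Galois (e.g. `Ω = ℚ̄`):
* `valuationSubring_eq_of_centerIdeal_eq`: a valuation subring of `Ω` is determined by its center
  on the algebraic integers.
* `exists_smul_valuationSubring_eq`: any two valuation subrings of `Ω` over the same prime `ℓ` are
  conjugate under `Gal(Ω/ℚ)`.
* `conj_mem_inertiaSubgroupIn_smul`: the inertia group of `σ • A` is the conjugate of that of `A`.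
* `monoidHom_eq_one_on_inertia_of_liesOverPrime`: a homomorphism to a commutative group which is
  trivial on the inertia group of one valuation subring over `ℓ` is trivial on the inertia group of
  every valuation subring over `ℓ`.
-/

set_option autoImplicit false
set_option linter.style.haveILetI false

namespace Fermat.Agent.S13

open scoped Pointwise
open Fermat.Agent.S14 Fermat.Agent.S54.FrobExists

universe u

section General

variable {L : Type*} [Field L] [CharZero L]

/-- Inclusion of centers forces inclusion of valuation subrings. -/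
theorem valuationSubring_le_of_centerIdeal_le (halg : ∀ x : L, IsAlgebraic ℤ x)
    (A A' : ValuationSubring L) (h : centerIdeal A' ≤ centerIdeal A) : A ≤ A' := by
  intro x hx
  obtain ⟨b, s, hb, hs, hvs, rfl⟩ := exists_integral_div A (halg x) hx
  have hsQ : (⟨s, hs⟩ : integralClosure ℤ L) ∉ centerIdeal A' := by
    intro hmem
    have := h hmem
    rw [mem_centerIdeal_iff, hvs] at this
    exact lt_irrefl _ this
  have h1 : A'.valuation s = 1 := valuation_eq_one_of_not_mem_centerIdeal A' hsQ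
  rw [← A'.valuation_le_one_iff, map_div₀, h1, div_one, A'.valuation_le_one_iff]
  exact integral_mem_valuationSubring A' hb

/-- A valuation subring is determined by its center on the algebraic integers. -/
theorem valuationSubring_eq_of_centerIdeal_eq (halg : ∀ x : L, IsAlgebraic ℤ x)
    (A A' : ValuationSubring L) (h : centerIdeal A = centerIdeal A') : A = A' :=
  le_antisymm (valuationSubring_le_of_centerIdeal_le halg A A' h.ge)
    (valuationSubring_le_of_centerIdeal_le halg A' A h.le)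

end General

section Conj

variable {K L : Type*} [Field K] [Field L] [Algebra K L]

/-- The decomposition group of `σ • A` is the conjugate of that of `A`. -/
theorem conj_mem_decompositionSubgroup_smul (A : ValuationSubring L) (σ τ : L ≃ₐ[K] L) :
    τ ∈ (σ • A).decompositionSubgroup K ↔ σ⁻¹ * τ * σ ∈ A.decompositionSubgroup K := by
  show τ • σ • A = σ • A ↔ (σ⁻¹ * τ * σ) • A = A
  rw [mul_smul, mul_smul, inv_smul_eq_iff]

/-- The inertia group of `σ • A` is the conjugate of that of `A`. -/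
theorem conj_mem_inertiaSubgroupIn_smul (A : ValuationSubring L) (σ τ : L ≃ₐ[K] L) :
    τ ∈ (σ • A).inertiaSubgroupIn K ↔ σ⁻¹ * τ * σ ∈ A.inertiaSubgroupIn K := by
  rw [mem_inertiaSubgroupIn_iff, mem_inertiaSubgroupIn_iff, conj_mem_decompositionSubgroup_smul]
  refine and_congr_right fun _ => ?_
  constructor
  · intro h x hx
    have hx' : σ x ∈ σ • A := by
      rw [ValuationSubring.mem_pointwise_smul_iff_inv_smul_mem]
      show σ⁻¹ (σ x) ∈ A
      simpa using hx
    have := h (σ x) hx'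
    rw [valuation_smul_lt_one_iff] at this
    have h2 : σ⁻¹ (τ (σ x) - σ x) = (σ⁻¹ * τ * σ) x - x := by
      rw [map_sub]
      show σ⁻¹ (τ (σ x)) - σ⁻¹ (σ x) = σ⁻¹ (τ (σ x)) - x
      congr 1
      simp
    rwa [h2] at this
  · intro h x hx
    rw [ValuationSubring.mem_pointwise_smul_iff_inv_smul_mem] at hx
    have := h (σ⁻¹ x) hx
    rw [valuation_smul_lt_one_iff]
    have h2 : σ⁻¹ (τ x - x) = (σ⁻¹ * τ * σ) (σ⁻¹ x) - σ⁻¹ x := by
      rw [map_sub]
      show σ⁻¹ (τ x) - σ⁻¹ x = σ⁻¹ (τ (σ (σ⁻¹ x))) - σ⁻¹ x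
      congr 2
      simp
    rwa [h2]

end Conj

section Transitive

variable {Ω : Type u} [Field Ω] [CharZero Ω] [Algebra ℚ Ω] [IsGalois ℚ Ω]

/-- **Transitivity**: two valuation subrings of `Ω` lying over the same prime are conjugate. -/
theorem exists_smul_valuationSubring_eq (A A' : ValuationSubring Ω) {ℓ : ℕ} (hℓ : ℓ.Prime)
    (hA : A.LiesOverPrime ℓ) (hA' : A'.LiesOverPrime ℓ) : ∃ σ : Ω ≃ₐ[ℚ] Ω, σ • A = A' := by
  have hV : A.valuation (ℓ : Ω) < 1 := (A.mem_nonunits_iff).mp hA
  have hV' : A'.valuation (ℓ : Ω) < 1 := (A'.mem_nonunits_iff).mp hA'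
  letI : TopologicalSpace (integralClosure ℤ Ω) := ⊥
  haveI : DiscreteTopology (integralClosure ℤ Ω) := ⟨rfl⟩
  haveI : ContinuousSMul (Ω ≃ₐ[ℚ] Ω) (integralClosure ℤ Ω) := continuousSMul_integralClosure ℚ
  haveI : Algebra.IsInvariant (FixedPoints.subalgebra ℤ (integralClosure ℤ Ω) (Ω ≃ₐ[ℚ] Ω))
      (integralClosure ℤ Ω) (Ω ≃ₐ[ℚ] Ω) := ⟨fun b hb => ⟨⟨b, hb⟩, rfl⟩⟩
  -- an invariant algebraic integer is a rational integer
  have hint : ∀ a : FixedPoints.subalgebra ℤ (integralClosure ℤ Ω) (Ω ≃ₐ[ℚ] Ω),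
      ∃ n : ℤ, ((a : integralClosure ℤ Ω) : Ω) = (n : Ω) := by
    intro a
    obtain ⟨e, he⟩ : ∃ e : ℚ, algebraMap ℚ Ω e = ((a : integralClosure ℤ Ω) : Ω) := by
      apply mem_of_forall_smul_eq ℚ
      intro g
      have := congrArg (fun z : integralClosure ℤ Ω => (z : Ω)) (a.2 g)
      simpa using this
    have hint : IsIntegral ℤ e := by
      have h1 : IsIntegral ℤ (algebraMap ℚ Ω e) := he ▸ (a : integralClosure ℤ Ω).2
      exact (isIntegral_algebraMap_iff (algebraMap ℚ Ω).injective).mp h1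
    obtain ⟨n, hn⟩ := IsIntegrallyClosed.isIntegral_iff.mp hint
    refine ⟨n, ?_⟩
    rw [← he, ← hn]
    simp
  -- a rational integer lies in the center iff it is divisible by `ℓ`
  have hcenter : ∀ (B : ValuationSubring Ω), B.valuation (ℓ : Ω) < 1 → ∀ n : ℤ,
      B.valuation (n : Ω) < 1 ↔ (ℓ : ℤ) ∣ n := by
    intro B hB n
    have h := under_centerIdeal_eq B hℓ hB
    have h1 : n ∈ (centerIdeal B).under ℤ ↔ B.valuation (n : Ω) < 1 := by
      rw [Ideal.under_def, Ideal.mem_comap, mem_centerIdeal_iff]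
      simp
    rw [← h1, h, Ideal.mem_span_singleton]
  have hunder : (centerIdeal A').under
        (FixedPoints.subalgebra ℤ (integralClosure ℤ Ω) (Ω ≃ₐ[ℚ] Ω))
      = (centerIdeal A).under
        (FixedPoints.subalgebra ℤ (integralClosure ℤ Ω) (Ω ≃ₐ[ℚ] Ω)) := by
    ext a
    rw [Ideal.under_def, Ideal.mem_comap, Ideal.mem_comap, mem_centerIdeal_iff,
      mem_centerIdeal_iff]
    obtain ⟨n, hn⟩ := hint a
    show A'.valuation ((a : integralClosure ℤ Ω) : Ω) < 1 ↔
      A.valuation ((a : integralClosure ℤ Ω) : Ω) < 1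
    rw [hn, hcenter A' hV', hcenter A hV]
  obtain ⟨g, hg⟩ := Algebra.IsInvariant.exists_smul_of_under_eq_of_profinite
    (A := FixedPoints.subalgebra ℤ (integralClosure ℤ Ω) (Ω ≃ₐ[ℚ] Ω)) (G := Ω ≃ₐ[ℚ] Ω)
    (centerIdeal A') (centerIdeal A) hunder
  refine ⟨g⁻¹, ?_⟩
  apply valuationSubring_eq_of_centerIdeal_eq isAlgebraic_int
  rw [centerIdeal_smul, hg, inv_smul_smul]

/-- A homomorphism to a commutative group which kills the inertia group of one valuation subring
over `ℓ` kills the inertia group of every valuation subring over `ℓ`. -/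
theorem monoidHom_eq_one_on_inertia_of_liesOverPrime {M : Type*} [CommGroup M]
    (χ : (Ω ≃ₐ[ℚ] Ω) →* M) (A A' : ValuationSubring Ω) {ℓ : ℕ} (hℓ : ℓ.Prime)
    (hA : A.LiesOverPrime ℓ) (hA' : A'.LiesOverPrime ℓ)
    (h : ∀ σ ∈ A.inertiaSubgroupIn ℚ, χ σ = 1) : ∀ σ ∈ A'.inertiaSubgroupIn ℚ, χ σ = 1 := by
  obtain ⟨g, rfl⟩ := exists_smul_valuationSubring_eq A A' hℓ hA hA'
  intro σ hσ
  rw [conj_mem_inertiaSubgroupIn_smul] at hσ
  have := h _ hσ
  rw [map_mul, map_mul, map_inv, mul_comm, ← mul_assoc, mul_inv_cancel, one_mul] at this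
  exact this

end Transitive

end Fermat.Agent.S13
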