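/-
S13 helper library, piece (V2), Mathlib-level part: the prime of the inertia field below `P` is
unramified over the base (the analogue, for the inertia field, of Mathlib's
`IsDecompositionField.ramificationIdx_eq`).
-/
import Mathlib

set_option autoImplicit false

namespace Fermat.Agent.S13

open MulAction Pointwise Ideal

section splitting

variable (A K L : Type*) {B : Type*} [Field K] [Field L] [Algebra K L] [CommRing A] [CommRing B]
  [Algebra A B] {p : Ideal A} (P : Ideal B) [P.LiesOver p]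
  [Algebra A K] [IsFractionRing A K] [Algebra A L] [IsScalarTower A K L] [Algebra B L]
  [IsScalarTower A B L] [IsFractionRing B L] [MulSemiringAction Gal(L/K) B]
  [SMulDistribClass Gal(L/K) B L]

variable (E 𝓞E : Type*) [Field E] [Algebra E L] [IsInertiaField K L P E] [CommRing 𝓞E]
  [Algebra 𝓞E E] [IsFractionRing 𝓞E E] [Algebra 𝓞E B] [Algebra 𝓞E L] [IsScalarTower 𝓞E E L]
  [IsScalarTower 𝓞E B L] (𝓟E : Ideal 𝓞E) [hE : P.LiesOver 𝓟E]

variable [IsGalois K L] [IsDedekindDomain A] [IsDedekindDomain B] [Module.Finite A B]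
  [Module.IsTorsionFree A B] [Algebra A 𝓞E] [Module.Finite A 𝓞E] [IsScalarTower A 𝓞E B]
  [IsDedekindDomain 𝓞E] [𝓟E.LiesOver p]

omit [P.LiesOver p] hE in
include K L E P in
theorem inertiaField_instances (hp : p ≠ ⊥) :
    Module.Finite 𝓞E B ∧ Module.IsTorsionFree 𝓞E B ∧ Module.IsTorsionFree A 𝓞E ∧
      IsGaloisGroup Gal(L/K) A B ∧ IsGaloisGroup (inertia Gal(L/K) P) 𝓞E B ∧ 𝓟E ≠ ⊥ := by
  have inst₁ : Module.Finite 𝓞E B := Module.Finite.right A 𝓞E B
  have inst₂ : Module.IsTorsionFree 𝓞E B := by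
    rw [Module.isTorsionFree_iff_faithfulSMul]
    apply Algebra.IsAlgebraic.faithfulSMul_tower_top A
  have inst₃ : Module.IsTorsionFree A 𝓞E := Module.IsTorsionFree.of_faithfulSMul _ _ B
  have inst₄ : IsGaloisGroup Gal(L/K) A B := .of_isFractionRing _ _ _ K L
  have inst₅ : IsGaloisGroup (inertia Gal(L/K) P) 𝓞E B := .of_isFractionRing _ _ _ E L
  exact ⟨inst₁, inst₂, inst₃, inst₄, inst₅, Ideal.ne_bot_of_liesOver_of_ne_bot hp 𝓟E⟩

variable [FiniteDimensional K L] [Ring.HasFiniteQuotients A] [𝓟E.IsMaximal] [P.IsMaximal]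

include K L E P in
/-- Let `E` be the inertia field of `P` in `L/K` and `𝓟E` the prime of `E` below `P`. Then the
ramification index of `𝓟E` in `L` equals the ramification index of `p` in `L`. -/
theorem inertiaField_ramificationIdxIn_eq (hp : p ≠ ⊥) :
    ramificationIdxIn 𝓟E B = p.ramificationIdxIn B := by
  obtain ⟨_, _, _, _, _, h𝓟⟩ := inertiaField_instances A K L P E 𝓞E 𝓟E hp
  have hpmax : p.IsMaximal := over_def P p ▸ Ideal.IsMaximal.under A P
  have hfq : Ring.HasFiniteQuotients 𝓞E := .of_module_finite A 𝓞E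
  have : Finite (𝓞E ⧸ 𝓟E) := Ring.HasFiniteQuotients.finiteQuotient h𝓟
  have : Finite (A ⧸ p) := Ring.HasFiniteQuotients.finiteQuotient hp
  rw [← card_inertia_eq_ramificationIdxIn (G := inertia Gal(L/K) P) 𝓟E P,
    ← card_inertia_eq_ramificationIdxIn (G := Gal(L/K)) p P]
  have htop : P.inertia (inertia Gal(L/K) P) = ⊤ := by
    ext σ
    simp only [Subgroup.mem_top, iff_true]
    exact Ideal.coe_mem_inertia.mp σ.2
  rw [htop]
  exact Nat.card_congr Subgroup.topEquiv.toEquiv

include K L E P in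
/-- Let `E` be the inertia field of `P` in `L/K` and `𝓟E` the prime of `E` below `P`. Then `𝓟E`
is unramified over `K`. -/
theorem inertiaField_ramificationIdx_eq_one (hp : p ≠ ⊥) :
    𝓟E.ramificationIdx A = 1 := by
  obtain ⟨_, _, _, _, _, h𝓟⟩ := inertiaField_instances A K L P E 𝓞E 𝓟E hp
  have := ramificationIdx_tower (R := A) 𝓟E P
  rwa [← ramificationIdxIn_eq_ramificationIdx 𝓟E P (inertia Gal(L/K) P),
    inertiaField_ramificationIdxIn_eq A K L P E 𝓞E 𝓟E hp,
    ramificationIdxIn_eq_ramificationIdx p P Gal(L/K),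
    right_eq_mul₀ <| (ramificationIdx_pos P A).ne'] at this

end splitting

end Fermat.Agent.S13
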