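/-
S13 helper library, piece (V2): the value group of the inertia field, in the valuation-subring
language of the prelude.

Main results (namespace `Fermat.Agent.S13`), for `Ω/ℚ` an algebraic Galois extension
(e.g. `AlgebraicClosure ℚ`), `A : ValuationSubring Ω` lying over a prime `ℓ`:
* `valuation_eq_zpow_of_inertia_fixed` (V2a): a nonzero `x : Ω` fixed by the inertia group of `A`
  has `A.valuation x = A.valuation ℓ ^ n` for some `n : ℤ`.
* `prod_valuation_eq_zpow_of_inertia_stable` (V2b): for a finite set `S` of nonzero elements,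
  stable under the inertia group, `∏ s ∈ S, A.valuation s = A.valuation ℓ ^ n` for some `n : ℤ`.
* `valuation_pow_card_eq_zpow_of_inertia_stable`: if moreover all elements of `S` have the
  valuation of `x`, then `A.valuation x ^ S.card = A.valuation ℓ ^ n`.
-/
import Mathlib
import Fermat.Agent.S14.TransCore
import Fermat.Agent.S05.Val
import Fermat.Agent.S13.InertiaFieldUnram

set_option autoImplicit false

namespace Fermat.Agent.S13

open NumberField Pointwise IsDedekindDomain
open Fermat.Agent.S54.FrobExists Fermat.Agent.S14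

section Dedekind

variable {R : Type*} [CommRing R] [IsDedekindDomain R] (K : Type*) [Field K] [Algebra R K]
  [IsFractionRing R K] (v : HeightOneSpectrum R)

/-- Every nonzero element of the fraction field is a power of a uniformizer times a quotient of
two elements outside the prime. -/
theorem exists_zpow_mul_of_uniformizer {π : R} (hπ : v.intValuation π = WithZero.exp (-1 : ℤ))
    {x : K} (hx : x ≠ 0) :
    ∃ (n : ℤ) (a d : R), a ∉ v.asIdeal ∧ d ∉ v.asIdeal ∧
      x * algebraMap R K d = algebraMap R K π ^ n * algebraMap R K a := by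
  have hπK : v.valuation K (algebraMap R K π) = WithZero.exp (-1 : ℤ) := by
    rw [HeightOneSpectrum.valuation_of_algebraMap, hπ]
  have hπ0 : algebraMap R K π ≠ 0 := by
    intro h
    rw [h, map_zero] at hπK
    exact WithZero.exp_ne_zero.symm hπK
  have hvx : v.valuation K x ≠ 0 := (Valuation.ne_zero_iff _).mpr hx
  set n : ℤ := -(WithZero.log (v.valuation K x)) with hn
  have hvx' : v.valuation K x = WithZero.exp (-n) := by
    rw [hn, neg_neg, WithZero.exp_log hvx]
  set y : K := x * (algebraMap R K π ^ n)⁻¹ with hy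
  have hvy : v.valuation K y = 1 := by
    rw [hy, map_mul, map_inv₀, map_zpow₀, hπK, hvx', ← WithZero.exp_zsmul, ← WithZero.exp_neg,
      ← WithZero.exp_add, ← WithZero.exp_zero]
    congr 1
    simp
  obtain ⟨a, d, had⟩ := v.exists_primeCompl_mul_eq_of_integer y hvy.le
  refine ⟨n, a, d, ?_, d.2, ?_⟩
  · have h1 : v.valuation K (algebraMap R K a) = 1 := by
      rw [← had, map_mul, hvy, one_mul, HeightOneSpectrum.valuation_of_algebraMap]
      exact (v.intValuation_eq_one_iff_mem_primeCompl d).mpr d.2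
    rw [HeightOneSpectrum.valuation_of_algebraMap] at h1
    exact (v.intValuation_eq_one_iff_mem_primeCompl a).mp h1
  · rw [← had, hy]
    have : algebraMap R K π ^ n ≠ 0 := zpow_ne_zero _ hπ0
    field_simp

/-- A rational prime lying in an unramified prime is a uniformizer there. -/
theorem intValuation_natCast_of_ramificationIdx_eq_one {S : Type*} [CommRing S]
    [IsDedekindDomain S] [CharZero S] (v : HeightOneSpectrum S) {ℓ : ℕ} (hℓ : ℓ.Prime)
    (hmem : (ℓ : S) ∈ v.asIdeal) (he : v.asIdeal.ramificationIdx ℤ = 1) :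
    v.intValuation (ℓ : S) = WithZero.exp (-1 : ℤ) := by
  have hℓ0 : (ℓ : S) ≠ 0 := Nat.cast_ne_zero.mpr hℓ.ne_zero
  have hmax : (Ideal.span {(ℓ : ℤ)}).IsMaximal :=
    PrincipalIdealRing.isMaximal_of_irreducible (Nat.prime_iff_prime_int.mp hℓ).irreducible
  have hle : Ideal.span {(ℓ : ℤ)} ≤ v.asIdeal.under ℤ := by
    rw [Ideal.span_singleton_le_iff_mem, Ideal.under_def, Ideal.mem_comap]
    simpa using hmem
  have hne : v.asIdeal.under ℤ ≠ ⊤ := (Ideal.IsPrime.under ℤ v.asIdeal).ne_top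
  have hunder : v.asIdeal.under ℤ = Ideal.span {(ℓ : ℤ)} := (hmax.eq_of_le hne hle).symm
  have : v.asIdeal.LiesOver (Ideal.span {(ℓ : ℤ)}) := ⟨hunder.symm⟩
  have hmap : (Ideal.span {(ℓ : ℤ)}).map (algebraMap ℤ S) = Ideal.span {(ℓ : S)} := by
    rw [Ideal.map_span, Set.image_singleton]
    simp
  have hmap0 : (Ideal.span {(ℓ : ℤ)}).map (algebraMap ℤ S) ≠ ⊥ := by
    rw [hmap, Ne, Ideal.span_singleton_eq_bot]
    exact hℓ0
  have h1 := Ideal.IsDedekindDomain.ramificationIdx_eq_multiplicity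
    (Ideal.span {(ℓ : ℤ)}) v.asIdeal hmap0
  rw [he, hmap] at h1
  rw [v.intValuation_eq_exp_neg_multiplicity hℓ0, ← h1]
  rfl

end Dedekind

section FiniteLevel

variable {F : Type*} [Field F] [NumberField F] [IsGalois ℚ F]

/-- The prime of the inertia field below a maximal ideal `P` of a Galois number field is
unramified over `ℤ`. -/
theorem ramificationIdx_under_inertiaField (P : Ideal (𝓞 F)) [P.IsMaximal] (hP : P ≠ ⊥)
    (T : IntermediateField ℚ F) [IsInertiaField ℚ F P T] :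
    (P.under (𝓞 T)).ramificationIdx ℤ = 1 := by
  have hp : P.under ℤ ≠ ⊥ := Ideal.under_ne_bot ℤ hP
  have : (P.under (𝓞 T)).IsMaximal := Ideal.IsMaximal.under (𝓞 T) P
  exact inertiaField_ramificationIdx_eq_one ℤ ℚ F (p := P.under ℤ) P T (𝓞 T) (P.under (𝓞 T)) hp

theorem isAlgebraic_int_numberField (y : F) : IsAlgebraic ℤ y :=
  (IsFractionRing.isAlgebraic_iff ℤ ℚ F).mpr (Algebra.IsAlgebraic.isAlgebraic y)

/-- The center of a valuation subring of a number field, as an ideal of `𝓞 F`. -/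
noncomputable def centerO (V : ValuationSubring F) : Ideal (𝓞 F) :=
  (centerIdeal V : Ideal (integralClosure ℤ F))

theorem mem_centerO_iff (V : ValuationSubring F) (b : 𝓞 F) :
    b ∈ centerO V ↔ V.valuation (b : F) < 1 :=
  mem_centerIdeal_iff V b

theorem centerO_isMaximal (V : ValuationSubring F) {ℓ : ℕ} (hℓ : ℓ.Prime)
    (hV : V.LiesOverPrime ℓ) : (centerO V).IsMaximal :=
  centerIdeal_isMaximal V hℓ ((V.mem_nonunits_iff).mp hV)

theorem inertia_centerO_eq (V : ValuationSubring F) {ℓ : ℕ} (hℓ : ℓ.Prime)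
    (hV : V.LiesOverPrime ℓ) : (centerO V).inertia Gal(F/ℚ) = V.inertiaSubgroupIn ℚ :=
  inertia_centerIdeal_eq isAlgebraic_int_numberField V hℓ hV

theorem valuation_eq_one_of_not_mem_centerO (V : ValuationSubring F) {b : 𝓞 F}
    (hb : b ∉ centerO V) : V.valuation (b : F) = 1 :=
  valuation_eq_one_of_not_mem_centerIdeal V hb

/-- Elements of the inertia field are a power of `ℓ` times a unit of the valuation ring. -/
theorem exists_zpow_mul_unit_of_mem_inertiaField (V : ValuationSubring F) {ℓ : ℕ} (hℓ : ℓ.Prime)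
    (hV : V.LiesOverPrime ℓ) (T : IntermediateField ℚ F)
    [IsInertiaField ℚ F (centerO V) T] {x : F} (hx : x ≠ 0) (hxT : x ∈ T) :
    ∃ (n : ℤ) (u : F), V.valuation u = 1 ∧ x = (ℓ : F) ^ n * u := by
  have hVℓ : V.valuation (ℓ : F) < 1 := (V.mem_nonunits_iff).mp hV
  have hPmax : (centerO V).IsMaximal := centerO_isMaximal V hℓ hV
  have hℓP : ((ℓ : ℕ) : 𝓞 F) ∈ centerO V := by
    rw [mem_centerO_iff]
    simpa using hVℓ
  have hℓ0 : ((ℓ : ℕ) : 𝓞 F) ≠ 0 := Nat.cast_ne_zero.mpr hℓ.ne_zero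
  have hP0 : centerO V ≠ ⊥ := fun h => hℓ0 (by simpa [h] using hℓP)
  have he := ramificationIdx_under_inertiaField (centerO V) hP0 T
  have hmax' : ((centerO V).under (𝓞 T)).IsMaximal := Ideal.IsMaximal.under (𝓞 T) _
  have hne' : (centerO V).under (𝓞 T) ≠ ⊥ := Ideal.under_ne_bot (𝓞 T) hP0
  set v : HeightOneSpectrum (𝓞 T) := ⟨(centerO V).under (𝓞 T), hmax'.isPrime, hne'⟩ with hv
  have hmemT : ((ℓ : ℕ) : 𝓞 T) ∈ v.asIdeal := by
    show ((ℓ : ℕ) : 𝓞 T) ∈ (centerO V).under (𝓞 T)
    rw [Ideal.under_def, Ideal.mem_comap, map_natCast]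
    exact hℓP
  have hπ := intValuation_natCast_of_ramificationIdx_eq_one v hℓ hmemT he
  have hx' : (⟨x, hxT⟩ : T) ≠ 0 := fun h => hx (congrArg Subtype.val h)
  obtain ⟨n, a, d, ha, hd, hxd⟩ := exists_zpow_mul_of_uniformizer T v hπ hx'
  have hunit : ∀ c : 𝓞 T, c ∉ v.asIdeal → V.valuation (((c : T) : F)) = 1 := by
    intro c hc
    have h1 : algebraMap (𝓞 T) (𝓞 F) c ∉ centerO V := fun h => hc h
    exact valuation_eq_one_of_not_mem_centerO V h1
  have hd0 : (((d : 𝓞 T) : T) : F) ≠ 0 := by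
    intro h
    have := hunit d hd
    rw [h, map_zero] at this
    exact zero_ne_one this
  refine ⟨n, (((a : 𝓞 T) : T) : F) / (((d : 𝓞 T) : T) : F), ?_, ?_⟩
  · rw [map_div₀, hunit a ha, hunit d hd, div_one]
  · have h2 := congrArg (algebraMap T F) hxd
    rw [map_mul, map_mul, map_zpow₀, map_natCast, map_natCast] at h2
    have h3 : algebraMap T F ⟨x, hxT⟩ = x := rfl
    rw [h3] at h2
    have h4 : ∀ c : 𝓞 T, algebraMap T F (algebraMap (𝓞 T) T c) = (((c : 𝓞 T) : T) : F) :=
      fun c => rfl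
    rw [h4, h4] at h2
    rw [← mul_div_assoc, eq_div_iff hd0]
    exact h2

/-- **Finite level.** An element of a Galois number field fixed by the inertia group of a
valuation subring `V` over `ℓ` is a power of `ℓ` times a unit of `V`. -/
theorem exists_zpow_mul_unit_of_inertia_fixed (V : ValuationSubring F) {ℓ : ℕ} (hℓ : ℓ.Prime)
    (hV : V.LiesOverPrime ℓ) {x : F} (hx : x ≠ 0)
    (hfix : ∀ τ ∈ V.inertiaSubgroupIn ℚ, τ x = x) :
    ∃ (n : ℤ) (u : F), V.valuation u = 1 ∧ x = (ℓ : F) ^ n * u := by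
  refine exists_zpow_mul_unit_of_mem_inertiaField V hℓ hV
    (FixedPoints.intermediateField (Ideal.inertia Gal(F/ℚ) (centerO V))) hx ?_
  rintro ⟨τ, hτ⟩
  exact hfix τ (by rw [← inertia_centerO_eq V hℓ hV]; exact hτ)

end FiniteLevel

section Lift

universe u

variable {Ω : Type u} [Field Ω] [CharZero Ω] [Algebra ℚ Ω] [IsGalois ℚ Ω]

theorem valuation_eq_one_of_comap {E : Type*} [Field E] [Algebra E Ω] (A : ValuationSubring Ω)
    {u : E} (hu : (A.comap (algebraMap E Ω)).valuation u = 1) :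
    A.valuation (algebraMap E Ω u) = 1 := by
  have h1 : u ∈ A.comap (algebraMap E Ω) :=
    ((A.comap (algebraMap E Ω)).valuation_le_one_iff u).mp hu.le
  have h2 : u⁻¹ ∈ A.comap (algebraMap E Ω) := by
    apply ((A.comap (algebraMap E Ω)).valuation_le_one_iff u⁻¹).mp
    rw [map_inv₀, hu, inv_one]
  rw [ValuationSubring.mem_comap] at h1 h2
  rw [map_inv₀] at h2
  have h3 := (A.valuation_le_one_iff _).mpr h1
  have h4 := (A.valuation_le_one_iff _).mpr h2
  rw [map_inv₀] at h4
  have hu0 : u ≠ 0 := by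
    rintro rfl
    rw [map_zero] at hu
    exact zero_ne_one hu
  have h0 : A.valuation (algebraMap E Ω u) ≠ 0 :=
    (Valuation.ne_zero_iff _).mpr ((map_ne_zero _).mpr hu0)
  exact le_antisymm h3 ((inv_le_one₀ (zero_lt_iff.mpr h0)).mp h4)

/-- Auxiliary form of (V2a): the element comes from a finite normal subextension. -/
theorem valuation_eq_zpow_of_inertia_fixed_aux {E : Type*} [Field E] [algE : Algebra ℚ E]
    [Algebra E Ω] [IsScalarTower ℚ E Ω] [hfd : FiniteDimensional ℚ E] [hn : Normal ℚ E]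
    (A : ValuationSubring Ω) {ℓ : ℕ} (hℓ : ℓ.Prime) (hA : A.LiesOverPrime ℓ) {x : E} (hx : x ≠ 0)
    (hfix : ∀ σ ∈ A.inertiaSubgroupIn ℚ, σ (algebraMap E Ω x) = algebraMap E Ω x) :
    ∃ n : ℤ, A.valuation (algebraMap E Ω x) = A.valuation (ℓ : Ω) ^ n := by
  have : CharZero E := algebraRat.charZero E
  obtain rfl : algE = DivisionRing.toRatAlgebra := Subsingleton.elim _ _
  have : NumberField E := ⟨⟩
  have : IsGalois ℚ E := ⟨⟩
  have hV : (A.comap (algebraMap E Ω)).LiesOverPrime ℓ := by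
    have h1 : A.valuation (ℓ : Ω) < 1 := (A.mem_nonunits_iff).mp hA
    apply ((A.comap (algebraMap E Ω)).mem_nonunits_iff).mpr
    rw [valuation_comap_lt_one_iff, map_natCast]
    exact h1
  have hfix' : ∀ τ ∈ (A.comap (algebraMap E Ω)).inertiaSubgroupIn ℚ, τ x = x := by
    intro τ hτ
    obtain ⟨σ, hσ, rfl⟩ := exists_mem_inertiaSubgroupIn_restrictNormalHom_eq E A hℓ hA τ hτ
    apply (algebraMap E Ω).injective
    rw [restrictNormalHom_apply_coe]
    exact hfix σ hσ
  obtain ⟨n, u, hu, hxu⟩ := exists_zpow_mul_unit_of_inertia_fixed _ hℓ hV hx hfix'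
  refine ⟨n, ?_⟩
  rw [hxu, map_mul, map_zpow₀, map_natCast, map_mul, map_zpow₀,
    valuation_eq_one_of_comap A hu, mul_one]

/-- **(V2a)**: the value group of the inertia field is generated by the value of `ℓ`. A nonzero
element fixed by the inertia group of `A` has the valuation of an integral power of `ℓ`. -/
theorem valuation_eq_zpow_of_inertia_fixed (A : ValuationSubring Ω) {ℓ : ℕ} (hℓ : ℓ.Prime)
    (hA : A.LiesOverPrime ℓ) {x : Ω} (hx : x ≠ 0)
    (hfix : ∀ σ ∈ A.inertiaSubgroupIn ℚ, σ x = x) :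
    ∃ n : ℤ, A.valuation x = A.valuation (ℓ : Ω) ^ n := by
  have hsplits : ((minpoly ℚ x).map (algebraMap ℚ Ω)).Splits := Normal.splits inferInstance x
  have hsf := IntermediateField.adjoin_rootSet_isSplittingField hsplits
  have hn : @Normal ℚ (IntermediateField.adjoin ℚ ((minpoly ℚ x).rootSet Ω)) _ _
      (IntermediateField.algebra' _) :=
    @Normal.of_isSplittingField ℚ _ _ _ (IntermediateField.algebra' _) (minpoly ℚ x) hsf
  have hfd : @FiniteDimensional ℚ (IntermediateField.adjoin ℚ ((minpoly ℚ x).rootSet Ω)) _ _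
      (IntermediateField.algebra' _).toModule :=
    @Polynomial.IsSplittingField.finiteDimensional ℚ _ _ _ (IntermediateField.algebra' _)
      (minpoly ℚ x) hsf
  have hxE : x ∈ IntermediateField.adjoin ℚ ((minpoly ℚ x).rootSet Ω) := by
    apply IntermediateField.subset_adjoin
    rw [Polynomial.mem_rootSet]
    exact ⟨minpoly.ne_zero (Algebra.IsIntegral.isIntegral x), minpoly.aeval ℚ x⟩
  have hx' : (⟨x, hxE⟩ : IntermediateField.adjoin ℚ ((minpoly ℚ x).rootSet Ω)) ≠ 0 :=
    fun h => hx (congrArg Subtype.val h)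
  exact valuation_eq_zpow_of_inertia_fixed_aux (algE := IntermediateField.algebra' _)
    (hfd := hfd) (hn := hn) A hℓ hA hx' hfix

/-- **(V2b)**: for a finite set of nonzero elements stable under the inertia group of `A`, the
product of the valuations is the valuation of an integral power of `ℓ`. -/
theorem prod_valuation_eq_zpow_of_inertia_stable (A : ValuationSubring Ω) {ℓ : ℕ} (hℓ : ℓ.Prime)
    (hA : A.LiesOverPrime ℓ) (S : Finset Ω) (h0 : (0 : Ω) ∉ S)
    (hS : ∀ σ ∈ A.inertiaSubgroupIn ℚ, ∀ s ∈ S, σ s ∈ S) :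
    ∃ n : ℤ, ∏ s ∈ S, A.valuation s = A.valuation (ℓ : Ω) ^ n := by
  classical
  have hx : ∏ s ∈ S, s ≠ 0 := by
    rw [Finset.prod_ne_zero_iff]
    intro s hs h
    exact h0 (h ▸ hs)
  have hfix : ∀ σ ∈ A.inertiaSubgroupIn ℚ, σ (∏ s ∈ S, s) = ∏ s ∈ S, s := by
    intro σ hσ
    rw [map_prod]
    have himg : S.image σ = S := by
      apply Finset.eq_of_subset_of_card_le
      · intro t ht
        obtain ⟨s, hs, rfl⟩ := Finset.mem_image.mp ht
        exact hS σ hσ s hs
      · rw [Finset.card_image_of_injective S σ.injective]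
    calc ∏ s ∈ S, σ s = ∏ t ∈ S.image σ, t :=
          (Finset.prod_image (f := fun t : Ω => t) (fun a _ b _ h => σ.injective h)).symm
      _ = ∏ s ∈ S, s := by rw [himg]
  obtain ⟨n, hn⟩ := valuation_eq_zpow_of_inertia_fixed A hℓ hA hx hfix
  exact ⟨n, by rw [← hn, map_prod]⟩

/-- Variant of (V2b) when all elements of the stable set have the same valuation. -/
theorem valuation_pow_card_eq_zpow_of_inertia_stable (A : ValuationSubring Ω) {ℓ : ℕ}
    (hℓ : ℓ.Prime) (hA : A.LiesOverPrime ℓ) (S : Finset Ω) (h0 : (0 : Ω) ∉ S)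
    (hS : ∀ σ ∈ A.inertiaSubgroupIn ℚ, ∀ s ∈ S, σ s ∈ S) {x : Ω}
    (hval : ∀ s ∈ S, A.valuation s = A.valuation x) :
    ∃ n : ℤ, A.valuation x ^ S.card = A.valuation (ℓ : Ω) ^ n := by
  obtain ⟨n, hn⟩ := prod_valuation_eq_zpow_of_inertia_stable A hℓ hA S h0 hS
  refine ⟨n, ?_⟩
  rw [← hn, Finset.prod_congr rfl hval, Finset.prod_const]

/-- The ramification bound: if a nonempty inertia-stable set of `m` elements all have the same
valuation `< 1` as `x`, then `v(x) ^ m ≤ v(ℓ)`. -/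
theorem valuation_pow_card_le_of_inertia_stable (A : ValuationSubring Ω) {ℓ : ℕ}
    (hℓ : ℓ.Prime) (hA : A.LiesOverPrime ℓ) (S : Finset Ω) (hne : S.Nonempty)
    (hS : ∀ σ ∈ A.inertiaSubgroupIn ℚ, ∀ s ∈ S, σ s ∈ S) {x : Ω} (hx0 : x ≠ 0)
    (hx1 : A.valuation x < 1) (hval : ∀ s ∈ S, A.valuation s = A.valuation x) :
    A.valuation x ^ S.card ≤ A.valuation (ℓ : Ω) := by
  have h0 : (0 : Ω) ∉ S := by
    intro h
    have := hval 0 h
    rw [map_zero] at this
    exact (Valuation.ne_zero_iff _).mpr hx0 this.symm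
  obtain ⟨n, hn⟩ := valuation_pow_card_eq_zpow_of_inertia_stable A hℓ hA S h0 hS hval
  have hℓ1 : A.valuation (ℓ : Ω) < 1 := (A.mem_nonunits_iff).mp hA
  have hℓ0 : A.valuation (ℓ : Ω) ≠ 0 :=
    (Valuation.ne_zero_iff _).mpr (Nat.cast_ne_zero.mpr hℓ.ne_zero)
  have hlt : A.valuation x ^ S.card < 1 :=
    pow_lt_one₀ zero_le hx1 (Finset.card_pos.mpr hne).ne'
  rw [hn] at hlt ⊢
  have hn1 : 1 ≤ n := by
    by_contra h
    rw [not_le] at h
    have h : n ≤ 0 := by omega
    have : 1 ≤ A.valuation (ℓ : Ω) ^ n := one_le_zpow_of_nonpos₀ (zero_lt_iff.mpr hℓ0) hℓ1.le h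
    exact absurd hlt (not_lt.mpr this)
  calc A.valuation (ℓ : Ω) ^ n ≤ A.valuation (ℓ : Ω) ^ (1 : ℤ) :=
        zpow_le_zpow_right_of_le_one₀ (zero_lt_iff.mpr hℓ0) hℓ1.le hn1
    _ = A.valuation (ℓ : Ω) := zpow_one _

end Lift


end Fermat.Agent.S13
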