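/-
Block (D), piece DP1: the Somos-4 relation for Mathlib's normalised elliptic divisibility
sequence `normEDS b c d`:
  `W (n + 2) * W (n - 2) = W (n + 1) * W (n - 1) * W 2 ^ 2 - W 3 * W n ^ 2`
over any commutative ring, for every integer `n`.  Mathlib-only.

The proof is a strong induction using only the even and odd doubling recursions
(`normEDS_even`, `normEDS_odd`); the even step needs a cancellation of `b ^ 2`, which is done in the
universal ring `MvPolynomial (Fin 3) ℤ` and then transported by `map_normEDS`.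
(Linear-combination certificates found by helper10 and helper2.)
-/
import Mathlib

set_option autoImplicit false

namespace Fermat.Agent.S13

section Steps

variable {R : Type*} [CommRing R]

/-- Pure algebra: the odd step of the Somos-4 induction. -/
theorem eds_somos4_odd_step (b c A B C D E G p q r s t : R)
    (hp : p = G * D ^ 3 - C * E ^ 3)
    (hq : q = D * B ^ 3 - A * C ^ 3)
    (hr : r * b = C ^ 2 * D * G - B * D * E ^ 2)
    (hs : s * b = B ^ 2 * C * E - A * C * D ^ 2)
    (ht : t = E * C ^ 3 - B * D ^ 3)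
    (Tm : G * B = E * C * b ^ 2 - c * D ^ 2)
    (Tm1 : E * A = D * B * b ^ 2 - c * C ^ 2) :
    p * q = r * s * b ^ 2 - c * t ^ 2 := by
  subst hp hq ht
  linear_combination (-(s * b)) * hr - (C ^ 2 * D * G - B * D * E ^ 2) * hs +
    (D ^ 3 * B - C ^ 3 * E) * (D * B * Tm - C * E * Tm1)

/-- Pure algebra: the even step of the Somos-4 induction (before cancelling `b ^ 2`). -/
theorem eds_somos4_even_step (b c Z A B C D E G r o s t q : R)
    (hr : r * b = C ^ 2 * D * G - B * D * E ^ 2)
    (ho : o * b = A ^ 2 * B * D - Z * B * C ^ 2)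
    (hs : s * b = B ^ 2 * C * E - A * C * D ^ 2)
    (ht : t = E * C ^ 3 - B * D ^ 3)
    (hq : q = D * B ^ 3 - A * C ^ 3)
    (Tm : G * B = E * C * b ^ 2 - c * D ^ 2)
    (Tm1 : E * A = D * B * b ^ 2 - c * C ^ 2)
    (Tm2 : D * Z = C * A * b ^ 2 - c * B ^ 2) :
    b ^ 2 * (r * o) = b ^ 2 * (t * q * b ^ 2 - c * s ^ 2) := by
  subst ht hq
  linear_combination (o * b) * hr + (C ^ 2 * D * G - B * D * E ^ 2) * ho +
    c * (s * b + (B ^ 2 * C * E - A * C * D ^ 2)) * hs +
    (-A * B ^ 2 * D ^ 2 * E + A * C ^ 3 * D ^ 2 * b ^ 2 - B ^ 2 * C ^ 2 * D ^ 2 * c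
      + B ^ 2 * C ^ 3 * E * b ^ 2 - B ^ 3 * D ^ 3 * b ^ 2) * Tm1 +
    C ^ 2 * D * (A ^ 2 * D - Z * C ^ 2) * Tm -
    C ^ 2 * (C ^ 3 * E * b ^ 2 - c * C ^ 2 * D ^ 2 - B ^ 2 * E ^ 2) * Tm2

end Steps

section Index

variable {R : Type*} [CommRing R] (b c d : R)

/-- `normEDS_odd` with free indices. -/
theorem eds_normEDS_odd_idx (m n i j l : ℤ) (hn : n = 2 * m + 1) (hi : i = m + 2)
    (hj : j = m - 1) (hl : l = m + 1) :
    normEDS b c d n =
      normEDS b c d i * normEDS b c d m ^ 3 - normEDS b c d j * normEDS b c d l ^ 3 := by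
  subst hn hi hj hl
  exact normEDS_odd b c d m

/-- `normEDS_even` with free indices. -/
theorem eds_normEDS_even_idx (m n i j k l : ℤ) (hn : n = 2 * m) (hi : i = m - 1)
    (hj : j = m + 2) (hk : k = m - 2) (hl : l = m + 1) :
    normEDS b c d n * b =
      normEDS b c d i ^ 2 * normEDS b c d m * normEDS b c d j -
        normEDS b c d k * normEDS b c d m * normEDS b c d l ^ 2 := by
  subst hn hi hj hk hl
  exact normEDS_even b c d m

/-- The Somos-4 relation at index `n` for `normEDS b c d`. -/
def EdsSomos4At (n : ℤ) : Prop :=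
  normEDS b c d (n + 2) * normEDS b c d (n - 2) =
    normEDS b c d (n + 1) * normEDS b c d (n - 1) * b ^ 2 - c * normEDS b c d n ^ 2

theorem edsSomos4At_idx {n i j k l : ℤ} (h : EdsSomos4At b c d n) (hi : i = n + 2)
    (hj : j = n - 2) (hk : k = n + 1) (hl : l = n - 1) :
    normEDS b c d i * normEDS b c d j =
      normEDS b c d k * normEDS b c d l * b ^ 2 - c * normEDS b c d n ^ 2 := by
  subst hi hj hk hl
  exact h

theorem edsSomos4At_of_idx {n i j k l : ℤ} (hi : i = n + 2)
    (hj : j = n - 2) (hk : k = n + 1) (hl : l = n - 1)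
    (h : normEDS b c d i * normEDS b c d j =
      normEDS b c d k * normEDS b c d l * b ^ 2 - c * normEDS b c d n ^ 2) :
    EdsSomos4At b c d n := by
  subst hi hj hk hl
  exact h

end Index

section Domain

variable {R : Type*} [CommRing R] [IsDomain R] (b c d : R)

theorem edsSomos4At_nat_of_ne_zero (hb : b ≠ 0) (n : ℕ) : EdsSomos4At b c d (n : ℤ) := by
  induction n using Nat.strong_induction_on with
  | _ n ih =>
    rcases Nat.even_or_odd' n with ⟨k, rfl | rfl⟩
    · -- n = 2 * k
      rcases Nat.lt_or_ge k 2 with hk | hk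
      · interval_cases k
        · simp [EdsSomos4At]
          ring
        · simp [EdsSomos4At]
      · -- k ≥ 2
        have Tm := ih (k + 1) (by omega)
        have Tm1 := ih k (by omega)
        have Tm2 := ih (k - 1) (by omega)
        have hk1 : ((k - 1 : ℕ) : ℤ) = (k : ℤ) - 1 := by
          rw [Nat.cast_sub (by omega)]; simp
        have Tm' := edsSomos4At_idx b c d Tm (i := (k : ℤ) + 3) (j := (k : ℤ) - 1)
          (k := (k : ℤ) + 2) (l := (k : ℤ)) (by push_cast; ring) (by push_cast; ring)
          (by push_cast; ring) (by push_cast; ring)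
        have Tm1' := edsSomos4At_idx b c d Tm1 (i := (k : ℤ) + 2) (j := (k : ℤ) - 2)
          (k := (k : ℤ) + 1) (l := (k : ℤ) - 1) (by ring) (by ring) (by ring) (by ring)
        have Tm2' := edsSomos4At_idx b c d Tm2 (i := (k : ℤ) + 1) (j := (k : ℤ) - 3)
          (k := (k : ℤ)) (l := (k : ℤ) - 2) (by rw [hk1]; ring) (by rw [hk1]; ring)
          (by rw [hk1]; ring) (by rw [hk1]; ring)
        rw [hk1] at Tm2'
        push_cast at Tm'
        have hr := eds_normEDS_even_idx b c d ((k : ℤ) + 1) (2 * (k : ℤ) + 2) (k : ℤ)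
          ((k : ℤ) + 3) ((k : ℤ) - 1) ((k : ℤ) + 2) (by ring) (by ring) (by ring) (by ring)
          (by ring)
        have ho := eds_normEDS_even_idx b c d ((k : ℤ) - 1) (2 * (k : ℤ) - 2) ((k : ℤ) - 2)
          ((k : ℤ) + 1) ((k : ℤ) - 3) (k : ℤ) (by ring) (by ring) (by ring) (by ring)
          (by ring)
        have hs := eds_normEDS_even_idx b c d (k : ℤ) (2 * (k : ℤ)) ((k : ℤ) - 1)
          ((k : ℤ) + 2) ((k : ℤ) - 2) ((k : ℤ) + 1) (by ring) (by ring) (by ring) (by ring)
          (by ring)
        have ht := eds_normEDS_odd_idx b c d (k : ℤ) (2 * (k : ℤ) + 1) ((k : ℤ) + 2)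
          ((k : ℤ) - 1) ((k : ℤ) + 1) (by ring) (by ring) (by ring) (by ring)
        have hq := eds_normEDS_odd_idx b c d ((k : ℤ) - 1) (2 * (k : ℤ) - 1) ((k : ℤ) + 1)
          ((k : ℤ) - 2) (k : ℤ) (by ring) (by ring) (by ring) (by ring)
        have key := eds_somos4_even_step b c
          (normEDS b c d ((k : ℤ) - 3)) (normEDS b c d ((k : ℤ) - 2))
          (normEDS b c d ((k : ℤ) - 1)) (normEDS b c d (k : ℤ)) (normEDS b c d ((k : ℤ) + 1))
          (normEDS b c d ((k : ℤ) + 2)) (normEDS b c d ((k : ℤ) + 3))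
          (normEDS b c d (2 * (k : ℤ) + 2)) (normEDS b c d (2 * (k : ℤ) - 2))
          (normEDS b c d (2 * (k : ℤ))) (normEDS b c d (2 * (k : ℤ) + 1))
          (normEDS b c d (2 * (k : ℤ) - 1))
          (by linear_combination hr) (by linear_combination ho) (by linear_combination hs)
          (by linear_combination ht) (by linear_combination hq) (by linear_combination Tm')
          (by linear_combination Tm1') (by linear_combination Tm2')
        have key' := mul_left_cancel₀ (pow_ne_zero 2 hb) key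
        refine edsSomos4At_of_idx b c d (i := 2 * (k : ℤ) + 2) (j := 2 * (k : ℤ) - 2)
          (k := 2 * (k : ℤ) + 1) (l := 2 * (k : ℤ) - 1) (by push_cast; ring) (by push_cast; ring)
          (by push_cast; ring) (by push_cast; ring) ?_
        push_cast
        rw [key']
    · -- n = 2 * k + 1
      rcases Nat.eq_zero_or_pos k with rfl | hk
      · simp [EdsSomos4At]
      · have Tm := ih (k + 1) (by omega)
        have Tm1 := ih k (by omega)
        have Tm' := edsSomos4At_idx b c d Tm (i := (k : ℤ) + 3) (j := (k : ℤ) - 1)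
          (k := (k : ℤ) + 2) (l := (k : ℤ)) (by push_cast; ring) (by push_cast; ring)
          (by push_cast; ring) (by push_cast; ring)
        have Tm1' := edsSomos4At_idx b c d Tm1 (i := (k : ℤ) + 2) (j := (k : ℤ) - 2)
          (k := (k : ℤ) + 1) (l := (k : ℤ) - 1) (by ring) (by ring) (by ring) (by ring)
        push_cast at Tm'
        have hp := eds_normEDS_odd_idx b c d ((k : ℤ) + 1) (2 * (k : ℤ) + 3) ((k : ℤ) + 3)
          (k : ℤ) ((k : ℤ) + 2) (by ring) (by ring) (by ring) (by ring)
        have hq := eds_normEDS_odd_idx b c d ((k : ℤ) - 1) (2 * (k : ℤ) - 1) ((k : ℤ) + 1)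
          ((k : ℤ) - 2) (k : ℤ) (by ring) (by ring) (by ring) (by ring)
        have hr := eds_normEDS_even_idx b c d ((k : ℤ) + 1) (2 * (k : ℤ) + 2) (k : ℤ)
          ((k : ℤ) + 3) ((k : ℤ) - 1) ((k : ℤ) + 2) (by ring) (by ring) (by ring) (by ring)
          (by ring)
        have hs := eds_normEDS_even_idx b c d (k : ℤ) (2 * (k : ℤ)) ((k : ℤ) - 1)
          ((k : ℤ) + 2) ((k : ℤ) - 2) ((k : ℤ) + 1) (by ring) (by ring) (by ring) (by ring)
          (by ring)
        have ht := eds_normEDS_odd_idx b c d (k : ℤ) (2 * (k : ℤ) + 1) ((k : ℤ) + 2)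
          ((k : ℤ) - 1) ((k : ℤ) + 1) (by ring) (by ring) (by ring) (by ring)
        have key := eds_somos4_odd_step b c
          (normEDS b c d ((k : ℤ) - 2))
          (normEDS b c d ((k : ℤ) - 1)) (normEDS b c d (k : ℤ)) (normEDS b c d ((k : ℤ) + 1))
          (normEDS b c d ((k : ℤ) + 2)) (normEDS b c d ((k : ℤ) + 3))
          (normEDS b c d (2 * (k : ℤ) + 3)) (normEDS b c d (2 * (k : ℤ) - 1))
          (normEDS b c d (2 * (k : ℤ) + 2)) (normEDS b c d (2 * (k : ℤ)))
          (normEDS b c d (2 * (k : ℤ) + 1))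
          (by linear_combination hp) (by linear_combination hq) (by linear_combination hr)
          (by linear_combination hs) (by linear_combination ht) (by linear_combination Tm')
          (by linear_combination Tm1')
        refine edsSomos4At_of_idx b c d (i := 2 * (k : ℤ) + 3) (j := 2 * (k : ℤ) - 1)
          (k := 2 * (k : ℤ) + 2) (l := 2 * (k : ℤ)) (by push_cast; ring) (by push_cast; ring)
          (by push_cast; ring) (by push_cast; ring) ?_
        push_cast
        rw [key]

omit [IsDomain R] in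
theorem edsSomos4At_neg {n : ℤ} (h : EdsSomos4At b c d n) : EdsSomos4At b c d (-n) := by
  have h' := edsSomos4At_idx b c d h rfl rfl rfl rfl
  refine edsSomos4At_of_idx b c d (i := -(n - 2)) (j := -(n + 2)) (k := -(n - 1))
    (l := -(n + 1)) (by ring) (by ring) (by ring) (by ring) ?_
  simp only [normEDS_neg]
  linear_combination h'

theorem edsSomos4At_int_of_ne_zero (hb : b ≠ 0) (n : ℤ) : EdsSomos4At b c d n := by
  induction n using Int.negInduction with
  | nat n => exact edsSomos4At_nat_of_ne_zero b c d hb n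
  | neg _ n => exact edsSomos4At_neg b c d (edsSomos4At_nat_of_ne_zero b c d hb n)

end Domain

section General

variable {R : Type*} [CommRing R] (b c d : R)

/-- **Somos-4 relation for `normEDS`** over an arbitrary commutative ring. -/
theorem normEDS_somos4 (n : ℤ) :
    normEDS b c d (n + 2) * normEDS b c d (n - 2) =
      normEDS b c d (n + 1) * normEDS b c d (n - 1) * b ^ 2 - c * normEDS b c d n ^ 2 := by
  have huniv := edsSomos4At_int_of_ne_zero
    (MvPolynomial.X 0 : MvPolynomial (Fin 3) ℤ) (MvPolynomial.X 1) (MvPolynomial.X 2)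
    (MvPolynomial.X_ne_zero 0) n
  have hmap := congrArg (MvPolynomial.aeval (R := ℤ) ![b, c, d]) huniv
  simpa [EdsSomos4At, map_normEDS] using hmap

/-- The same relation with `normEDS b c d 2` and `normEDS b c d 3` written out. -/
theorem normEDS_somos4' (n : ℤ) :
    normEDS b c d (n + 2) * normEDS b c d (n - 2) =
      normEDS b c d (n + 1) * normEDS b c d (n - 1) * normEDS b c d 2 ^ 2 -
        normEDS b c d 3 * normEDS b c d n ^ 2 := by
  rw [normEDS_two, normEDS_three]
  exact normEDS_somos4 b c d n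

/-- Somos-4 for the bivariate division polynomials `W.ψ n` (which are `normEDS` by definition). -/
theorem weierstrass_ψ_somos4 (W : WeierstrassCurve R) (n : ℤ) :
    W.ψ (n + 2) * W.ψ (n - 2) =
      W.ψ (n + 1) * W.ψ (n - 1) * W.ψ₂ ^ 2 - Polynomial.C W.Ψ₃ * W.ψ n ^ 2 :=
  normEDS_somos4 W.ψ₂ (Polynomial.C W.Ψ₃) (Polynomial.C W.preΨ₄) n

end General

end Fermat.Agent.S13
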