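/-
Block (D), piece DP1b: the non-homogeneous three-term identity
  `W (n + 2) * W (n - 1) ^ 2 + W (n - 2) * W (n + 1) ^ 2
      = e * W (n + 1) * W (n - 1) * W n - W 2 ^ 2 * W n ^ 3`
for `W = normEDS b c (e * c - b ^ 4)` over an arbitrary commutative ring.
(For division polynomials: `b = ψ₂`, `c = Ψ₃`, `e = 6 X ^ 2 + b₂ X + b₄`, and
`preΨ₄ = e * Ψ₃ - Ψ₂Sq ^ 2`.)

Proof: with `E n := lhs - rhs` one has `E (n + 1) * W (n - 1) = E n * W (n + 2)` from the Somos-4
relation, `E 2 = 0`, and `W n ≠ 0` for `n ≥ 1` in the universal ring `ℤ[b, c, e]` (specialise to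
`b = 2, c = 3, e = 6`, where `W n = n`).
-/
import Mathlib
import Fermat.Agent.S13.EDS

set_option autoImplicit false

namespace Fermat.Agent.S13

section IdSeq

/-- The identity sequence is `normEDS 2 3 2` (natural indices). -/
theorem normEDS_two_three_two_nat (n : ℕ) : normEDS (2 : ℤ) 3 2 (n : ℤ) = n := by
  induction n using Nat.strong_induction_on with
  | _ n ih =>
    rcases Nat.even_or_odd' n with ⟨k, rfl | rfl⟩
    · -- n = 2 * k
      rcases Nat.lt_or_ge k 3 with hk | hk
      · interval_cases k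
        · simp
        · simp
        · simp
      · have e1 := ih (k - 2) (by omega)
        have e2 := ih (k - 1) (by omega)
        have e3 := ih k (by omega)
        have e4 := ih (k + 1) (by omega)
        have e5 := ih (k + 2) (by omega)
        have c1 : ((k - 2 : ℕ) : ℤ) = (k : ℤ) - 2 := by
          rw [Nat.cast_sub (by omega)]; simp
        have c2 : ((k - 1 : ℕ) : ℤ) = (k : ℤ) - 1 := by
          rw [Nat.cast_sub (by omega)]; simp
        rw [c1] at e1
        rw [c2] at e2
        push_cast at e4 e5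
        have hev := eds_normEDS_even_idx (2 : ℤ) 3 2 (k : ℤ) (2 * (k : ℤ)) ((k : ℤ) - 1)
          ((k : ℤ) + 2) ((k : ℤ) - 2) ((k : ℤ) + 1) (by ring) (by ring) (by ring) (by ring)
          (by ring)
        rw [e1, e2, e3, e4, e5] at hev
        have h2 : normEDS (2 : ℤ) 3 2 (2 * (k : ℤ)) * 2 = (2 * (k : ℤ)) * 2 := by
          rw [hev]; ring
        have := mul_right_cancel₀ (two_ne_zero) h2
        push_cast
        exact this
    · -- n = 2 * k + 1
      rcases Nat.lt_or_ge k 2 with hk | hk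
      · interval_cases k
        · simp
        · simp
      · have e2 := ih (k - 1) (by omega)
        have e3 := ih k (by omega)
        have e4 := ih (k + 1) (by omega)
        have e5 := ih (k + 2) (by omega)
        have c2 : ((k - 1 : ℕ) : ℤ) = (k : ℤ) - 1 := by
          rw [Nat.cast_sub (by omega)]; simp
        rw [c2] at e2
        push_cast at e4 e5
        have hod := eds_normEDS_odd_idx (2 : ℤ) 3 2 (k : ℤ) (2 * (k : ℤ) + 1) ((k : ℤ) + 2)
          ((k : ℤ) - 1) ((k : ℤ) + 1) (by ring) (by ring) (by ring) (by ring)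
        rw [e2, e3, e4, e5] at hod
        push_cast
        rw [hod]; ring

end IdSeq

section Step

variable {R : Type*} [CommRing R]

/-- Pure algebra: the propagation step for the defect of the identity `(*)`. -/
theorem eds_star_step (b c e hm2 hm1 h0 h1 h2 h3 : R)
    (S1 : h3 * hm1 = h2 * h0 * b ^ 2 - c * h1 ^ 2)
    (S0 : h2 * hm2 = h1 * hm1 * b ^ 2 - c * h0 ^ 2) :
    (h3 * h0 ^ 2 + hm1 * h2 ^ 2 - (e * h2 * h0 * h1 - b ^ 2 * h1 ^ 3)) * hm1 =
      (h2 * hm1 ^ 2 + hm2 * h1 ^ 2 - (e * h1 * hm1 * h0 - b ^ 2 * h0 ^ 3)) * h2 := by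
  linear_combination h0 ^ 2 * S1 - h1 ^ 2 * S0

/-- The identity `(*)` at index `n` for `normEDS b c d`, with auxiliary parameter `e`. -/
def EdsStarAt (b c d e : R) (n : ℤ) : Prop :=
  normEDS b c d (n + 2) * normEDS b c d (n - 1) ^ 2 +
      normEDS b c d (n - 2) * normEDS b c d (n + 1) ^ 2 =
    e * normEDS b c d (n + 1) * normEDS b c d (n - 1) * normEDS b c d n -
      b ^ 2 * normEDS b c d n ^ 3

theorem edsStarAt_idx {b c d e : R} {n i j k l : ℤ} (h : EdsStarAt b c d e n) (hi : i = n + 2)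
    (hj : j = n - 1) (hk : k = n - 2) (hl : l = n + 1) :
    normEDS b c d i * normEDS b c d j ^ 2 + normEDS b c d k * normEDS b c d l ^ 2 =
      e * normEDS b c d l * normEDS b c d j * normEDS b c d n - b ^ 2 * normEDS b c d n ^ 3 := by
  subst hi hj hk hl
  exact h

theorem edsStarAt_of_idx {b c d e : R} {n i j k l : ℤ} (hi : i = n + 2)
    (hj : j = n - 1) (hk : k = n - 2) (hl : l = n + 1)
    (h : normEDS b c d i * normEDS b c d j ^ 2 + normEDS b c d k * normEDS b c d l ^ 2 =
      e * normEDS b c d l * normEDS b c d j * normEDS b c d n - b ^ 2 * normEDS b c d n ^ 3) :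
    EdsStarAt b c d e n := by
  subst hi hj hk hl
  exact h

theorem edsStarAt_neg {b c d e : R} {n : ℤ} (h : EdsStarAt b c d e n) :
    EdsStarAt b c d e (-n) := by
  have h' := edsStarAt_idx h rfl rfl rfl rfl
  refine edsStarAt_of_idx (i := -(n - 2)) (j := -(n + 1)) (k := -(n + 2))
    (l := -(n - 1)) (by ring) (by ring) (by ring) (by ring) ?_
  simp only [normEDS_neg]
  linear_combination -h'

end Step

section Domain

variable {R : Type*} [CommRing R] [IsDomain R]

theorem edsStarAt_nat_of_ne_zero (b c e : R)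
    (hne : ∀ n : ℕ, 1 ≤ n → normEDS b c (e * c - b ^ 4) (n : ℤ) ≠ 0) (n : ℕ) :
    EdsStarAt b c (e * c - b ^ 4) e (n : ℤ) := by
  rcases Nat.lt_or_ge n 2 with hn | hn
  · interval_cases n
    · simp [EdsStarAt]
    · simp [EdsStarAt]
  · induction n, hn using Nat.le_induction with
    | base =>
      simp [EdsStarAt]
      ring
    | succ n hn ih =>
      have S1 := edsSomos4At_idx b c (e * c - b ^ 4)
        (normEDS_somos4 b c (e * c - b ^ 4) ((n : ℤ) + 1))
        (i := (n : ℤ) + 3) (j := (n : ℤ) - 1) (k := (n : ℤ) + 2) (l := (n : ℤ))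
        (by ring) (by ring) (by ring) (by ring)
      have S0 := normEDS_somos4 b c (e * c - b ^ 4) (n : ℤ)
      have ih' := edsStarAt_idx ih rfl rfl rfl rfl
      have key := eds_star_step b c e
        (normEDS b c (e * c - b ^ 4) ((n : ℤ) - 2)) (normEDS b c (e * c - b ^ 4) ((n : ℤ) - 1))
        (normEDS b c (e * c - b ^ 4) (n : ℤ)) (normEDS b c (e * c - b ^ 4) ((n : ℤ) + 1))
        (normEDS b c (e * c - b ^ 4) ((n : ℤ) + 2)) (normEDS b c (e * c - b ^ 4) ((n : ℤ) + 3))
        (by linear_combination S1) (by linear_combination S0)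
      have hzero : (normEDS b c (e * c - b ^ 4) ((n : ℤ) + 2) *
            normEDS b c (e * c - b ^ 4) ((n : ℤ) - 1) ^ 2 +
          normEDS b c (e * c - b ^ 4) ((n : ℤ) - 2) *
            normEDS b c (e * c - b ^ 4) ((n : ℤ) + 1) ^ 2 -
          (e * normEDS b c (e * c - b ^ 4) ((n : ℤ) + 1) *
            normEDS b c (e * c - b ^ 4) ((n : ℤ) - 1) * normEDS b c (e * c - b ^ 4) (n : ℤ) -
            b ^ 2 * normEDS b c (e * c - b ^ 4) (n : ℤ) ^ 3)) = 0 := by
        linear_combination ih'
      rw [hzero, zero_mul] at key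
      have hne' : normEDS b c (e * c - b ^ 4) ((n : ℤ) - 1) ≠ 0 := by
        have := hne (n - 1) (by omega)
        rwa [Nat.cast_sub (by omega), Nat.cast_one] at this
      have key' := (mul_eq_zero.mp key).resolve_right hne'
      refine edsStarAt_of_idx (i := (n : ℤ) + 3) (j := (n : ℤ)) (k := (n : ℤ) - 1)
        (l := (n : ℤ) + 2) (by push_cast; ring) (by push_cast; ring) (by push_cast; ring)
        (by push_cast; ring) ?_
      push_cast
      linear_combination key'

theorem edsStarAt_int_of_ne_zero (b c e : R)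
    (hne : ∀ n : ℕ, 1 ≤ n → normEDS b c (e * c - b ^ 4) (n : ℤ) ≠ 0) (n : ℤ) :
    EdsStarAt b c (e * c - b ^ 4) e n := by
  induction n using Int.negInduction with
  | nat n => exact edsStarAt_nat_of_ne_zero b c e hne n
  | neg _ n => exact edsStarAt_neg (edsStarAt_nat_of_ne_zero b c e hne n)

end Domain

section General

variable {R : Type*} [CommRing R]

theorem normEDS_univ_ne_zero (n : ℕ) (hn : 1 ≤ n) :
    normEDS (MvPolynomial.X 0 : MvPolynomial (Fin 3) ℤ) (MvPolynomial.X 1)
      (MvPolynomial.X 2 * MvPolynomial.X 1 - MvPolynomial.X 0 ^ 4) (n : ℤ) ≠ 0 := by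
  intro h0
  have h1 := congrArg (MvPolynomial.aeval (R := ℤ) ![(2 : ℤ), 3, 6]) h0
  rw [map_normEDS] at h1
  simp only [map_sub, map_mul, map_pow, MvPolynomial.aeval_X, map_zero] at h1
  have h2 : (![(2 : ℤ), 3, 6] 2 * ![(2 : ℤ), 3, 6] 1 - ![(2 : ℤ), 3, 6] 0 ^ 4) = 2 := by
    simp
  have h3 : (![(2 : ℤ), 3, 6] 0) = 2 := by simp
  have h4 : (![(2 : ℤ), 3, 6] 1) = 3 := by simp
  rw [h2, h3, h4, normEDS_two_three_two_nat] at h1
  have : (n : ℤ) ≠ 0 := by
    have : 0 < n := hn
    exact_mod_cast this.ne'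
  exact this h1

/-- **The three-term identity `(*)` for `normEDS b c (e * c - b ^ 4)`** over an arbitrary
commutative ring. -/
theorem normEDS_star (b c e : R) (n : ℤ) :
    normEDS b c (e * c - b ^ 4) (n + 2) * normEDS b c (e * c - b ^ 4) (n - 1) ^ 2 +
        normEDS b c (e * c - b ^ 4) (n - 2) * normEDS b c (e * c - b ^ 4) (n + 1) ^ 2 =
      e * normEDS b c (e * c - b ^ 4) (n + 1) * normEDS b c (e * c - b ^ 4) (n - 1) *
          normEDS b c (e * c - b ^ 4) n -
        b ^ 2 * normEDS b c (e * c - b ^ 4) n ^ 3 := by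
  have huniv := edsStarAt_int_of_ne_zero
    (MvPolynomial.X 0 : MvPolynomial (Fin 3) ℤ) (MvPolynomial.X 1) (MvPolynomial.X 2)
    normEDS_univ_ne_zero n
  have hmap := congrArg (MvPolynomial.aeval (R := ℤ) ![b, c, e]) huniv
  simpa [EdsStarAt, map_normEDS] using hmap

/-- Variant with the hypothesis `d = e * c - b ^ 4` separated. -/
theorem normEDS_star' (b c d e : R) (hd : d = e * c - b ^ 4) (n : ℤ) :
    normEDS b c d (n + 2) * normEDS b c d (n - 1) ^ 2 +
        normEDS b c d (n - 2) * normEDS b c d (n + 1) ^ 2 =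
      e * normEDS b c d (n + 1) * normEDS b c d (n - 1) * normEDS b c d n -
        b ^ 2 * normEDS b c d n ^ 3 := by
  subst hd
  exact normEDS_star b c e n

end General

end Fermat.Agent.S13
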