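/-
Block (D): the three-term identity `(*)` for the division polynomials `ψₙ` in the affine coordinate
ring of an ARBITRARY Weierstrass curve over an ARBITRARY commutative ring (no domain / char 0
hypothesis), together with the Somos-4 relation there.  From `EDS.lean` and `EDSStar.lean`.
-/
import Mathlib
import Fermat.Agent.S13.EDS
import Fermat.Agent.S13.EDSStar

set_option autoImplicit false

open Polynomial

namespace Fermat.Agent.S13

variable {R : Type*} [CommRing R] (W : WeierstrassCurve R)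

/-- The polynomial `κ = 6 X ^ 2 + b₂ X + b₄` (half the derivative of `Ψ₂Sq`). -/
noncomputable def divPolyKappa : R[X] := 6 * X ^ 2 + C W.b₂ * X + C W.b₄

/-- `preΨ₄ = κ * Ψ₃ - Ψ₂Sq ^ 2` in `R[X]`. -/
theorem preΨ₄_eq_kappa : W.preΨ₄ = divPolyKappa W * W.Ψ₃ - W.Ψ₂Sq ^ 2 := by
  have hb : C (4 : R) * C W.b₈ = C W.b₂ * C W.b₆ - C W.b₄ ^ 2 := by
    rw [← C_mul, W.b_relation]
    simp
  rw [WeierstrassCurve.preΨ₄, divPolyKappa, WeierstrassCurve.Ψ₃, WeierstrassCurve.Ψ₂Sq]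
  simp only [map_ofNat, C_sub, C_mul, C_pow] at hb ⊢
  linear_combination (X ^ 2) * hb

open WeierstrassCurve.Affine.CoordinateRing in
/-- `mk (ψ n)` is the `normEDS` of the images. -/
theorem mk_ψ_eq_normEDS (n : ℤ) :
    mk W (W.ψ n) = normEDS (mk W W.ψ₂) (mk W (C W.Ψ₃)) (mk W (C W.preΨ₄)) n := by
  rw [WeierstrassCurve.ψ, map_normEDS]

open WeierstrassCurve.Affine.CoordinateRing in
/-- **Somos-4 for `ψₙ` in the coordinate ring.** -/
theorem mk_ψ_somos4 (n : ℤ) :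
    mk W (W.ψ (n + 2)) * mk W (W.ψ (n - 2)) =
      mk W (W.ψ (n + 1)) * mk W (W.ψ (n - 1)) * mk W (C W.Ψ₂Sq) -
        mk W (C W.Ψ₃) * mk W (W.ψ n) ^ 2 := by
  have h := congrArg (mk W) (weierstrass_ψ_somos4 W n)
  simp only [map_mul, map_sub, map_pow] at h
  rw [h, mk_ψ₂_sq]

open WeierstrassCurve.Affine.CoordinateRing in
/-- **The three-term identity `(*)` for `ψₙ` in the coordinate ring** of any Weierstrass curve over
any commutative ring. -/
theorem mk_ψ_star (n : ℤ) :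
    mk W (W.ψ (n + 2)) * mk W (W.ψ (n - 1)) ^ 2 + mk W (W.ψ (n - 2)) * mk W (W.ψ (n + 1)) ^ 2 =
      mk W (W.ψ n) * (mk W (C (divPolyKappa W)) * mk W (W.ψ (n + 1)) * mk W (W.ψ (n - 1)) -
        mk W (C W.Ψ₂Sq) * mk W (W.ψ n) ^ 2) := by
  have hd : mk W (C W.preΨ₄) =
      mk W (C (divPolyKappa W)) * mk W (C W.Ψ₃) - mk W W.ψ₂ ^ 4 := by
    rw [show mk W W.ψ₂ ^ 4 = (mk W W.ψ₂ ^ 2) ^ 2 by ring, mk_ψ₂_sq, preΨ₄_eq_kappa]
    simp only [map_mul, map_sub, map_pow]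
  have h := normEDS_star' (mk W W.ψ₂) (mk W (C W.Ψ₃)) (mk W (C W.preΨ₄))
    (mk W (C (divPolyKappa W))) hd n
  simp only [← mk_ψ_eq_normEDS] at h
  rw [h, mk_ψ₂_sq]
  ring

end Fermat.Agent.S13
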