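import Mathlib

/-!
# The addition-and-subtraction map on x-coordinates does what it claims (S13, block (D), piece T1)

For a Weierstrass curve `W` over a field and nonsingular points `P`, `Q` (possibly `0`),
Mathlib's `WeierstrassCurve.addSubMap` evaluated at `P.sym2x Q` is a nonzero multiple of
`(P + Q).sym2x (P - Q)`.  This is the `TODO` of `Mathlib/AlgebraicGeometry/EllipticCurve/Affine/AddSubMap.lean`.
-/

open WeierstrassCurve

namespace Fermat.Agent.S13.AddSub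

section Ring
variable {R : Type*} [CommRing R] (W : WeierstrassCurve R)

/-- The explicit form of `addSubMap` on coordinate vectors. -/
def asMap (v : Fin 3 → R) : Fin 3 → R :=
  ![v 0 ^ 2 - W.b₄ * v 0 * v 2 - W.b₆ * v 1 * v 2 - W.b₈ * v 2 ^ 2,
    2 * v 1 * v 0 + W.b₂ * v 0 * v 2 + W.b₄ * v 1 * v 2 + W.b₆ * v 2 ^ 2,
    v 1 ^ 2 - 4 * v 0 * v 2]

theorem eval_addSubMap_zero (v : Fin 3 → R) :
    MvPolynomial.eval v (addSubMap W 0) =
      v 0 ^ 2 - W.b₄ * v 0 * v 2 - W.b₆ * v 1 * v 2 - W.b₈ * v 2 ^ 2 := by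
  simp [addSubMap]

theorem eval_addSubMap_one (v : Fin 3 → R) :
    MvPolynomial.eval v (addSubMap W 1) =
      2 * v 1 * v 0 + W.b₂ * v 0 * v 2 + W.b₄ * v 1 * v 2 + W.b₆ * v 2 ^ 2 := by
  simp [addSubMap]

theorem eval_addSubMap_two (v : Fin 3 → R) :
    MvPolynomial.eval v (addSubMap W 2) = v 1 ^ 2 - 4 * v 0 * v 2 := by
  simp [addSubMap]

theorem asMap_eq_eval (v : Fin 3 → R) :
    asMap W v = fun i => MvPolynomial.eval v (addSubMap W i) := by
  funext i
  fin_cases i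
  · simpa [asMap] using (eval_addSubMap_zero W v).symm
  · simpa [asMap] using (eval_addSubMap_one W v).symm
  · simpa [asMap] using (eval_addSubMap_two W v).symm

end Ring

section Field

variable {F : Type*} [Field F] (W : WeierstrassCurve.Affine F)

theorem chord_sum {x₁ y₁ x₂ y₂ : F} (h₁ : W.Equation x₁ y₁) (h₂ : W.Equation x₂ y₂)
    (hx : x₁ ≠ x₂) :
    (x₁ - x₂) ^ 2 * (W.addX x₁ x₂ ((y₁ - y₂) / (x₁ - x₂)) +
        W.addX x₁ x₂ ((y₁ - W.negY x₂ y₂) / (x₁ - x₂))) =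
      2 * (x₁ + x₂) * (x₁ * x₂) + W.b₂ * (x₁ * x₂) + W.b₄ * (x₁ + x₂) + W.b₆ := by
  have hd : x₁ - x₂ ≠ 0 := sub_ne_zero.mpr hx
  rw [Affine.equation_iff] at h₁ h₂
  simp only [Affine.addX, Affine.negY, b₂, b₄, b₆]
  field_simp
  linear_combination 2 * h₁ + 2 * h₂

theorem chord_prod {x₁ y₁ x₂ y₂ : F} (h₁ : W.Equation x₁ y₁) (h₂ : W.Equation x₂ y₂)
    (hx : x₁ ≠ x₂) :
    (x₁ - x₂) ^ 2 * (W.addX x₁ x₂ ((y₁ - y₂) / (x₁ - x₂)) *
        W.addX x₁ x₂ ((y₁ - W.negY x₂ y₂) / (x₁ - x₂))) =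
      (x₁ * x₂) ^ 2 - W.b₄ * (x₁ * x₂) - W.b₆ * (x₁ + x₂) - W.b₈ := by
  have hd : x₁ - x₂ ≠ 0 := sub_ne_zero.mpr hx
  rw [Affine.equation_iff] at h₁ h₂
  simp only [Affine.addX, Affine.negY, b₄, b₆, b₈]
  field_simp
  grind

theorem psi2_sq {x y : F} (h : W.Equation x y) :
    (y - W.negY x y) ^ 2 = 4 * x ^ 3 + W.b₂ * x ^ 2 + 2 * W.b₄ * x + W.b₆ := by
  rw [Affine.equation_iff] at h
  simp only [Affine.negY, b₂, b₄, b₆]
  linear_combination 4 * h

theorem tangent_x {x y : F} (h : W.Equation x y) (hy : y ≠ W.negY x y) :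
    (4 * x ^ 3 + W.b₂ * x ^ 2 + 2 * W.b₄ * x + W.b₆) *
        W.addX x x ((3 * x ^ 2 + 2 * W.a₂ * x + W.a₄ - W.a₁ * y) / (y - W.negY x y)) =
      x ^ 4 - W.b₄ * x ^ 2 - 2 * W.b₆ * x - W.b₈ := by
  have hd : y - W.negY x y ≠ 0 := sub_ne_zero.mpr hy
  rw [← psi2_sq W h]
  have hψ : y - W.negY x y = 2 * y + W.a₁ * x + W.a₃ := by simp only [Affine.negY]; ring
  rw [hψ] at hd ⊢
  generalize hp : 2 * y + W.a₁ * x + W.a₃ = ψ at hd ⊢
  rw [Affine.equation_iff] at h
  simp only [Affine.addX, b₄, b₆, b₈]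
  field_simp
  subst hp
  grind

theorem phi2_ne_zero {x y : F} (h : W.Nonsingular x y) (hy : y = W.negY x y) :
    x ^ 4 - W.b₄ * x ^ 2 - 2 * W.b₆ * x - W.b₈ ≠ 0 := by
  rw [Affine.nonsingular_iff] at h
  obtain ⟨h, hns⟩ := h
  rw [Affine.equation_iff] at h
  simp only [Affine.negY] at hy
  have hX : W.a₁ * y - (3 * x ^ 2 + 2 * W.a₂ * x + W.a₄) ≠ 0 := by
    rcases hns with hns | hns
    · exact sub_ne_zero.mpr hns
    · exact absurd hy hns
  have key : x ^ 4 - W.b₄ * x ^ 2 - 2 * W.b₆ * x - W.b₈ =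
      (W.a₁ * y - (3 * x ^ 2 + 2 * W.a₂ * x + W.a₄)) ^ 2 := by
    simp only [b₄, b₆, b₈]
    grind
  rw [key]
  exact pow_ne_zero 2 hX

variable [DecidableEq F]

open WeierstrassCurve.Affine WeierstrassCurve.Affine.Point

/-- Doubling case: `asMap` at `sym2x P P` is a nonzero multiple of `sym2x (P + P) 0`. -/
theorem asMap_sym2x_self (P : W.Point) :
    ∃ lam : F, lam ≠ 0 ∧ asMap W (P.sym2x P) = lam • (P + P).sym2x 0 := by
  rcases P with _ | ⟨x, y, h⟩
  · refine ⟨1, one_ne_zero, ?_⟩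
    simp [asMap, ← zero_def]
  · by_cases hy : y = W.negY x y
    · refine ⟨_, phi2_ne_zero W h hy, ?_⟩
      rw [add_self_of_Y_eq hy, sym2x_zero_zero, sym2x_some_some]
      have h2 := psi2_sq W h.1
      rw [← hy, sub_self] at h2
      funext i
      fin_cases i
      · simp [asMap]; ring
      · simp [asMap]; linear_combination -h2
      · simp [asMap]; ring
    · refine ⟨4 * x ^ 3 + W.b₂ * x ^ 2 + 2 * W.b₄ * x + W.b₆, ?_, ?_⟩
      · rw [← psi2_sq W h.1]
        exact pow_ne_zero 2 (sub_ne_zero.mpr hy)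
      · rw [add_self_of_Y_ne hy, sym2x_some_zero, sym2x_some_some, slope_of_Y_ne rfl hy]
        have h3 := tangent_x W h.1 hy
        generalize W.addX x x ((3 * x ^ 2 + 2 * W.a₂ * x + W.a₄ - W.a₁ * y) / (y - W.negY x y)) = X₃
          at h3 ⊢
        funext i
        fin_cases i
        · simp [asMap]; linear_combination -h3
        · simp [asMap]; ring
        · simp [asMap]; ring

/-- **The addition-and-subtraction map theorem** (explicit form). -/
theorem asMap_sym2x (P Q : W.Point) :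
    ∃ lam : F, lam ≠ 0 ∧ asMap W (P.sym2x Q) = lam • (P + Q).sym2x (P - Q) := by
  rcases P with _ | ⟨x₁, y₁, h₁⟩
  · -- P = 0
    rcases Q with _ | ⟨x₂, y₂, h₂⟩
    · refine ⟨1, one_ne_zero, ?_⟩
      simp [asMap, ← zero_def]
    · refine ⟨1, one_ne_zero, ?_⟩
      rw [← zero_def, zero_add, zero_sub, sym2x_neg_right, sym2x_zero_some, sym2x_some_some]
      funext i
      fin_cases i <;> simp [asMap] <;> ring
  · rcases Q with _ | ⟨x₂, y₂, h₂⟩
    · refine ⟨1, one_ne_zero, ?_⟩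
      rw [← zero_def, add_zero, sub_zero, sym2x_some_zero, sym2x_some_some]
      funext i
      fin_cases i <;> simp [asMap] <;> ring
    · by_cases hx : x₁ = x₂
      · -- Q = ± P
        rcases (X_eq_iff (h₁ := h₁) (h₂ := h₂)).mp hx with hPQ | hPQ
        · obtain ⟨lam, hlam, h⟩ := asMap_sym2x_self W (some x₁ y₁ h₁)
          refine ⟨lam, hlam, ?_⟩
          rw [← hPQ, h, sub_self]
        · obtain ⟨lam, hlam, h⟩ := asMap_sym2x_self W (some x₁ y₁ h₁)
          refine ⟨lam, hlam, ?_⟩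
          have hQ : some x₂ y₂ h₂ = -some x₁ y₁ h₁ := by rw [hPQ, neg_neg]
          rw [hQ, sym2x_neg_right, h, sub_neg_eq_add, add_neg_cancel, sym2x_comm]
      · refine ⟨(x₁ - x₂) ^ 2, pow_ne_zero 2 (sub_ne_zero.mpr hx), ?_⟩
        rw [sub_eq_add_neg (some x₁ y₁ h₁), neg_some, add_of_X_ne hx, add_of_X_ne hx,
          sym2x_some_some, sym2x_some_some, slope_of_X_ne hx, slope_of_X_ne hx]
        have hs := chord_sum W h₁.1 h₂.1 hx
        have hp := chord_prod W h₁.1 h₂.1 hx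
        generalize W.addX x₁ x₂ ((y₁ - y₂) / (x₁ - x₂)) = Xp at hs hp ⊢
        generalize W.addX x₁ x₂ ((y₁ - W.negY x₂ y₂) / (x₁ - x₂)) = Xm at hs hp ⊢
        funext i
        fin_cases i
        · simp [asMap]; linear_combination -hp
        · simp [asMap]; linear_combination -hs
        · simp [asMap]; ring

/-- **The addition-and-subtraction map theorem** in Mathlib's formulation. -/
theorem addSubMap_sym2x (P Q : W.Point) :
    ∃ lam : F, lam ≠ 0 ∧
      (fun i => MvPolynomial.eval (P.sym2x Q) (addSubMap W i)) = lam • (P + Q).sym2x (P - Q) := by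
  rw [← asMap_eq_eval]
  exact asMap_sym2x W P Q

end Field

end Fermat.Agent.S13.AddSub
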