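import Mathlib
import Fermat.Agent.S13.AddSubMapThm

/-!
# Multiplication by `n` via division polynomials (S13, block (D), piece T3)

Projective x-only induction: given the three "addSubMap identities" for the pairs
`(Φ_n(x), ΨSq_n(x))` (hypothesis `AddSubIdentities`, piece T2), we prove for a nonsingular
affine point `P = (x, y)` and all `n : ℤ`:

* `(W.ΨSq n).eval x = 0 ↔ n • P = 0`;
* if `n • P = (x', y')` then `x' * (W.ΨSq n).eval x = (W.Φ n).eval x`.
-/

open WeierstrassCurve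

namespace Fermat.Agent.S13.AddSub

section Sym2

variable {R : Type*} [CommRing R]

/-- The symmetric square map on coordinate vectors of `ℙ¹`. -/
def sym2 (u v : Fin 2 → R) : Fin 3 → R :=
  ![u 0 * v 0, u 0 * v 1 + u 1 * v 0, u 1 * v 1]

theorem sym2_smul_left (c : R) (u v : Fin 2 → R) : sym2 (c • u) v = c • sym2 u v := by
  funext i
  fin_cases i <;> simp [sym2] <;> ring

theorem sym2_smul_right (c : R) (u v : Fin 2 → R) : sym2 u (c • v) = c • sym2 u v := by
  funext i
  fin_cases i <;> simp [sym2] <;> ring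

theorem sym2_sub_left (u u' v : Fin 2 → R) : sym2 (u - u') v = sym2 u v - sym2 u' v := by
  funext i
  fin_cases i <;> simp [sym2] <;> ring

theorem asMap_smul (W : WeierstrassCurve R) (c : R) (v : Fin 3 → R) :
    asMap W (c • v) = c ^ 2 • asMap W v := by
  funext i
  fin_cases i <;> simp [asMap] <;> ring

theorem sym2x_eq_sym2 {W' : WeierstrassCurve.Affine R} (P Q : W'.Point) :
    P.sym2x Q = sym2 P.xRep Q.xRep := rfl

end Sym2

section Field

variable {F : Type*} [Field F]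

theorem eq_zero_of_sym2_eq_zero {u v : Fin 2 → F} (hv : v ≠ 0) (h : sym2 u v = 0) : u = 0 := by
  have h0 : u 0 * v 0 = 0 := by simpa [sym2] using congrFun h 0
  have h1 : u 0 * v 1 + u 1 * v 0 = 0 := by simpa [sym2] using congrFun h 1
  have h2 : u 1 * v 1 = 0 := by simpa [sym2] using congrFun h 2
  by_cases hv0 : v 0 = 0
  · have hv1 : v 1 ≠ 0 := by
      intro hv1
      apply hv
      funext i
      fin_cases i <;> simp [hv0, hv1]
    have hu1 : u 1 = 0 := (mul_eq_zero.mp h2).resolve_right hv1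
    have hu0 : u 0 = 0 := by
      rw [hu1, zero_mul, add_zero] at h1
      exact (mul_eq_zero.mp h1).resolve_right hv1
    funext i
    fin_cases i <;> simp [hu0, hu1]
  · have hu0 : u 0 = 0 := (mul_eq_zero.mp h0).resolve_right hv0
    have hu1 : u 1 = 0 := by
      rw [hu0, zero_mul, zero_add] at h1
      exact (mul_eq_zero.mp h1).resolve_right hv0
    funext i
    fin_cases i <;> simp [hu0, hu1]

variable (W : WeierstrassCurve.Affine F) [DecidableEq F]

open WeierstrassCurve.Affine WeierstrassCurve.Affine.Point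

/-- Abstract projective induction: a sequence of coordinate vectors `A n` with `A 0 = (1 : 0)`,
`A 1 = x(P)` and satisfying the addSubMap recursion represents `x(n • P)` for all `n : ℕ`. -/
theorem exists_smul_xRep_of_rec (P : W.Point) (A : ℤ → Fin 2 → F) (h0 : A 0 = ![1, 0])
    (h1 : A 1 = P.xRep)
    (hstep : ∀ n : ℤ, asMap W (sym2 (A n) (A 1)) = sym2 (A (n + 1)) (A (n - 1))) (n : ℕ) :
    (∃ c : F, c ≠ 0 ∧ A n = c • ((n : ℤ) • P).xRep) ∧
      ∃ c : F, c ≠ 0 ∧ A (n + 1) = c • (((n : ℤ) + 1) • P).xRep := by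
  induction n with
  | zero =>
    refine ⟨⟨1, one_ne_zero, ?_⟩, ⟨1, one_ne_zero, ?_⟩⟩
    · simp [h0]
    · simp [h1]
  | succ n ih =>
    obtain ⟨⟨cm, hcm, hAm⟩, ⟨c, hc, hA⟩⟩ := ih
    refine ⟨⟨c, hc, by push_cast; exact hA⟩, ?_⟩
    obtain ⟨lam, hlam, hlamE⟩ := asMap_sym2x W (((n : ℤ) + 1) • P) P
    have hs := hstep ((n : ℤ) + 1)
    rw [hA, h1, sym2_smul_left, ← sym2x_eq_sym2, asMap_smul, hlamE] at hs
    have e1 : ((n : ℤ) + 1) • P + P = ((n : ℤ) + 1 + 1) • P := by
      rw [add_smul ((n : ℤ) + 1) 1 P, one_smul]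
    have e2 : ((n : ℤ) + 1) • P - P = (n : ℤ) • P := by
      rw [add_smul, one_smul, add_sub_cancel_right]
    rw [e1, e2, add_sub_cancel_right, sym2x_eq_sym2] at hs
    -- hs : c^2 • lam • sym2 (xRep ((n+2)P)) (xRep (nP)) = sym2 (A (n+2)) (A n)
    have hxm : ((n : ℤ) • P).xRep = cm⁻¹ • A n := by
      rw [hAm, smul_smul, inv_mul_cancel₀ hcm, one_smul]
    rw [hxm, sym2_smul_right] at hs
    set μ : F := c ^ 2 * (lam * cm⁻¹) with hμ
    have hμ0 : μ ≠ 0 := by
      rw [hμ]
      exact mul_ne_zero (pow_ne_zero 2 hc) (mul_ne_zero hlam (inv_ne_zero hcm))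
    have hAn0 : A n ≠ 0 := by
      rw [hAm]
      intro h
      have := (smul_eq_zero.mp h).resolve_left hcm
      exact xRep_ne_zero _ this
    have hz : sym2 (A ((n : ℤ) + 1 + 1) - μ • (((n : ℤ) + 1 + 1) • P).xRep) (A n) = 0 := by
      rw [sym2_sub_left, sym2_smul_left, ← hs, hμ, smul_smul, smul_smul, sub_eq_zero, mul_assoc]
    have := eq_zero_of_sym2_eq_zero hAn0 hz
    refine ⟨μ, hμ0, ?_⟩
    push_cast
    exact sub_eq_zero.mp this

end Field

section DivisionPolynomial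

open Polynomial

/-- The three "addSubMap identities" for the division polynomials `Φ_n`, `ΨSq_n` (piece T2):
`addSubMap` maps `sym2 (Φ_n : ΨSq_n) (X : 1)` to `sym2 (Φ_{n+1} : ΨSq_{n+1}) (Φ_{n-1} : ΨSq_{n-1})`
exactly (scalar factor `1`). -/
def AddSubIdentities {R : Type*} [CommRing R] (W : WeierstrassCurve R) : Prop :=
  ∀ n : ℤ,
    W.Φ (n + 1) * W.Φ (n - 1) =
        (W.Φ n * X) ^ 2 - C W.b₄ * (W.Φ n * X) * W.ΨSq n -
          C W.b₆ * (W.Φ n + W.ΨSq n * X) * W.ΨSq n - C W.b₈ * W.ΨSq n ^ 2 ∧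
      W.Φ (n + 1) * W.ΨSq (n - 1) + W.ΨSq (n + 1) * W.Φ (n - 1) =
        2 * (W.Φ n + W.ΨSq n * X) * (W.Φ n * X) + C W.b₂ * (W.Φ n * X) * W.ΨSq n +
          C W.b₄ * (W.Φ n + W.ΨSq n * X) * W.ΨSq n + C W.b₆ * W.ΨSq n ^ 2 ∧
      W.ΨSq (n + 1) * W.ΨSq (n - 1) =
        (W.Φ n + W.ΨSq n * X) ^ 2 - 4 * (W.Φ n * X) * W.ΨSq n

variable {F : Type*} [Field F] (W : WeierstrassCurve.Affine F)

open WeierstrassCurve.Affine WeierstrassCurve.Affine.Point

/-- The coordinate vector `(Φ_n(x) : ΨSq_n(x))`. -/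
noncomputable def divVec (x : F) (n : ℤ) : Fin 2 → F :=
  ![(W.Φ n).eval x, (W.ΨSq n).eval x]

theorem divVec_zero (x : F) : divVec W x 0 = ![1, 0] := by
  simp [divVec]

theorem divVec_one (x : F) : divVec W x 1 = ![x, 1] := by
  simp [divVec]

theorem divVec_neg (x : F) (n : ℤ) : divVec W x (-n) = divVec W x n := by
  simp [divVec]

theorem divVec_step (hT2 : AddSubIdentities W) (x : F) (n : ℤ) :
    asMap W (sym2 (divVec W x n) (divVec W x 1)) =
      sym2 (divVec W x (n + 1)) (divVec W x (n - 1)) := by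
  obtain ⟨h1, h2, h3⟩ := hT2 n
  have e1 := congrArg (Polynomial.eval x) h1
  have e2 := congrArg (Polynomial.eval x) h2
  have e3 := congrArg (Polynomial.eval x) h3
  simp only [eval_mul, eval_add, eval_sub, eval_pow, eval_C, eval_X, eval_ofNat] at e1 e2 e3
  rw [divVec_one]
  funext i
  fin_cases i
  · simp [asMap, sym2, divVec]; linear_combination -e1
  · simp [asMap, sym2, divVec]; linear_combination -e2
  · simp [asMap, sym2, divVec]; linear_combination -e3

variable [DecidableEq F]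

/-- **Multiplication by `n` in projective x-coordinates**: `(Φ_n(x) : ΨSq_n(x))` is a nonzero
multiple of the coordinate vector of `x(n • P)`. -/
theorem divVec_eq_smul_xRep (hT2 : AddSubIdentities W) {x y : F} (h : W.Nonsingular x y) (n : ℤ) :
    ∃ c : F, c ≠ 0 ∧ divVec W x n = c • (n • some x y h).xRep := by
  have key : ∀ m : ℕ, ∃ c : F, c ≠ 0 ∧ divVec W x m = c • ((m : ℤ) • some x y h).xRep := fun m =>
    (exists_smul_xRep_of_rec W (some x y h) (divVec W x) (divVec_zero W x)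
      (by rw [divVec_one, xRep_some]) (divVec_step W hT2 x) m).1
  obtain ⟨m, rfl | rfl⟩ := n.eq_nat_or_neg
  · exact key m
  · obtain ⟨c, hc, hcE⟩ := key m
    exact ⟨c, hc, by rw [divVec_neg, neg_smul, xRep_neg, hcE]⟩

/-- `ΨSq_n(x(P)) = 0 ↔ n • P = 0`. -/
theorem eval_ΨSq_eq_zero_iff (hT2 : AddSubIdentities W) {x y : F} (h : W.Nonsingular x y) (n : ℤ) :
    (W.ΨSq n).eval x = 0 ↔ n • some x y h = 0 := by
  obtain ⟨c, hc, hcE⟩ := divVec_eq_smul_xRep W hT2 h n
  have h1 : (W.ΨSq n).eval x = c * (n • some x y h).xRep 1 := by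
    have := congrFun hcE 1
    simpa [divVec] using this
  constructor
  · intro h0
    rw [h0] at h1
    rcases hP : n • some x y h with _ | ⟨x', y', h'⟩
    · rfl
    · rw [hP, xRep_some] at h1
      simp at h1
      exact absurd h1.symm hc
  · intro hP
    rw [h1, hP, xRep_zero]
    simp

/-- If `n • P = (x', y')` then `x' * ΨSq_n(x(P)) = Φ_n(x(P))`. -/
theorem x_smul_mul_eval_ΨSq (hT2 : AddSubIdentities W) {x y : F} (h : W.Nonsingular x y) (n : ℤ)
    {x' y' : F} {h' : W.Nonsingular x' y'} (hP : n • some x y h = some x' y' h') :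
    x' * (W.ΨSq n).eval x = (W.Φ n).eval x := by
  obtain ⟨c, hc, hcE⟩ := divVec_eq_smul_xRep W hT2 h n
  rw [hP, xRep_some] at hcE
  have h0 : (W.Φ n).eval x = c * x' := by simpa [divVec] using congrFun hcE 0
  have h1 : (W.ΨSq n).eval x = c := by simpa [divVec] using congrFun hcE 1
  rw [h0, h1, mul_comm]

/-- If `n • P = 0` then `Φ_n(x(P)) ≠ 0`. -/
theorem eval_Φ_ne_zero_of_smul_eq_zero (hT2 : AddSubIdentities W) {x y : F}
    (h : W.Nonsingular x y) (n : ℤ) (hP : n • some x y h = 0) : (W.Φ n).eval x ≠ 0 := by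
  obtain ⟨c, hc, hcE⟩ := divVec_eq_smul_xRep W hT2 h n
  rw [hP, xRep_zero] at hcE
  have h0 : (W.Φ n).eval x = c := by simpa [divVec] using congrFun hcE 0
  rwa [h0]

end DivisionPolynomial

end Fermat.Agent.S13.AddSub
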