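/-
Block (D), piece T2 (second shot): the three `addSubMap` identities for `(Φₙ, ΨSqₙ)` in `R[X]`,
for every Weierstrass curve over every commutative ring, from the Somos-4 relation and the
three-term identity `(*)` in the coordinate ring (`DivPolyStar.lean`), pulled back along the
injection `R[X] → R[W]`.
-/
import Mathlib
import Fermat.Agent.S13.DivPolyStar
import Fermat.Agent.S13.MulByN

set_option autoImplicit false
set_option linter.unusedSimpArgs false

open Polynomial

namespace Fermat.Agent.S13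

variable {R : Type*} [CommRing R] (W : WeierstrassCurve R)

open WeierstrassCurve.Affine.CoordinateRing in
/-- The ring homomorphism `R[X] → R[W]`, `p ↦ mk (C p)`. -/
noncomputable def coordIota : R[X] →+* W.toAffine.CoordinateRing :=
  (mk W).comp (C : R[X] →+* R[X][X])

open WeierstrassCurve.Affine.CoordinateRing in
theorem coordIota_apply (p : R[X]) : coordIota W p = mk W (C p) := rfl

open WeierstrassCurve.Affine.CoordinateRing in
theorem coordIota_injective : Function.Injective (coordIota W) := by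
  have h := FaithfulSMul.algebraMap_injective R[X] W.toAffine.CoordinateRing
  intro p q hpq
  apply h
  exact hpq

open WeierstrassCurve.Affine.CoordinateRing in
theorem coordIota_ΨSq (k : ℤ) : coordIota W (W.ΨSq k) = mk W (W.ψ k) ^ 2 := by
  rw [coordIota_apply, ← mk_Ψ_sq, mk_ψ]

open WeierstrassCurve.Affine.CoordinateRing in
theorem coordIota_Φ (k i j : ℤ) (hi : i = k + 1) (hj : j = k - 1) :
    coordIota W (W.Φ k) =
      coordIota W X * mk W (W.ψ k) ^ 2 - mk W (W.ψ i) * mk W (W.ψ j) := by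
  subst hi hj
  rw [coordIota_apply, ← mk_φ, WeierstrassCurve.φ, coordIota_apply]
  simp only [map_sub, map_mul, map_pow]

theorem divPoly_F1 :
    X * W.Ψ₂Sq - W.Ψ₃ = X ^ 4 - C W.b₄ * X ^ 2 - 2 * C W.b₆ * X - C W.b₈ := by
  rw [WeierstrassCurve.Ψ₂Sq, WeierstrassCurve.Ψ₃]
  simp only [map_ofNat, C_mul]
  ring

theorem divPoly_F2 :
    W.Ψ₂Sq - X * divPolyKappa W = -2 * X ^ 3 + C W.b₄ * X + C W.b₆ := by
  rw [WeierstrassCurve.Ψ₂Sq, divPolyKappa]
  simp only [map_ofNat, C_mul]
  ring

theorem divPoly_F3 :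
    W.Ψ₂Sq = 4 * X ^ 3 + C W.b₂ * X ^ 2 + 2 * C W.b₄ * X + C W.b₆ := by
  rw [WeierstrassCurve.Ψ₂Sq]
  simp only [map_ofNat, C_mul]

open WeierstrassCurve.Affine.CoordinateRing in
/-- **T2**: the three `addSubMap` identities for `(Φₙ, ΨSqₙ)`, for every Weierstrass curve over
every commutative ring. -/
theorem addSubIdentities_of_star : AddSub.AddSubIdentities W := by
  intro n
  have S := mk_ψ_somos4 W n
  have T := mk_ψ_star W n
  rw [← coordIota_apply, ← coordIota_apply] at S
  rw [← coordIota_apply, ← coordIota_apply] at T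
  have hΦ0 := coordIota_Φ W n (n + 1) (n - 1) rfl rfl
  have hΦp := coordIota_Φ W (n + 1) (n + 2) n (by ring) (by ring)
  have hΦm := coordIota_Φ W (n - 1) n (n - 2) (by ring) (by ring)
  have hΨ0 := coordIota_ΨSq W n
  have hΨp := coordIota_ΨSq W (n + 1)
  have hΨm := coordIota_ΨSq W (n - 1)
  have F1 := congrArg (coordIota W) (divPoly_F1 W)
  have F2 := congrArg (coordIota W) (divPoly_F2 W)
  have F3 := congrArg (coordIota W) (divPoly_F3 W)
  have F4 := congrArg (coordIota W) (show divPolyKappa W = 6 * X ^ 2 + C W.b₂ * X + C W.b₄ from rfl)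
  simp only [map_sub, map_add, map_mul, map_pow, map_neg, map_ofNat] at F1 F2 F3 F4
  refine ⟨?_, ?_, ?_⟩
  · apply coordIota_injective W
    simp only [map_sub, map_add, map_mul, map_pow, map_ofNat]
    rw [hΦp, hΦm, hΦ0, hΨ0]
    linear_combination (-(coordIota W X) * mk W (W.ψ n)) * T + (mk W (W.ψ n)) ^ 2 * S +
      (mk W (W.ψ n)) ^ 4 * F1 +
      (mk W (W.ψ n)) ^ 2 * (mk W (W.ψ (n + 1)) * mk W (W.ψ (n - 1))) * F2
  · apply coordIota_injective W
    simp only [map_sub, map_add, map_mul, map_pow, map_ofNat]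
    rw [hΦp, hΦm, hΦ0, hΨ0, hΨp, hΨm]
    linear_combination (-(mk W (W.ψ n))) * T + (mk W (W.ψ n)) ^ 4 * F3 -
      (mk W (W.ψ n)) ^ 2 * (mk W (W.ψ (n + 1)) * mk W (W.ψ (n - 1))) * F4
  · apply coordIota_injective W
    simp only [map_sub, map_add, map_mul, map_pow, map_ofNat]
    rw [hΦ0, hΨ0, hΨp, hΨm]
    ring

end Fermat.Agent.S13
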