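import Mathlib
import Fermat.Prelude.Def_FLTPrelim_FreyPackage
import Fermat.Prelude.Def_FLTPrelim_GaloisRep
import Fermat.Prelude.Def_FLTPrelim_Ramification
import Fermat.Prelude.Def_FLTPrelim_CofixedLine

/-!
# S13 top-level assembly (hypothesis form)

`s13_of` : the frozen statement S13 from the outputs of the blocks
(D) division polynomials, (G) Minkowski, (L2) local analysis at `2`, (Lp) local analysis at `p`,
S05 (landed) and existence of valuation subrings over primes (S54, landed).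
-/

set_option autoImplicit false

namespace Fermat.Agent.S13

open WeierstrassCurve WeierstrassCurve.Affine WeierstrassCurve.Affine.Point
open scoped WeierstrassCurve.Affine

/-- `ℚ̄`. -/
abbrev Qb : Type := AlgebraicClosure ℚ

/-- The absolute Galois group of `ℚ`. -/
abbrev GQ : Type := Qb ≃ₐ[ℚ] Qb

/-- The `p`-torsion of the Frey curve over `ℚ̄`. -/
abbrev Vp (P : FreyPackage) : Type := Submodule.torsionBy ℤ (P.freyCurve⁄Qb).Point P.p

/-- Output of block (D): `E[p](ℚ̄)` is nontrivial, finite, of cardinality at most `p²`. -/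
def DOut (P : FreyPackage) : Prop :=
  Nontrivial (Vp P) ∧ Finite (Vp P) ∧ Nat.card (Vp P) ≤ P.p ^ 2

/-- Output of block (G) (Minkowski): a normal subgroup of `G_ℚ` that contains the fixer of a finite
set and, for every prime `q`, the inertia group of some valuation subring over `q`, is everything. -/
def GOut : Prop :=
  ∀ H : Subgroup GQ, H.Normal →
    (∃ S : Finset Qb, ∀ σ : GQ, (∀ s ∈ S, σ s = s) → σ ∈ H) →
    (∀ q : ℕ, q.Prime →
      ∃ A : ValuationSubring Qb, A.LiesOverPrime q ∧ A.inertiaSubgroupIn ℚ ≤ H) →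
    H = ⊤

/-- Output of the local block at `2`: a Galois-stable line `N` is not pointwise fixed by `G_ℚ`,
and every inertia group at `2` acts trivially on `N` and on `V/N`. -/
def L2Out (P : FreyPackage) : Prop :=
  ∀ N : Submodule (ZMod P.p) (Vp P), IsGaloisStable ℚ N → N ≠ ⊥ → N ≠ ⊤ →
    (∃ σ : GQ, ∃ x ∈ N, σ • x ≠ x) ∧
    ∀ A : ValuationSubring Qb, A.LiesOverPrime 2 → ∀ σ ∈ A.inertiaSubgroupIn ℚ,
      (∀ x ∈ N, σ • x = x) ∧ ∀ x : Vp P, σ • x - x ∈ N

/-- Output of the local block at `p`: if a Galois-stable line exists then for every valuation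
subring `A` over `p` there is a proper submodule `T` (the kernel of reduction) such that the
inertia group of `A` acts trivially on `V/T`. -/
def LpOut (P : FreyPackage) : Prop :=
  ∀ N : Submodule (ZMod P.p) (Vp P), IsGaloisStable ℚ N → N ≠ ⊥ → N ≠ ⊤ →
    ∀ A : ValuationSubring Qb, A.LiesOverPrime P.p →
      ∃ T : Submodule (ZMod P.p) (Vp P), T ≠ ⊤ ∧
        ∀ σ ∈ A.inertiaSubgroupIn ℚ, ∀ x : Vp P, σ • x - x ∈ T

variable {P : FreyPackage}

/-- The coordinates of a point. -/
noncomputable def coords {W : Affine Qb} : W.Point → Finset Qb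
  | .zero => ∅
  | .some x y _ => {x, y}

theorem smul_eq_self_of_coords (σ : GQ) (Q : (P.freyCurve⁄Qb).Point)
    (h : ∀ s ∈ coords Q, σ s = s) : σ • Q = Q := by
  cases Q with
  | zero => rfl
  | some x y hxy =>
    have hx : σ x = x := h x (by simp [coords])
    have hy : σ y = y := h y (by simp [coords])
    show Point.map σ.toAlgHom (Point.some x y hxy) = _
    rw [Point.map_some]
    simp only [Point.some.injEq]
    exact ⟨hx, hy⟩

/-- The subgroup of `G_ℚ` acting trivially on `V/N`. -/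
def fixQuot (N : Submodule (ZMod P.p) (Vp P)) : Subgroup GQ where
  carrier := {σ | ∀ x : Vp P, σ • x - x ∈ N}
  one_mem' := fun x => by simp
  mul_mem' := by
    intro σ τ hσ hτ x
    have h1 := hσ (τ • x)
    have h2 := hτ x
    have : (σ * τ) • x - x = (σ • τ • x - τ • x) + (τ • x - x) := by
      rw [mul_smul]; abel
    rw [this]
    exact N.add_mem h1 h2
  inv_mem' := by
    intro σ hσ x
    have h1 := hσ (σ⁻¹ • x)
    rw [smul_inv_smul] at h1
    have : σ⁻¹ • x - x = -(x - σ⁻¹ • x) := by abel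
    rw [this]
    exact N.neg_mem h1

/-- The subgroup of `G_ℚ` fixing `N` pointwise. -/
def fixSub (N : Submodule (ZMod P.p) (Vp P)) : Subgroup GQ where
  carrier := {σ | ∀ x ∈ N, σ • x = x}
  one_mem' := fun x _ => one_smul _ x
  mul_mem' := by
    intro σ τ hσ hτ x hx
    rw [mul_smul, hτ x hx, hσ x hx]
  inv_mem' := by
    intro σ hσ x hx
    rw [inv_smul_eq_iff, hσ x hx]

theorem mem_fixQuot {N : Submodule (ZMod P.p) (Vp P)} {σ : GQ} :
    σ ∈ fixQuot N ↔ ∀ x : Vp P, σ • x - x ∈ N := Iff.rfl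

theorem mem_fixSub {N : Submodule (ZMod P.p) (Vp P)} {σ : GQ} :
    σ ∈ fixSub N ↔ ∀ x ∈ N, σ • x = x := Iff.rfl

theorem fixQuot_normal {N : Submodule (ZMod P.p) (Vp P)} (hN : IsGaloisStable ℚ N) :
    (fixQuot N).Normal := by
  constructor
  intro σ hσ τ x
  have h1 := hσ (τ⁻¹ • x)
  have h2 := hN τ _ h1
  have : (τ * σ * τ⁻¹) • x - x = τ • (σ • τ⁻¹ • x - τ⁻¹ • x) := by
    rw [smul_sub, smul_inv_smul, mul_smul, mul_smul]
  rw [this]
  exact h2

theorem fixSub_normal {N : Submodule (ZMod P.p) (Vp P)} (hN : IsGaloisStable ℚ N) :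
    (fixSub N).Normal := by
  constructor
  intro σ hσ τ x hx
  have h1 : τ⁻¹ • x ∈ N := hN τ⁻¹ x hx
  rw [mul_smul, mul_smul, hσ _ h1, smul_inv_smul]

/-- If `V` is finite there is a finite set of coordinates whose fixer acts trivially on `V`. -/
theorem exists_finset_coords [Finite (Vp P)] :
    ∃ S : Finset Qb, ∀ σ : GQ, (∀ s ∈ S, σ s = s) → ∀ x : Vp P, σ • x = x := by
  classical
  let _ : Fintype (Vp P) := Fintype.ofFinite _
  refine ⟨Finset.univ.biUnion (fun x : Vp P => coords (x : (P.freyCurve⁄Qb).Point)), ?_⟩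
  intro σ hσ x
  apply Subtype.ext
  show σ • (x : (P.freyCurve⁄Qb).Point) = x
  apply smul_eq_self_of_coords
  intro s hs
  exact hσ s (Finset.mem_biUnion.mpr ⟨x, Finset.mem_univ _, hs⟩)


theorem s13_of (P : FreyPackage) (hD : DOut P) (hG : GOut) (h2 : L2Out P) (hp : LpOut P)
    (hS05 : ∀ q : ℕ, q.Prime → q ≠ 2 → q ≠ P.p → P.GaloisRepUnramifiedAt q)
    (hEx : ∀ q : ℕ, q.Prime → ∃ A : ValuationSubring Qb, A.LiesOverPrime q)
    (hred : ¬ GaloisRepIsIrreducible (K := Qb) ℚ P.freyCurve P.p) :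
    HasGaloisStableCofixedLine (K := Qb) ℚ P.freyCurve P.p := by
  obtain ⟨hnt, hfin, hcard⟩ := hD
  have : Fact P.p.Prime := ⟨P.pp⟩
  -- a stable proper nonzero `N`
  have hex : ∃ N : Submodule (ZMod P.p) (Vp P), IsGaloisStable ℚ N ∧ N ≠ ⊥ ∧ N ≠ ⊤ := by
    by_contra hcon
    push Not at hcon
    refine hred ⟨hnt, fun N hN => ?_⟩
    by_contra h
    push Not at h
    exact h.2 (hcon N hN h.1)
  obtain ⟨N, hNst, hNbot, hNtop⟩ := hex
  -- dimension count
  have : Module.Finite (ZMod P.p) (Vp P) := Module.Finite.of_finite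
  have hfr : Module.finrank (ZMod P.p) (Vp P) ≤ 2 := by
    have h1 : Nat.card (Vp P) = P.p ^ Module.finrank (ZMod P.p) (Vp P) := by
      rw [Module.natCard_eq_pow_finrank (K := ZMod P.p), Nat.card_zmod]
    rw [h1] at hcard
    exact (Nat.pow_le_pow_iff_right P.pp.one_lt).mp hcard
  have hN1 : 0 < Module.finrank (ZMod P.p) N := by
    rw [Module.finrank_pos_iff]
    exact (Submodule.nontrivial_iff_ne_bot).mpr hNbot
  have hN2 : Module.finrank (ZMod P.p) N < Module.finrank (ZMod P.p) (Vp P) :=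
    Submodule.finrank_lt hNtop
  have hline1 : ∀ T : Submodule (ZMod P.p) (Vp P), T ≤ N → T = ⊥ ∨ T = N := by
    intro T hT
    have hle := Submodule.finrank_mono hT
    rcases Nat.eq_zero_or_pos (Module.finrank (ZMod P.p) T) with h0 | hpos
    · left; exact Submodule.finrank_eq_zero.mp h0
    · right; exact Submodule.eq_of_le_of_finrank_eq hT (by omega)
  have hline2 : ∀ T : Submodule (ZMod P.p) (Vp P), N ≤ T → T = N ∨ T = ⊤ := by
    intro T hT
    have hle := Submodule.finrank_mono hT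
    have hle2 := Submodule.finrank_le T
    by_cases h : Module.finrank (ZMod P.p) T = 1
    · left; exact (Submodule.eq_of_le_of_finrank_eq hT (by omega)).symm
    · right; exact Submodule.eq_top_of_finrank_eq (by omega)
  -- the two subgroups
  obtain ⟨S, hS⟩ := exists_finset_coords (P := P)
  have hQn := fixQuot_normal hNst
  have hSn := fixSub_normal hNst
  have hQopen : ∃ S : Finset Qb, ∀ σ : GQ, (∀ s ∈ S, σ s = s) → σ ∈ fixQuot N :=
    ⟨S, fun σ hσ x => by rw [hS σ hσ x, sub_self]; exact N.zero_mem⟩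
  have hSopen : ∃ S : Finset Qb, ∀ σ : GQ, (∀ s ∈ S, σ s = s) → σ ∈ fixSub N :=
    ⟨S, fun σ hσ x _ => hS σ hσ x⟩
  obtain ⟨⟨σ₀, x₀, hx₀N, hx₀⟩, h2I⟩ := h2 N hNst hNbot hNtop
  have hSne : fixSub N ≠ ⊤ := by
    intro h
    have : σ₀ ∈ fixSub N := h ▸ Subgroup.mem_top σ₀
    exact hx₀ (this x₀ hx₀N)
  -- away from `2` and `p` everything is unramified
  have hgood : ∀ q : ℕ, q.Prime → q ≠ 2 → q ≠ P.p →
      ∃ A : ValuationSubring Qb, A.LiesOverPrime q ∧
        A.inertiaSubgroupIn ℚ ≤ fixQuot N ∧ A.inertiaSubgroupIn ℚ ≤ fixSub N := by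
    intro q hq hq2 hqp
    obtain ⟨A, hA⟩ := hEx q hq
    refine ⟨A, hA, fun σ hσ x => ?_, fun σ hσ x _ => ?_⟩
    · have h : σ • x = x := hS05 q hq hq2 hqp A hA σ hσ x
      rw [h, sub_self]; exact N.zero_mem
    · exact hS05 q hq hq2 hqp A hA σ hσ x
  have htwo : ∃ A : ValuationSubring Qb, A.LiesOverPrime 2 ∧
      A.inertiaSubgroupIn ℚ ≤ fixQuot N ∧ A.inertiaSubgroupIn ℚ ≤ fixSub N := by
    obtain ⟨A, hA⟩ := hEx 2 Nat.prime_two
    exact ⟨A, hA, fun σ hσ => (h2I A hA σ hσ).2, fun σ hσ => (h2I A hA σ hσ).1⟩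
  -- it suffices to show that `fixQuot N` is everything
  suffices hQ : fixQuot N = ⊤ by
    refine ⟨N, hNst, hNbot, hNtop, fun σ x => ?_⟩
    have : σ ∈ fixQuot N := hQ ▸ Subgroup.mem_top σ
    exact this x
  by_cases hcase : ∃ A : ValuationSubring Qb, A.LiesOverPrime P.p ∧
      A.inertiaSubgroupIn ℚ ≤ fixQuot N
  · obtain ⟨Ap, hAp, hIp⟩ := hcase
    refine hG _ hQn hQopen (fun q hq => ?_)
    by_cases hq2 : q = 2
    · subst hq2
      obtain ⟨A, hA, h, -⟩ := htwo
      exact ⟨A, hA, h⟩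
    by_cases hqp : q = P.p
    · subst hqp
      exact ⟨Ap, hAp, hIp⟩
    obtain ⟨A, hA, h, -⟩ := hgood q hq hq2 hqp
    exact ⟨A, hA, h⟩
  · exfalso
    push Not at hcase
    apply hSne
    refine hG _ hSn hSopen (fun q hq => ?_)
    by_cases hq2 : q = 2
    · subst hq2
      obtain ⟨A, hA, -, h⟩ := htwo
      exact ⟨A, hA, h⟩
    by_cases hqp : q = P.p
    · subst hqp
      obtain ⟨A, hA⟩ := hEx P.p P.pp
      refine ⟨A, hA, ?_⟩
      obtain ⟨T, hTtop, hT⟩ := hp N hNst hNbot hNtop A hA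
      -- `N ⊓ T = ⊥`, otherwise `N ≤ T`, so `T = N` and the inertia group is in `fixQuot N`
      have hNT : N ⊓ T = ⊥ := by
        rcases hline1 (N ⊓ T) inf_le_left with h | h
        · exact h
        · exfalso
          have hNleT : N ≤ T := inf_eq_left.mp h
          rcases hline2 T hNleT with h' | h'
          · exact hcase A hA (fun σ hσ x => h' ▸ hT σ hσ x)
          · exact hTtop h'
      intro σ hσ x hx
      have h1 : σ • x - x ∈ N := N.sub_mem (hNst σ x hx) hx
      have h2' : σ • x - x ∈ T := hT σ hσ x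
      have h3 : σ • x - x ∈ N ⊓ T := ⟨h1, h2'⟩
      rw [hNT, Submodule.mem_bot] at h3
      exact sub_eq_zero.mp h3
    obtain ⟨A, hA, -, h⟩ := hgood q hq hq2 hqp
    exact ⟨A, hA, h⟩

end Fermat.Agent.S13
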