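import Mathlib
import Fermat.Agent.S13.Assembly
import Fermat.Agent.S05.H23Frey

/-!
# S13, block (D), consumer layer: `DOut`

From the output of the multiplication-by-`n` theorem (T3), in the hypothesis form
`TorsionIffΨSq W : ∀ n x y h, n • some x y h = 0 ↔ (W.ΨSq n).eval x = 0`,
we deduce for odd `n` with `(n : F) ≠ 0`:

* `torsion_finite_card_le` : the `n`-torsion of `W.Point` is finite of cardinality `≤ n ^ 2`;
* `nontrivial_torsion` : over an algebraically closed field, for `W.Δ ≠ 0` and `2 < n`, the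
  `n`-torsion is nontrivial;
* `dOut_of` : `DOut P` (shape of `Assembly.lean`) for the Frey curve over `ℚ̄`.
-/

set_option autoImplicit false

namespace Fermat.Agent.S13

open Polynomial WeierstrassCurve WeierstrassCurve.Affine WeierstrassCurve.Affine.Point

section General

variable {F : Type*} [Field F] [DecidableEq F]

/-- The output of the multiplication-by-`n` theorem, in hypothesis form. -/
def TorsionIffΨSq (W : Affine F) : Prop :=
  ∀ (n : ℤ) (x y : F) (h : W.Nonsingular x y),
    n • (Point.some x y h) = 0 ↔ (W.ΨSq n).eval x = 0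

namespace DOutAux

variable (W : Affine F)

/-- The coordinates of a point, as an option. -/
def xyOpt : W.Point → Option (F × F)
  | .zero => none
  | .some x y _ => some (x, y)

omit [DecidableEq F] in
theorem xyOpt_injective : Function.Injective (xyOpt W) := by
  rintro (_ | ⟨x₁, y₁, h₁⟩) (_ | ⟨x₂, y₂, h₂⟩) h <;>
    simp only [xyOpt, Option.some.injEq, Prod.mk.injEq, reduceCtorEq] at h
  · rfl
  · obtain ⟨rfl, rfl⟩ := h; rfl

/-- The quadratic polynomial in `Y` satisfied by the `y`-coordinates of the points with given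
`x`-coordinate. -/
noncomputable def yPoly (x : F) : F[X] :=
  X ^ 2 + C (W.a₁ * x + W.a₃) * X - C (x ^ 3 + W.a₂ * x ^ 2 + W.a₄ * x + W.a₆)

omit [DecidableEq F] in
theorem yPoly_natDegree (x : F) : (yPoly W x).natDegree = 2 := by
  unfold yPoly
  compute_degree!

omit [DecidableEq F] in
theorem yPoly_ne_zero (x : F) : yPoly W x ≠ 0 := by
  intro h
  have := yPoly_natDegree W x
  rw [h, natDegree_zero] at this
  omega

omit [DecidableEq F] in
theorem yPoly_isRoot_iff (x y : F) : (yPoly W x).IsRoot y ↔ W.Equation x y := by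
  rw [equation_iff, IsRoot.def]
  simp only [yPoly, eval_sub, eval_add, eval_pow, eval_X, eval_mul, eval_C]
  constructor <;> intro h <;> linear_combination h

/-- The finite set of affine points `(x, y)` of the curve with `x` a root of `f`. -/
noncomputable def pointsOver (f : F[X]) : Finset (F × F) :=
  f.roots.toFinset.biUnion fun r => (yPoly W r).roots.toFinset.image fun y => (r, y)

theorem card_pointsOver_le (f : F[X]) : (pointsOver W f).card ≤ 2 * f.natDegree := by
  classical
  unfold pointsOver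
  refine (Finset.card_biUnion_le).trans ?_
  have h1 : ∀ r ∈ f.roots.toFinset,
      ((yPoly W r).roots.toFinset.image fun y => (r, y)).card ≤ 2 := by
    intro r _
    refine Finset.card_image_le.trans ?_
    refine (Multiset.toFinset_card_le _).trans ?_
    exact (card_roots' _).trans (yPoly_natDegree W r).le
  refine (Finset.sum_le_card_nsmul _ _ 2 h1).trans ?_
  rw [smul_eq_mul, mul_comm]
  exact Nat.mul_le_mul_left 2 ((Multiset.toFinset_card_le _).trans (card_roots' f))

theorem mem_pointsOver {f : F[X]} (hf : f ≠ 0) {x y : F} (hx : f.eval x = 0)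
    (hxy : W.Equation x y) : (x, y) ∈ pointsOver W f := by
  classical
  unfold pointsOver
  rw [Finset.mem_biUnion]
  refine ⟨x, ?_, ?_⟩
  · rw [Multiset.mem_toFinset, mem_roots hf]; exact hx
  · rw [Finset.mem_image]
    refine ⟨y, ?_, rfl⟩
    rw [Multiset.mem_toFinset, mem_roots (yPoly_ne_zero W x)]
    exact (yPoly_isRoot_iff W x y).mpr hxy

variable {W}

omit [DecidableEq F] in
theorem ΨSq_eval_eq_zero_iff_of_odd {n : ℕ} (hn : Odd n) (x : F) :
    (W.ΨSq (n : ℤ)).eval x = 0 ↔ (W.preΨ' n).eval x = 0 := by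
  have hne : ¬ Even n := Nat.not_even_iff_odd.mpr hn
  rw [ΨSq_ofNat, if_neg hne, mul_one, eval_pow]
  exact pow_eq_zero_iff two_ne_zero

end DOutAux

open DOutAux

variable {W : Affine F}

/-- Finiteness and the bound `n ^ 2` for the `n`-torsion (odd `n`, invertible in `F`). -/
theorem torsion_finite_card_le (hT : TorsionIffΨSq W) {n : ℕ} (hn : Odd n) (hnF : (n : F) ≠ 0) :
    Finite (Submodule.torsionBy ℤ W.Point (n : ℤ)) ∧
      Nat.card (Submodule.torsionBy ℤ W.Point (n : ℤ)) ≤ n ^ 2 := by
  classical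
  have hf : W.preΨ' n ≠ 0 := W.preΨ'_ne_zero hnF
  set T : Finset (Option (F × F)) := insert none ((pointsOver W (W.preΨ' n)).image some) with hTdef
  -- every torsion point has coordinates in `T`
  have hmem : ∀ v : Submodule.torsionBy ℤ W.Point (n : ℤ), xyOpt W (v : W.Point) ∈ T := by
    rintro ⟨v, hv⟩
    rw [Submodule.mem_torsionBy_iff] at hv
    rcases v with _ | ⟨x, y, h⟩
    · simp [hTdef, xyOpt]
    · have h0 : (W.preΨ' n).eval x = 0 :=
        (ΨSq_eval_eq_zero_iff_of_odd hn x).mp ((hT n x y h).mp hv)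
      simp only [hTdef, xyOpt, Finset.mem_insert, reduceCtorEq, Finset.mem_image,
        Option.some.injEq, exists_eq_right, false_or]
      exact mem_pointsOver W hf h0 h.1
  let g : Submodule.torsionBy ℤ W.Point (n : ℤ) → T := fun v => ⟨xyOpt W (v : W.Point), hmem v⟩
  have hg : Function.Injective g := by
    intro v w hvw
    have : xyOpt W (v : W.Point) = xyOpt W (w : W.Point) := congrArg Subtype.val hvw
    exact Subtype.ext (xyOpt_injective W this)
  have hfin : Finite (Submodule.torsionBy ℤ W.Point (n : ℤ)) := Finite.of_injective g hg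
  refine ⟨hfin, ?_⟩
  have h1 : Nat.card (Submodule.torsionBy ℤ W.Point (n : ℤ)) ≤ Nat.card T :=
    Nat.card_le_card_of_injective g hg
  have h2 : Nat.card T = T.card := by
    rw [Nat.card_eq_fintype_card, Fintype.card_coe]
  have h3 : T.card ≤ (pointsOver W (W.preΨ' n)).card + 1 := by
    rw [hTdef]
    exact (Finset.card_insert_le _ _).trans (Nat.add_le_add_right Finset.card_image_le 1)
  have h4 := card_pointsOver_le W (W.preΨ' n)
  have h5 : (W.preΨ' n).natDegree = (n ^ 2 - 1) / 2 := by
    rw [W.natDegree_preΨ' hnF, if_neg (Nat.not_even_iff_odd.mpr hn)]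
  have h6 : 1 ≤ n ^ 2 := Nat.one_le_pow _ _ hn.pos
  have h7 : 2 * ((n ^ 2 - 1) / 2) ≤ n ^ 2 - 1 := Nat.mul_div_le _ _
  rw [h5] at h4
  omega

/-- Over an algebraically closed field, the `n`-torsion of an elliptic curve is nontrivial
(`n > 2` odd, invertible in `F`). -/
theorem nontrivial_torsion [IsAlgClosed F] (hΔ : W.Δ ≠ 0) (hT : TorsionIffΨSq W) {n : ℕ}
    (hn : Odd n) (hn2 : 2 < n) (hnF : (n : F) ≠ 0) :
    Nontrivial (Submodule.torsionBy ℤ W.Point (n : ℤ)) := by
  have hdeg : 0 < (W.preΨ' n).natDegree := W.natDegree_preΨ'_pos hn2 hnF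
  obtain ⟨x, hx⟩ := IsAlgClosed.exists_root (W.preΨ' n)
    (by rw [degree_eq_natDegree (W.preΨ'_ne_zero hnF)]; exact_mod_cast hdeg.ne')
  obtain ⟨y, hy⟩ := IsAlgClosed.exists_root (yPoly W x)
    (by rw [degree_eq_natDegree (yPoly_ne_zero W x), yPoly_natDegree]; norm_num)
  have heq : W.Equation x y := (yPoly_isRoot_iff W x y).mp hy
  have hns : W.Nonsingular x y := (W.equation_iff_nonsingular_of_Δ_ne_zero hΔ).mp heq
  have htors : (n : ℤ) • (Point.some x y hns) = 0 :=
    (hT n x y hns).mpr ((ΨSq_eval_eq_zero_iff_of_odd hn x).mpr hx)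
  refine ⟨⟨⟨Point.some x y hns, ?_⟩, 0, ?_⟩⟩
  · rw [Submodule.mem_torsionBy_iff]; exact htors
  · intro h
    have := congrArg Subtype.val h
    exact Point.some_ne_zero hns this

end General

section Frey

/-- Block (D) output for the Frey curve, from the multiplication-by-`n` theorem over `ℚ̄`. -/
theorem dOut_of (P : FreyPackage) (hT : TorsionIffΨSq (P.freyCurve⁄Qb)) : DOut P := by
  have hpF : ((P.p : ℕ) : Qb) ≠ 0 := Nat.cast_ne_zero.mpr P.hp0
  have hΔ : (P.freyCurve⁄Qb).Δ ≠ 0 := by
    show (P.freyCurve.map (algebraMap ℚ Qb)).Δ ≠ 0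
    rw [WeierstrassCurve.map_Δ]
    exact (_root_.map_ne_zero _).mpr (Fermat.Agent.S05.freyCurve_Δ_ne_zero P)
  have h1 := torsion_finite_card_le hT P.hp_odd hpF
  have h2 := nontrivial_torsion hΔ hT P.hp_odd (by have := P.hp5; omega) hpF
  exact ⟨h2, h1.1, h1.2⟩

end Frey

end Fermat.Agent.S13
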