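import Mathlib
import Fermat.Agent.S13.DOut
import Fermat.Agent.S13.MulByN

/-!
# S13, block (D): glue `AddSubIdentities ⇒ TorsionIffΨSq ⇒ DOut`
-/

set_option autoImplicit false

namespace Fermat.Agent.S13

open WeierstrassCurve WeierstrassCurve.Affine

/-- T3 (`MulByN.lean`) gives the hypothesis `TorsionIffΨSq` of `DOut.lean`. -/
theorem torsionIffΨSq_of_addSubIdentities {F : Type*} [Field F] [DecidableEq F] (W : Affine F)
    (h : AddSub.AddSubIdentities W) : TorsionIffΨSq W :=
  fun n _ _ hxy => (AddSub.eval_ΨSq_eq_zero_iff W h hxy n).symm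

/-- Block (D) output for the Frey curve from the `addSubMap` identities (T2) over `ℚ̄`. -/
theorem dOut_of_addSubIdentities (P : FreyPackage)
    (h : AddSub.AddSubIdentities (P.freyCurve⁄Qb)) : DOut P :=
  dOut_of P (torsionIffΨSq_of_addSubIdentities _ h)

end Fermat.Agent.S13
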