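import Mathlib
import Fermat.Agent.S13.DOutGlue

/-!
# S13, block (D): `DaOut` — `p`-torsion points are roots of `preΨ p`

Exported for the local block at `p` (`Supersingular.lean`, hypothesis `hD`).
-/

set_option autoImplicit false

namespace Fermat.Agent.S13

open Polynomial WeierstrassCurve WeierstrassCurve.Affine WeierstrassCurve.Affine.Point

/-- General form: for odd `n`, an `n`-torsion affine point has `x`-coordinate a root of
`preΨ n`; and conversely. -/
theorem preΨ_eval_eq_zero_iff_nsmul_eq_zero {F : Type*} [Field F] [DecidableEq F] {W : Affine F}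
    (hT : TorsionIffΨSq W) {n : ℕ} (hn : Odd n) {x y : F} (h : W.Nonsingular x y) :
    n • (Point.some x y h) = 0 ↔ (W.preΨ (n : ℤ)).eval x = 0 := by
  rw [← natCast_zsmul, hT (n : ℤ) x y h, DOutAux.ΨSq_eval_eq_zero_iff_of_odd hn, preΨ_ofNat]

/-- Output `DaOut` of block (D): for the Frey curve over `ℚ̄`. -/
def DaOut (P : FreyPackage) : Prop :=
  ∀ (x y : Qb) (h : (P.freyCurve⁄Qb).Nonsingular x y),
    P.p • (Point.some x y h) = 0 → ((P.freyCurve⁄Qb).preΨ (P.p : ℤ)).eval x = 0

theorem daOut_of (P : FreyPackage) (hT : TorsionIffΨSq (P.freyCurve⁄Qb)) : DaOut P :=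
  fun _ _ h h0 => (preΨ_eval_eq_zero_iff_nsmul_eq_zero hT P.hp_odd h).mp h0

theorem daOut_of_addSubIdentities (P : FreyPackage)
    (h : AddSub.AddSubIdentities (P.freyCurve⁄Qb)) : DaOut P :=
  daOut_of P (torsionIffΨSq_of_addSubIdentities _ h)

/-- Converse direction (useful for lifting roots to torsion points). -/
theorem nsmul_eq_zero_of_preΨ_eval_eq_zero (P : FreyPackage)
    (hT : TorsionIffΨSq (P.freyCurve⁄Qb)) {x y : Qb} (h : (P.freyCurve⁄Qb).Nonsingular x y)
    (h0 : ((P.freyCurve⁄Qb).preΨ (P.p : ℤ)).eval x = 0) : P.p • (Point.some x y h) = 0 :=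
  (preΨ_eval_eq_zero_iff_nsmul_eq_zero hT P.hp_odd h).mpr h0

end Fermat.Agent.S13
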