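import Mathlib
import Fermat.Agent.S13.DOutGlue
import Fermat.Agent.S13.DaOut
import Fermat.Agent.S13.AddSubIdCoord

/-!
# S13, block (D): the unconditional outputs

`dOut P : DOut P` (the `p`-torsion of the Frey curve over `ℚ̄` is nontrivial, finite, of cardinality
at most `p ^ 2`) and `daOut P : DaOut P` (`p • (x, y) = 0 → preΨ_p(x) = 0`), plus the general
torsion criterion `torsionIffΨSq` for every Weierstrass curve over every field.
-/

set_option autoImplicit false

namespace Fermat.Agent.S13

open WeierstrassCurve WeierstrassCurve.Affine

/-- `n • (x, y) = 0 ↔ ΨSq_n(x) = 0`, for every Weierstrass curve over every field. -/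
theorem torsionIffΨSq {F : Type*} [Field F] [DecidableEq F] (W : Affine F) : TorsionIffΨSq W :=
  torsionIffΨSq_of_addSubIdentities W (addSubIdentities_of_star W)

/-- **Block (D)**, unconditional. -/
theorem dOut (P : FreyPackage) : DOut P :=
  dOut_of_addSubIdentities P (addSubIdentities_of_star _)

/-- **Block (D-a)**, unconditional. -/
theorem daOut (P : FreyPackage) : DaOut P :=
  daOut_of_addSubIdentities P (addSubIdentities_of_star _)

end Fermat.Agent.S13
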