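import Fermat.Agent.S05.Comp
import Fermat.Agent.S05.FixedPoint

/-!
# S13, block (C2-c): the component homomorphism of a curve with `NodeData`

On top of the (frozen) S05 library (`Lev`, `lev_add_onBranch`, `classify`, ...) we package the
"level" of a point as a group homomorphism

  `comp hN : W.toAffine.Point →+ Additive (Γ₀ˣ ⧸ zpowers (s ^ 2))`,  `s = v a₄`,

with kernel `E₀` (`InE0`), compute its values on the branches, prove its invariance under
valuation-preserving automorphisms, and bound the `p`-torsion of the target by `p`.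
-/

set_option autoImplicit false

namespace Fermat.Agent.S13.NodeComp

open WeierstrassCurve WeierstrassCurve.Affine Fermat.Agent.S05

set_option linter.unusedSectionVars false

variable {K : Type*} [Field K] [DecidableEq K] {Γ₀ : Type*} [LinearOrderedCommGroupWithZero Γ₀]
variable {v : Valuation K Γ₀} {W : WeierstrassCurve K} {α β : K}

/-! ### Uniqueness and existence of the level -/

theorem lev_range (hN : NodeData v W α β) {γ : Γ₀} {P : W.toAffine.Point}
    (h : Lev v W α β γ P) : v W.a₄ ^ 2 < γ ∧ γ ≤ 1 := by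
  have hs := NodeData.s_pos hN
  have hs1 : v W.a₄ < 1 := hN.a₄_lt
  have hs2 : v W.a₄ ^ 2 < v W.a₄ := by
    rw [pow_two]; exact mul_lt_of_lt_one_right hs hs1
  rcases h with ⟨rfl, -⟩ | ⟨h1, h2, -⟩ | ⟨rfl, -⟩ | ⟨h1, h2, -⟩
  · exact ⟨hs2.trans hs1, le_rfl⟩
  · exact ⟨hs2.trans h1, h2.le⟩
  · exact ⟨hs2, hs1.le⟩
  · exact ⟨h1, (h2.trans hs1).le⟩

theorem lev_ne_zero (hN : NodeData v W α β) {γ : Γ₀} {P : W.toAffine.Point}
    (h : Lev v W α β γ P) : γ ≠ 0 := by
  have := (lev_range hN h).1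
  exact (lt_of_le_of_lt zero_le this).ne'

theorem not_inE0_of_antipodal (hN : NodeData v W α β) {P : W.toAffine.Point}
    (hA : Antipodal v W P) (hE : InE0 v W P) : False := by
  obtain ⟨x, y, h, rfl, hx⟩ := hA
  rcases hE with h0 | ⟨x', y', h', heq, hx'⟩
  · exact Point.some_ne_zero _ h0
  · rw [Point.some.injEq] at heq
    rw [← heq.1] at hx'
    exact absurd (hx'.trans hx) (not_le.mpr hN.a₄_lt)

/-- The level of a point in the fundamental domain `(s², 1]` is unique. -/
theorem lev_unique (hN : NodeData v W α β) {γ γ' : Γ₀} {P : W.toAffine.Point}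
    (h : Lev v W α β γ P) (h' : Lev v W α β γ' P) : γ = γ' := by
  have hs := NodeData.s_pos hN
  have hs2 : 0 < v W.a₄ ^ 2 := pow_pos hs 2
  have hN' := NodeData.symm hN
  -- auxiliary facts on the `β`-levels
  have hβlev : ∀ {δ : Γ₀}, v W.a₄ ^ 2 < δ → δ < v W.a₄ →
      v W.a₄ < v W.a₄ ^ 2 / δ ∧ v W.a₄ ^ 2 / δ < 1 := by
    intro δ h1 h2
    have hδ0 : 0 < δ := hs2.trans h1
    refine ⟨?_, (div_lt_one₀ hδ0).mpr h1⟩
    rw [lt_div_iff₀ hδ0, pow_two]
    exact mul_lt_mul_of_pos_left h2 hs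
  rcases h with ⟨rfl, hE⟩ | ⟨h1, h2, hA⟩ | ⟨rfl, hM⟩ | ⟨h1, h2, hB⟩
  · rcases h' with ⟨rfl, -⟩ | ⟨h1', h2', hA'⟩ | ⟨rfl, hM'⟩ | ⟨h1', h2', hB'⟩
    · rfl
    · exact (not_onBranch_of_inE0 hE h2' hA').elim
    · exact (not_inE0_of_antipodal hN hM' hE).elim
    · exact (not_onBranch_of_inE0 hE (hβlev h1' h2').2 hB').elim
  · rcases h' with ⟨rfl, hE'⟩ | ⟨h1', h2', hA'⟩ | ⟨rfl, hM'⟩ | ⟨h1', h2', hB'⟩
    · exact (not_onBranch_of_inE0 hE' h2 hA).elim
    · exact onBranch_level_eq hA hA'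
    · exact (not_onBranch_of_antipodal hM' h1 hA).elim
    · exact (not_onBranch_both hN hA hB').elim
  · rcases h' with ⟨rfl, hE'⟩ | ⟨h1', h2', hA'⟩ | ⟨rfl, hM'⟩ | ⟨h1', h2', hB'⟩
    · exact (not_inE0_of_antipodal hN hM hE').elim
    · exact (not_onBranch_of_antipodal hM h1' hA').elim
    · rfl
    · exact (not_onBranch_of_antipodal hM (hβlev h1' h2').1 hB').elim
  · rcases h' with ⟨rfl, hE'⟩ | ⟨h1', h2', hA'⟩ | ⟨rfl, hM'⟩ | ⟨h1', h2', hB'⟩
    · exact (not_onBranch_of_inE0 hE' (hβlev h1 h2).2 hB).elim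
    · exact (not_onBranch_both hN hA' hB).elim
    · exact (not_onBranch_of_antipodal hM' (hβlev h1 h2).1 hB).elim
    · have e := onBranch_level_eq hB hB'
      have hγ0 : 0 < γ := hs2.trans h1
      have hγ'0 : 0 < γ' := hs2.trans h1'
      have e2 : v W.a₄ ^ 2 * γ' = v W.a₄ ^ 2 * γ := by
        have := (div_eq_div_iff hγ0.ne' hγ'0.ne').mp e
        exact this
      exact (mul_left_cancel₀ hs2.ne' e2).symm

/-- Levels of the four classes of points. -/
theorem lev_of_inE0 {P : W.toAffine.Point} (hP : InE0 v W P) : Lev v W α β 1 P :=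
  Or.inl ⟨rfl, hP⟩

theorem lev_of_onBranch_α {g : Γ₀} (hg : v W.a₄ < g) (hg1 : g < 1) {P : W.toAffine.Point}
    (hP : OnBranch v W α g P) : Lev v W α β g P :=
  Or.inr (Or.inl ⟨hg, hg1, hP⟩)

theorem lev_of_antipodal {P : W.toAffine.Point} (hP : Antipodal v W P) :
    Lev v W α β (v W.a₄) P :=
  Or.inr (Or.inr (Or.inl ⟨rfl, hP⟩))

theorem lev_of_onBranch_β (hN : NodeData v W α β) {g : Γ₀} (hg : v W.a₄ < g) (hg1 : g < 1)
    {P : W.toAffine.Point} (hP : OnBranch v W β g P) : Lev v W α β (v W.a₄ ^ 2 / g) P := by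
  have hs := NodeData.s_pos hN
  have hs2 : 0 < v W.a₄ ^ 2 := pow_pos hs 2
  have hg0 : 0 < g := hs.trans hg
  refine Or.inr (Or.inr (Or.inr ⟨?_, ?_, ?_⟩))
  · rw [lt_div_iff₀ hg0]; exact mul_lt_of_lt_one_right hs2 hg1
  · rw [div_lt_iff₀ hg0, pow_two]; exact mul_lt_mul_of_pos_left hg hs
  · rw [div_div_cancel₀ hs2.ne']; exact hP

theorem exists_lev (hN : NodeData v W α β) (P : W.toAffine.Point) :
    ∃ γ : Γ₀, Lev v W α β γ P := by
  rcases classify hN P with hE | hA | ⟨g, hg, hg1, hα | hβ⟩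
  · exact ⟨1, lev_of_inE0 hE⟩
  · exact ⟨_, lev_of_antipodal hA⟩
  · exact ⟨g, lev_of_onBranch_α hg hg1 hα⟩
  · exact ⟨_, lev_of_onBranch_β hN hg hg1 hβ⟩

/-! ### The target group -/

/-- `s = v a₄` as a unit of the value group. -/
noncomputable def sUnit (hN : NodeData v W α β) : Γ₀ˣ :=
  Units.mk0 (v W.a₄) (NodeData.s_pos hN).ne'

/-- The component group `Γ₀ˣ / (s²)^ℤ`. -/
abbrev CompGroup (hN : NodeData v W α β) : Type _ :=
  Γ₀ˣ ⧸ Subgroup.zpowers (sUnit hN ^ 2)

/-- The class of a (nonzero) element of `Γ₀` in the component group (`1` for `0`). -/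
noncomputable def cls (hN : NodeData v W α β) (g : Γ₀) : CompGroup hN :=
  if h : g = 0 then 1 else QuotientGroup.mk (Units.mk0 g h)

theorem cls_of_ne (hN : NodeData v W α β) {g : Γ₀} (h : g ≠ 0) :
    cls hN g = QuotientGroup.mk (Units.mk0 g h) := by
  simp [cls, h]

theorem cls_one (hN : NodeData v W α β) : cls hN 1 = 1 := by
  rw [cls_of_ne hN one_ne_zero]
  have : Units.mk0 (1 : Γ₀) one_ne_zero = 1 := by ext; rfl
  rw [this]; rfl

theorem cls_mul (hN : NodeData v W α β) {g g' : Γ₀} (h : g ≠ 0) (h' : g' ≠ 0) :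
    cls hN (g * g') = cls hN g * cls hN g' := by
  rw [cls_of_ne hN h, cls_of_ne hN h', cls_of_ne hN (mul_ne_zero h h'), ← QuotientGroup.mk_mul]
  congr 1
  ext; rfl

theorem cls_inv (hN : NodeData v W α β) {g : Γ₀} (h : g ≠ 0) :
    cls hN g⁻¹ = (cls hN g)⁻¹ := by
  rw [cls_of_ne hN h, cls_of_ne hN (inv_ne_zero h), ← QuotientGroup.mk_inv]
  congr 1
  ext; rfl

theorem cls_div (hN : NodeData v W α β) {g g' : Γ₀} (h : g ≠ 0) (h' : g' ≠ 0) :
    cls hN (g / g') = cls hN g / cls hN g' := by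
  rw [div_eq_mul_inv, cls_mul hN h (inv_ne_zero h'), cls_inv hN h', div_eq_mul_inv]

theorem cls_pow (hN : NodeData v W α β) {g : Γ₀} (h : g ≠ 0) (n : ℕ) :
    cls hN (g ^ n) = cls hN g ^ n := by
  induction n with
  | zero => simp [cls_one]
  | succ n ih =>
    rw [pow_succ, cls_mul hN (pow_ne_zero n h) h, ih]
    exact (pow_succ _ _).symm

theorem cls_s_sq (hN : NodeData v W α β) : cls hN (v W.a₄ ^ 2) = 1 := by
  have hs := (NodeData.s_pos hN).ne'
  rw [cls_of_ne hN (pow_ne_zero 2 hs)]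
  rw [QuotientGroup.eq_one_iff]
  refine ⟨1, ?_⟩
  ext
  simp [sUnit]

theorem cls_s_mul_s (hN : NodeData v W α β) : cls hN (v W.a₄) * cls hN (v W.a₄) = 1 := by
  have hs := (NodeData.s_pos hN).ne'
  rw [← cls_mul hN hs hs, ← pow_two, cls_s_sq]

theorem cls_s_inv (hN : NodeData v W α β) : (cls hN (v W.a₄))⁻¹ = cls hN (v W.a₄) :=
  inv_eq_of_mul_eq_one_left (cls_s_mul_s hN)

theorem cls_s_sq_div (hN : NodeData v W α β) {g : Γ₀} (h : g ≠ 0) :
    cls hN (v W.a₄ ^ 2 / g) = (cls hN g)⁻¹ := by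
  have hs := (NodeData.s_pos hN).ne'
  rw [cls_div hN (pow_ne_zero 2 hs) h, cls_s_sq, one_div]

theorem cls_div_s_sq (hN : NodeData v W α β) {g : Γ₀} (h : g ≠ 0) :
    cls hN (g / v W.a₄ ^ 2) = cls hN g := by
  have hs := (NodeData.s_pos hN).ne'
  rw [cls_div hN h (pow_ne_zero 2 hs), cls_s_sq, div_one]

/-- `cls g = 1` iff `g` is an integral power of `s²`. -/
theorem cls_eq_one_iff (hN : NodeData v W α β) {g : Γ₀} (h : g ≠ 0) :
    cls hN g = 1 ↔ ∃ n : ℤ, g = (v W.a₄ ^ 2) ^ n := by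
  rw [cls_of_ne hN h, QuotientGroup.eq_one_iff, Subgroup.mem_zpowers_iff]
  constructor
  · rintro ⟨n, hn⟩
    refine ⟨n, ?_⟩
    have := congrArg (fun u : Γ₀ˣ => (u : Γ₀)) hn
    simp only [Units.val_zpow_eq_zpow_val, Units.val_pow_eq_pow_val, sUnit, Units.val_mk0] at this
    exact this.symm
  · rintro ⟨n, hn⟩
    refine ⟨n, ?_⟩
    ext
    simp only [Units.val_zpow_eq_zpow_val, Units.val_pow_eq_pow_val, sUnit, Units.val_mk0]
    exact hn.symm

/-- An element of the open interval `(s², 1)` is not a power of `s²`. -/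
theorem cls_ne_one_of_mem_Ioo (hN : NodeData v W α β) {g : Γ₀} (h1 : v W.a₄ ^ 2 < g)
    (h2 : g < 1) : cls hN g ≠ 1 := by
  have hs := NodeData.s_pos hN
  have hs2 : 0 < v W.a₄ ^ 2 := pow_pos hs 2
  have ht1 : v W.a₄ ^ 2 < 1 := pow_lt_one₀ zero_le hN.a₄_lt two_ne_zero
  have hg0 : g ≠ 0 := (hs2.trans h1).ne'
  rw [Ne, cls_eq_one_iff hN hg0]
  rintro ⟨n, rfl⟩
  rcases le_or_gt n 0 with hn | hn
  · -- `t ^ n ≥ 1`
    have : (1 : Γ₀) ≤ (v W.a₄ ^ 2) ^ n := by
      obtain ⟨m, rfl⟩ : ∃ m : ℕ, n = -(m : ℤ) := ⟨n.natAbs, by omega⟩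
      rw [zpow_neg, zpow_natCast]
      exact (one_le_inv₀ (pow_pos hs2 m)).mpr (pow_le_one₀ zero_le ht1.le)
    exact absurd h2 (not_lt.mpr this)
  · have : (v W.a₄ ^ 2) ^ n ≤ v W.a₄ ^ 2 := by
      obtain ⟨m, rfl⟩ : ∃ m : ℕ, n = (m : ℤ) + 1 := ⟨(n - 1).toNat, by omega⟩
      rw [zpow_add_one₀ hs2.ne', zpow_natCast]
      exact mul_le_of_le_one_left zero_le (pow_le_one₀ zero_le ht1.le)
    exact absurd h1 (not_lt.mpr this)

/-! ### The component map -/

/-- The component of a point, as a function. -/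
noncomputable def compFun (hN : NodeData v W α β) (P : W.toAffine.Point) : CompGroup hN :=
  cls hN (Classical.choose (exists_lev hN P))

theorem compFun_eq_of_lev (hN : NodeData v W α β) {γ : Γ₀} {P : W.toAffine.Point}
    (h : Lev v W α β γ P) : compFun hN P = cls hN γ := by
  unfold compFun
  rw [lev_unique hN (Classical.choose_spec (exists_lev hN P)) h]

theorem compFun_of_inE0 (hN : NodeData v W α β) {P : W.toAffine.Point} (hP : InE0 v W P) :
    compFun hN P = 1 := by
  rw [compFun_eq_of_lev hN (lev_of_inE0 hP), cls_one]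

theorem compFun_zero (hN : NodeData v W α β) : compFun hN (0 : W.toAffine.Point) = 1 :=
  compFun_of_inE0 hN (Or.inl rfl)

theorem compFun_of_onBranch_α (hN : NodeData v W α β) {g : Γ₀} (hg : v W.a₄ < g) (hg1 : g < 1)
    {P : W.toAffine.Point} (hP : OnBranch v W α g P) : compFun hN P = cls hN g :=
  compFun_eq_of_lev hN (lev_of_onBranch_α hg hg1 hP)

theorem compFun_of_antipodal (hN : NodeData v W α β) {P : W.toAffine.Point}
    (hP : Antipodal v W P) : compFun hN P = cls hN (v W.a₄) :=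
  compFun_eq_of_lev hN (lev_of_antipodal hP)

theorem compFun_of_onBranch_β (hN : NodeData v W α β) {g : Γ₀} (hg : v W.a₄ < g) (hg1 : g < 1)
    {P : W.toAffine.Point} (hP : OnBranch v W β g P) : compFun hN P = (cls hN g)⁻¹ := by
  have hg0 : g ≠ 0 := ((NodeData.s_pos hN).trans hg).ne'
  rw [compFun_eq_of_lev hN (lev_of_onBranch_β hN hg hg1 hP), cls_s_sq_div hN hg0]

/-- The component is trivial exactly on `E₀`. -/
theorem compFun_eq_one_iff (hN : NodeData v W α β) (P : W.toAffine.Point) :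
    compFun hN P = 1 ↔ InE0 v W P := by
  refine ⟨fun h => ?_, compFun_of_inE0 hN⟩
  obtain ⟨γ, hγ⟩ := exists_lev hN P
  rw [compFun_eq_of_lev hN hγ] at h
  have hr := lev_range hN hγ
  rcases hr.2.lt_or_eq with hlt | rfl
  · exact absurd h (cls_ne_one_of_mem_Ioo hN hr.1 hlt)
  · rcases hγ with ⟨-, hE⟩ | ⟨-, h2, -⟩ | ⟨h1, -⟩ | ⟨-, h2, -⟩
    · exact hE
    · exact absurd h2 (lt_irrefl _)
    · exact absurd h1.symm hN.a₄_lt.ne
    · exact absurd (h2.trans hN.a₄_lt) (lt_irrefl _)

/-- Negation inverts the component. -/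
theorem compFun_neg (hN : NodeData v W α β) (P : W.toAffine.Point) :
    compFun hN (-P) = (compFun hN P)⁻¹ := by
  have hs := NodeData.s_pos hN
  have hN' := NodeData.symm hN
  rcases classify hN P with hE | hA | ⟨g, hg, hg1, hα | hβ⟩
  · rw [compFun_of_inE0 hN hE, compFun_of_inE0 hN (inE0_neg hE), inv_one]
  · have hA' : Antipodal v W (-P) := by
      obtain ⟨x, y, h, rfl, hx⟩ := hA
      rw [Point.neg_some]
      exact ⟨_, _, _, rfl, hx⟩
    rw [compFun_of_antipodal hN hA, compFun_of_antipodal hN hA', cls_s_inv]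
  · rw [compFun_of_onBranch_α hN hg hg1 hα,
      compFun_of_onBranch_β hN hg hg1 (onBranch_neg hN hα)]
  · rw [compFun_of_onBranch_β hN hg hg1 hβ,
      compFun_of_onBranch_α hN hg hg1 (onBranch_neg hN' hβ), inv_inv]

/-- Adding a point of the `α`-branch multiplies the component by its level. -/
theorem compFun_add_onBranch (hN : NodeData v W α β) {g : Γ₀} (hg : v W.a₄ < g) (hg1 : g < 1)
    (X : W.toAffine.Point) {Q : W.toAffine.Point} (hQ : OnBranch v W α g Q) :
    compFun hN (X + Q) = compFun hN X * cls hN g := by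
  obtain ⟨γ, hγ⟩ := exists_lev hN X
  have hγ0 := lev_ne_zero hN hγ
  have hg0 : g ≠ 0 := ((NodeData.s_pos hN).trans hg).ne'
  rw [compFun_eq_of_lev hN hγ]
  rcases lev_add_onBranch hN hg hg1 hγ hQ with h | h
  · rw [compFun_eq_of_lev hN h, cls_mul hN hγ0 hg0]
  · rw [compFun_eq_of_lev hN h, cls_div_s_sq hN (mul_ne_zero hγ0 hg0), cls_mul hN hγ0 hg0]

/-- Adding the `2`-torsion point `T0` multiplies the component by the class of `s`. -/
theorem compFun_add_T0 (hN : NodeData v W α β) (X : W.toAffine.Point) :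
    compFun hN (X + T0 hN) = compFun hN X * cls hN (v W.a₄) := by
  have hs := NodeData.s_pos hN
  have hs1 : v W.a₄ < 1 := hN.a₄_lt
  have hN' := NodeData.symm hN
  rcases classify hN X with hE | hA | ⟨g, hg, hg1, hα | hβ⟩
  · rw [compFun_of_inE0 hN hE, one_mul, compFun_of_antipodal hN (antipodal_add_T0 hN hE)]
  · rw [compFun_of_antipodal hN hA, compFun_of_inE0 hN (inE0_add_T0 hN hA), cls_s_mul_s]
  · have hg0 : 0 < g := hs.trans hg
    have h1 := onBranch_add_T0 hN hg hg1 hα
    have hlo : v W.a₄ < v W.a₄ / g := by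
      rw [lt_div_iff₀ hg0]; exact mul_lt_of_lt_one_right hs hg1
    have hhi : v W.a₄ / g < 1 := (div_lt_one₀ hg0).mpr hg
    rw [compFun_of_onBranch_α hN hg hg1 hα, compFun_of_onBranch_β hN hlo hhi h1,
      cls_div hN hs.ne' hg0.ne', inv_div, div_eq_mul_inv, cls_s_inv]
  · have hg0 : 0 < g := hs.trans hg
    have h1 : OnBranch v W α (v W.a₄ / g) (X + T0 hN) := onBranch_add_T0 hN' hg hg1 hβ
    have hlo : v W.a₄ < v W.a₄ / g := by
      rw [lt_div_iff₀ hg0]; exact mul_lt_of_lt_one_right hs hg1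
    have hhi : v W.a₄ / g < 1 := (div_lt_one₀ hg0).mpr hg
    rw [compFun_of_onBranch_β hN hg hg1 hβ, compFun_of_onBranch_α hN hlo hhi h1,
      cls_div hN hs.ne' hg0.ne', div_eq_mul_inv, mul_comm]

section AlgClosed

variable [IsAlgClosed K]

/-- The identity is inertia-like. -/
theorem inertiaLike_id : InertiaLike v W (RingHom.id K) (AddMonoidHom.id W.toAffine.Point) where
  val_eq _ := rfl
  sub_lt x _ := by simp
  map_some x y h := ⟨h, rfl⟩

/-- Over an algebraically closed field both branches carry points at every level in the value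
group strictly between `s` and `1`. -/
theorem exists_onBranch (hN : NodeData v W α β) {x₀ : K} (hlo : v W.a₄ < v x₀)
    (hhi : v x₀ < 1) : ∃ R : W.toAffine.Point, OnBranch v W α (v x₀) R := by
  obtain ⟨R, hR, -⟩ := exists_fixed_onBranch hN (inertiaLike_id (v := v) (W := W)) rfl rfl rfl
    (x₀ := x₀) rfl hlo hhi
  exact ⟨R, hR⟩

/-- There is a point on the `α`-branch. -/
theorem exists_onBranch_some (hN : NodeData v W α β) :
    ∃ (g : Γ₀) (R : W.toAffine.Point), v W.a₄ < g ∧ g < 1 ∧ OnBranch v W α g R := by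
  have hs := NodeData.s_pos hN
  have hs1 : v W.a₄ < 1 := hN.a₄_lt
  obtain ⟨x₀, hx₀⟩ := IsAlgClosed.exists_pow_nat_eq W.a₄ (n := 2) (by norm_num)
  have hv : v x₀ ^ 2 = v W.a₄ := by rw [← map_pow, hx₀]
  have hx₀pos : 0 < v x₀ := by
    rcases (zero_le (a := v x₀)).lt_or_eq with h | h
    · exact h
    · rw [← h] at hv; simp at hv; exact absurd hv.symm hs.ne'
  have hhi : v x₀ < 1 := by
    by_contra hcon
    rw [not_lt] at hcon
    have : (1 : Γ₀) ≤ v x₀ ^ 2 := one_le_pow₀ hcon
    rw [hv] at this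
    exact absurd hs1 (not_lt.mpr this)
  have hlo : v W.a₄ < v x₀ := by
    rw [← hv, pow_two]
    exact mul_lt_of_lt_one_right hx₀pos hhi
  obtain ⟨R, hR⟩ := exists_onBranch hN hlo hhi
  exact ⟨v x₀, R, hlo, hhi, hR⟩

/-- `E₀` is closed under addition. -/
theorem inE0_add' (hN : NodeData v W α β) {P Q : W.toAffine.Point} (hP : InE0 v W P)
    (hQ : InE0 v W Q) : InE0 v W (P + Q) := by
  obtain ⟨g, X, hg, hg1, hX⟩ := exists_onBranch_some hN
  have h1 := onBranch_add_inE0 hN hg hg1 hP hX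
  have h2 := onBranch_add_inE0 hN hg hg1 hQ h1
  have h3 := inE0_sub_of_onBranch hN hg hg1 hX h2
  have e : X + P + Q - X = P + Q := by abel
  rwa [e] at h3

/-- Adding a point of `E₀` does not change the component. -/
theorem compFun_add_inE0 (hN : NodeData v W α β) (X : W.toAffine.Point) {Q : W.toAffine.Point}
    (hQ : InE0 v W Q) : compFun hN (X + Q) = compFun hN X := by
  have hN' := NodeData.symm hN
  rcases classify hN X with hE | hA | ⟨g, hg, hg1, hα | hβ⟩
  · rw [compFun_of_inE0 hN hE, compFun_of_inE0 hN (inE0_add' hN hE hQ)]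
  · have hE : InE0 v W (X + T0 hN) := inE0_add_T0 hN hA
    have hE' : InE0 v W (X + T0 hN + Q) := inE0_add' hN hE hQ
    have hA' := antipodal_add_T0 hN hE'
    have e : X + T0 hN + Q + T0 hN = X + Q := by
      have := T0_add_T0 hN
      calc X + T0 hN + Q + T0 hN = X + Q + (T0 hN + T0 hN) := by abel
        _ = X + Q := by rw [this, add_zero]
    rw [e] at hA'
    rw [compFun_of_antipodal hN hA, compFun_of_antipodal hN hA']
  · have := onBranch_add_inE0 hN hg hg1 hQ hα
    rw [compFun_of_onBranch_α hN hg hg1 hα, compFun_of_onBranch_α hN hg hg1 this]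
  · have := onBranch_add_inE0 hN' hg hg1 hQ hβ
    rw [compFun_of_onBranch_β hN hg hg1 hβ, compFun_of_onBranch_β hN hg hg1 this]

/-- The component map is additive. -/
theorem compFun_add (hN : NodeData v W α β) (X Q : W.toAffine.Point) :
    compFun hN (X + Q) = compFun hN X * compFun hN Q := by
  have hN' := NodeData.symm hN
  rcases classify hN Q with hE | hA | ⟨g, hg, hg1, hα | hβ⟩
  · rw [compFun_add_inE0 hN X hE, compFun_of_inE0 hN hE, mul_one]
  · have hE : InE0 v W (Q + T0 hN) := inE0_add_T0 hN hA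
    have e : X + Q = X + (Q + T0 hN) + T0 hN := by
      have := T0_add_T0 hN
      calc X + Q = X + Q + (T0 hN + T0 hN) := by rw [this, add_zero]
        _ = X + (Q + T0 hN) + T0 hN := by abel
    rw [e, compFun_add_T0, compFun_add_inE0 hN X hE, compFun_of_antipodal hN hA]
  · rw [compFun_add_onBranch hN hg hg1 X hα, compFun_of_onBranch_α hN hg hg1 hα]
  · have hα' : OnBranch v W α g (-Q) := onBranch_neg hN' hβ
    have h1 := compFun_add_onBranch hN hg hg1 (X + Q) hα'
    have e : X + Q + -Q = X := by abel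
    rw [e] at h1
    rw [compFun_of_onBranch_β hN hg hg1 hβ, h1, mul_assoc, mul_inv_cancel, mul_one]

/-- **The component homomorphism** `E(K) → Γ₀ˣ / (s²)^ℤ`. -/
noncomputable def comp (hN : NodeData v W α β) :
    W.toAffine.Point →+ Additive (CompGroup hN) :=
  AddMonoidHom.mk' (fun P => Additive.ofMul (compFun hN P)) (fun X Q => by
    rw [compFun_add hN X Q]; rfl)

@[simp]
theorem comp_apply (hN : NodeData v W α β) (P : W.toAffine.Point) :
    comp hN P = Additive.ofMul (compFun hN P) := rfl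

/-- The kernel of the component homomorphism is `E₀`. -/
theorem comp_eq_zero_iff (hN : NodeData v W α β) (P : W.toAffine.Point) :
    comp hN P = 0 ↔ InE0 v W P := by
  rw [comp_apply, ← compFun_eq_one_iff hN P]
  exact Iff.rfl

theorem mem_ker_comp_iff (hN : NodeData v W α β) (P : W.toAffine.Point) :
    P ∈ (comp hN).ker ↔ InE0 v W P := by
  rw [AddMonoidHom.mem_ker, comp_eq_zero_iff]

/-- `E₀` as a subgroup: the kernel of the component homomorphism. -/
noncomputable def E0sub (hN : NodeData v W α β) : AddSubgroup W.toAffine.Point :=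
  (comp hN).ker

theorem mem_E0sub_iff (hN : NodeData v W α β) (P : W.toAffine.Point) :
    P ∈ E0sub hN ↔ InE0 v W P :=
  mem_ker_comp_iff hN P

/-! ### Invariance under valuation-preserving automorphisms -/

/-- A valuation-preserving ring endomorphism `σ` fixing `α` and `β`, with induced map `f` on
points, preserves the component. -/
theorem comp_map_of_fix (hN : NodeData v W α β) {σ : K →+* K}
    {f : W.toAffine.Point →+ W.toAffine.Point} (hv : ∀ x, v (σ x) = v x)
    (hmap : ∀ (x y : K) (h : W.toAffine.Nonsingular x y),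
      ∃ h' : W.toAffine.Nonsingular (σ x) (σ y), f (Point.some x y h) = Point.some (σ x) (σ y) h')
    (hα : σ α = α) (hβ : σ β = β) (P : W.toAffine.Point) : comp hN (f P) = comp hN P := by
  have key : ∀ (γ : K) (g : Γ₀), σ γ = γ → ∀ Q : W.toAffine.Point, OnBranch v W γ g Q →
      OnBranch v W γ g (f Q) := by
    rintro γ g hγ Q ⟨x, y, h, rfl, hx, hξ⟩
    obtain ⟨h', hf⟩ := hmap x y h
    refine ⟨σ x, σ y, h', hf, by rw [hv, hx], ?_⟩
    have : σ y - γ * σ x = σ (y - γ * x) := by rw [map_sub, map_mul, hγ]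
    rw [this, hv]; exact hξ
  simp only [comp_apply]
  congr 1
  rcases classify hN P with hE | hA | ⟨g, hg, hg1, hPα | hPβ⟩
  · have : InE0 v W (f P) := by
      rcases hE with rfl | ⟨x, y, h, rfl, hx⟩
      · left; exact map_zero f
      · obtain ⟨h', hf⟩ := hmap x y h
        exact Or.inr ⟨_, _, h', hf, by rw [hv]; exact hx⟩
    rw [compFun_of_inE0 hN hE, compFun_of_inE0 hN this]
  · have : Antipodal v W (f P) := by
      obtain ⟨x, y, h, rfl, hx⟩ := hA
      obtain ⟨h', hf⟩ := hmap x y h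
      exact ⟨_, _, h', hf, by rw [hv]; exact hx⟩
    rw [compFun_of_antipodal hN hA, compFun_of_antipodal hN this]
  · rw [compFun_of_onBranch_α hN hg hg1 hPα,
      compFun_of_onBranch_α hN hg hg1 (key α g hα P hPα)]
  · rw [compFun_of_onBranch_β hN hg hg1 hPβ,
      compFun_of_onBranch_β hN hg hg1 (key β g hβ P hPβ)]

/-- A valuation-preserving ring endomorphism `σ` swapping `α` and `β` inverts the component. -/
theorem comp_map_of_swap (hN : NodeData v W α β) {σ : K →+* K}
    {f : W.toAffine.Point →+ W.toAffine.Point} (hv : ∀ x, v (σ x) = v x)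
    (hmap : ∀ (x y : K) (h : W.toAffine.Nonsingular x y),
      ∃ h' : W.toAffine.Nonsingular (σ x) (σ y), f (Point.some x y h) = Point.some (σ x) (σ y) h')
    (hα : σ α = β) (hβ : σ β = α) (P : W.toAffine.Point) : comp hN (f P) = -comp hN P := by
  have key : ∀ (γ γ' : K) (g : Γ₀), σ γ = γ' → ∀ Q : W.toAffine.Point, OnBranch v W γ g Q →
      OnBranch v W γ' g (f Q) := by
    rintro γ γ' g hγ Q ⟨x, y, h, rfl, hx, hξ⟩
    obtain ⟨h', hf⟩ := hmap x y h
    refine ⟨σ x, σ y, h', hf, by rw [hv, hx], ?_⟩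
    have : σ y - γ' * σ x = σ (y - γ * x) := by rw [map_sub, map_mul, hγ]
    rw [this, hv]; exact hξ
  simp only [comp_apply]
  rw [← ofMul_inv]
  congr 1
  rcases classify hN P with hE | hA | ⟨g, hg, hg1, hPα | hPβ⟩
  · have : InE0 v W (f P) := by
      rcases hE with rfl | ⟨x, y, h, rfl, hx⟩
      · left; exact map_zero f
      · obtain ⟨h', hf⟩ := hmap x y h
        exact Or.inr ⟨_, _, h', hf, by rw [hv]; exact hx⟩
    rw [compFun_of_inE0 hN hE, compFun_of_inE0 hN this, inv_one]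
  · have : Antipodal v W (f P) := by
      obtain ⟨x, y, h, rfl, hx⟩ := hA
      obtain ⟨h', hf⟩ := hmap x y h
      exact ⟨_, _, h', hf, by rw [hv]; exact hx⟩
    rw [compFun_of_antipodal hN hA, compFun_of_antipodal hN this, cls_s_inv]
  · rw [compFun_of_onBranch_α hN hg hg1 hPα,
      compFun_of_onBranch_β hN hg hg1 (key α β g hα P hPα)]
  · rw [compFun_of_onBranch_β hN hg hg1 hPβ,
      compFun_of_onBranch_α hN hg hg1 (key β α g hβ P hPβ), inv_inv]

end AlgClosed

/-! ### The `p`-torsion of the component group -/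

/-- In a commutative group with unique `p`-th roots, the `p`-torsion of a quotient by a cyclic
subgroup has at most `p` elements. -/
theorem card_torsion_quotient_zpowers_le {G : Type*} [CommGroup G] (p : ℕ) [NeZero p]
    (hG : Function.Injective (fun x : G => x ^ p)) (t : G) :
    Finite {x : G ⧸ Subgroup.zpowers t // x ^ p = 1} ∧
      Nat.card {x : G ⧸ Subgroup.zpowers t // x ^ p = 1} ≤ p := by
  classical
  -- choose representatives
  have hrep : ∀ x : {x : G ⧸ Subgroup.zpowers t // x ^ p = 1},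
      ∃ (g : G) (k : ℤ), (QuotientGroup.mk g : G ⧸ Subgroup.zpowers t) = x.1 ∧ g ^ p = t ^ k := by
    rintro ⟨x, hx⟩
    obtain ⟨g, rfl⟩ := QuotientGroup.mk_surjective x
    rw [← QuotientGroup.mk_pow, QuotientGroup.eq_one_iff, Subgroup.mem_zpowers_iff] at hx
    obtain ⟨k, hk⟩ := hx
    exact ⟨g, k, rfl, hk.symm⟩
  choose g k hg hk using hrep
  let φ : {x : G ⧸ Subgroup.zpowers t // x ^ p = 1} → ZMod p := fun x => (k x : ZMod p)
  have hφ : Function.Injective φ := by
    intro x x' h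
    have h' : ((k x' - k x : ℤ) : ZMod p) = 0 := by
      have h0 : ((k x : ℤ) : ZMod p) = ((k x' : ℤ) : ZMod p) := h
      push_cast; rw [h0, sub_self]
    rw [ZMod.intCast_zmod_eq_zero_iff_dvd] at h'
    obtain ⟨j, hj⟩ := h'
    have e : (g x' / g x) ^ p = (t ^ j) ^ p := by
      rw [div_pow, hk, hk, div_eq_mul_inv, ← zpow_sub t, hj, ← zpow_natCast (t ^ j) p, ← zpow_mul,
        mul_comm]
    have e2 : g x' / g x = t ^ j := hG e
    apply Subtype.ext
    rw [← hg x, ← hg x']
    rw [QuotientGroup.eq, Subgroup.mem_zpowers_iff]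
    refine ⟨j, ?_⟩
    rw [← e2, div_eq_inv_mul]
  refine ⟨Finite.of_injective φ hφ, ?_⟩
  calc Nat.card {x : G ⧸ Subgroup.zpowers t // x ^ p = 1}
      ≤ Nat.card (ZMod p) := Nat.card_le_card_of_injective φ hφ
    _ = p := by rw [Nat.card_eq_fintype_card, ZMod.card]

section AlgClosed

variable [IsAlgClosed K]

/-- The `p`-torsion of the component group has at most `p` elements. -/
theorem card_compGroup_torsion_le (hN : NodeData v W α β) (p : ℕ) [NeZero p] :
    Finite {x : CompGroup hN // x ^ p = 1} ∧ Nat.card {x : CompGroup hN // x ^ p = 1} ≤ p :=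
  card_torsion_quotient_zpowers_le p (pow_left_injective (NeZero.ne p)) _

/-- **Cardinality bound.** A subgroup `H` of `E(K)` killed by `p` satisfies
`|H| ≤ p · |H ∩ E₀|`. -/
theorem card_le_mul_card_inf_E0sub (hN : NodeData v W α β) (p : ℕ) [NeZero p]
    (H : AddSubgroup W.toAffine.Point) (hH : ∀ P ∈ H, p • P = 0) :
    Nat.card H ≤ p * Nat.card ((E0sub hN).addSubgroupOf H) := by
  classical
  set φ : H →+ Additive (CompGroup hN) := (comp hN).comp H.subtype with hφ
  have hker : φ.ker = (E0sub hN).addSubgroupOf H := by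
    ext P
    simp only [hφ, AddMonoidHom.mem_ker, AddMonoidHom.comp_apply, AddSubgroup.coe_subtype,
      AddSubgroup.mem_addSubgroupOf, E0sub]
  obtain ⟨hfin, hcard⟩ := card_compGroup_torsion_le hN p
  -- the range of `φ` lies in the `p`-torsion
  let ψ : φ.range → {x : CompGroup hN // x ^ p = 1} := fun y =>
    ⟨Additive.toMul y.1, by
      obtain ⟨P, hP⟩ := y.2
      have h1 : p • φ P = 0 := by
        rw [← map_nsmul]
        have : p • P = 0 := Subtype.ext (by simpa using hH P.1 P.2)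
        rw [this, map_zero]
      rw [hP] at h1
      have := congrArg Additive.toMul h1
      simpa using this⟩
  have hψ : Function.Injective ψ := by
    intro y y' h
    apply Subtype.ext
    have := congrArg Subtype.val h
    simpa [ψ] using this
  have hrange : Nat.card φ.range ≤ p :=
    (Nat.card_le_card_of_injective ψ hψ).trans hcard
  have h1 : Nat.card H = Nat.card (H ⧸ φ.ker) * Nat.card φ.ker :=
    AddSubgroup.card_eq_card_quotient_mul_card_addSubgroup φ.ker
  have h2 : Nat.card (H ⧸ φ.ker) = Nat.card φ.range :=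
    Nat.card_congr (QuotientAddGroup.quotientKerEquivRange φ).toEquiv
  rw [h1, h2, hker]
  exact Nat.mul_le_mul_right _ hrange

/-- A point of odd order is never antipodal. -/
theorem not_antipodal_of_nsmul_eq_zero (hN : NodeData v W α β) {p : ℕ} (hp : Odd p)
    {P : W.toAffine.Point} (hP : p • P = 0) : ¬ Antipodal v W P := by
  intro hA
  have hs := NodeData.s_pos hN
  have h1 : compFun hN P = cls hN (v W.a₄) := compFun_of_antipodal hN hA
  have h2 : p • comp hN P = 0 := by rw [← map_nsmul, hP, map_zero]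
  have h3 : (compFun hN P) ^ p = 1 := by
    have := congrArg Additive.toMul h2
    simpa using this
  obtain ⟨m, rfl⟩ := hp
  rw [h1, pow_succ, pow_mul] at h3
  have h4 : cls hN (v W.a₄) ^ 2 = 1 := by rw [pow_two]; exact cls_s_mul_s hN
  rw [h4, one_pow, one_mul] at h3
  have hs2 : v W.a₄ ^ 2 < v W.a₄ := by
    rw [pow_two]; exact mul_lt_of_lt_one_right hs hN.a₄_lt
  exact cls_ne_one_of_mem_Ioo hN hs2 hN.a₄_lt h3

/-- **Torsion levels.** A point killed by an odd `p` that is not in `E₀` is an affine point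
`(x, y)` with `s < v x < 1` and `(v x) ^ p = s ^ (2k)`. -/
theorem exists_level_of_nsmul_eq_zero (hN : NodeData v W α β) {p : ℕ} (hp : Odd p)
    {P : W.toAffine.Point} (hP : p • P = 0) (hE : ¬ InE0 v W P) :
    ∃ (x y : K) (h : W.toAffine.Nonsingular x y) (k : ℕ), P = Point.some x y h ∧
      v W.a₄ < v x ∧ v x < 1 ∧ v x ^ p = v W.a₄ ^ (2 * k) := by
  have hp0 : 0 < p := hp.pos
  rcases classify hN P with h | hA | ⟨g, hg, hg1, hPα | hPβ⟩
  · exact absurd h hE
  · exact absurd hA (not_antipodal_of_nsmul_eq_zero hN hp hP)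
  · obtain ⟨k, hk⟩ := level_pow_of_torsion hN hp0 hP hg hg1 hPα
    obtain ⟨x, y, h, rfl, hx, -⟩ := hPα
    exact ⟨x, y, h, k, rfl, by rw [hx]; exact hg, by rw [hx]; exact hg1, by rw [hx]; exact hk⟩
  · obtain ⟨k, hk⟩ := level_pow_of_torsion (NodeData.symm hN) hp0 hP hg hg1 hPβ
    obtain ⟨x, y, h, rfl, hx, -⟩ := hPβ
    exact ⟨x, y, h, k, rfl, by rw [hx]; exact hg, by rw [hx]; exact hg1, by rw [hx]; exact hk⟩

/-- If `P` is killed by a prime `p`, is not in `E₀`, and `k • P` has the same component as `P`,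
then `k ≡ 1 mod p`. -/
theorem natCast_eq_one_of_comp_nsmul_eq (hN : NodeData v W α β) {p : ℕ} (hp : p.Prime)
    {P : W.toAffine.Point} (hP : p • P = 0) (hE : ¬ InE0 v W P) (k : ℕ)
    (h : comp hN (k • P) = comp hN P) : (k : ZMod p) = 1 := by
  have hc : comp hN P ≠ 0 := fun h0 => hE ((comp_eq_zero_iff hN P).mp h0)
  have hord : addOrderOf (comp hN P) = p := by
    have hdvd : addOrderOf (comp hN P) ∣ p := by
      apply addOrderOf_dvd_of_nsmul_eq_zero
      rw [← map_nsmul, hP, map_zero]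
    rcases (Nat.dvd_prime hp).mp hdvd with h1 | h1
    · exact absurd (AddMonoid.addOrderOf_eq_one_iff.mp h1) hc
    · exact h1
  rw [map_nsmul] at h
  have h2 : (k : ℤ) • comp hN P = (1 : ℤ) • comp hN P := by
    rw [natCast_zsmul, one_zsmul]; exact h
  have h3 : ((k : ℤ) - 1) • comp hN P = 0 := by
    rw [sub_zsmul, h2]; exact add_neg_cancel _
  have h4 : ((addOrderOf (comp hN P) : ℕ) : ℤ) ∣ (k : ℤ) - 1 :=
    addOrderOf_dvd_iff_zsmul_eq_zero.mpr h3
  rw [hord] at h4
  have := (ZMod.intCast_zmod_eq_zero_iff_dvd ((k : ℤ) - 1) p).mpr h4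
  push_cast at this
  exact sub_eq_zero.mp this

end AlgClosed

end Fermat.Agent.S13.NodeComp
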