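import Fermat.Agent.S13.NodeRed
import Fermat.Agent.S13.NodeComp

/-!
# S13 (C2-r): the `p`-torsion of `E₀` has at most `p` elements

Via the reduction character `nodeU` of `NodeRed.lean` the `p`-torsion of `E₀` injects into the
`p`-th roots of unity of the residue field (`v p = 1`); in residue characteristic `p` the
`p`-torsion of `E₀` lies in the kernel of reduction.
-/

set_option autoImplicit false

namespace Fermat.Agent.S13.NodeRed

open WeierstrassCurve WeierstrassCurve.Affine Fermat.Agent.S05

variable {K : Type*} [Field K] {Γ₀ : Type*} [LinearOrderedCommGroupWithZero Γ₀]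

/-! ### The residue map of a valuation -/

section Residue

variable (v : Valuation K Γ₀)

/-- The residue field of `v`. -/
abbrev ResK : Type _ := IsLocalRing.ResidueField v.valuationSubring

/-- The residue map, extended by `0` to the non-integral elements. -/
noncomputable def resK (x : K) : ResK v :=
  if h : v x ≤ 1 then IsLocalRing.residue v.valuationSubring ⟨x, h⟩ else 0

variable {v}

theorem resK_of_le {x : K} (h : v x ≤ 1) :
    resK v x = IsLocalRing.residue v.valuationSubring ⟨x, h⟩ := dif_pos h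

theorem resK_eq_iff {x y : K} (hx : v x ≤ 1) (hy : v y ≤ 1) :
    resK v x = resK v y ↔ v (x - y) < 1 := by
  rw [resK_of_le hx, resK_of_le hy, ← sub_eq_zero, ← map_sub, IsLocalRing.residue_eq_zero_iff,
    ValuationSubring.valuation_lt_one_iff,
    ← (Valuation.isEquiv_valuation_valuationSubring v).lt_one_iff_lt_one]
  rfl

theorem resK_one : resK v (1 : K) = 1 := by
  rw [resK_of_le (by rw [map_one])]
  exact map_one (IsLocalRing.residue v.valuationSubring)

theorem resK_mul {x y : K} (hx : v x ≤ 1) (hy : v y ≤ 1) :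
    resK v (x * y) = resK v x * resK v y := by
  have hxy : v (x * y) ≤ 1 := by
    rw [map_mul]
    calc v x * v y ≤ 1 * 1 := mul_le_mul' hx hy
      _ = 1 := one_mul _
  rw [resK_of_le hx, resK_of_le hy, resK_of_le hxy, ← map_mul]
  rfl

theorem resK_pow {x : K} (hx : v x ≤ 1) (n : ℕ) : resK v (x ^ n) = resK v x ^ n := by
  induction n with
  | zero => rw [pow_zero, pow_zero, resK_one]
  | succ n ih =>
    have hxn : v (x ^ n) ≤ 1 := by rw [map_pow]; exact pow_le_one' hx n
    rw [pow_succ, pow_succ, resK_mul hxn hx, ih]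

theorem resK_natCast (n : ℕ) : resK v (n : K) = (n : ResK v) := by
  have hn : v (n : K) ≤ 1 := Kernel.val_natCast_le v n
  rw [resK_of_le hn]
  have : (⟨(n : K), hn⟩ : v.valuationSubring) = (n : v.valuationSubring) := Subtype.ext (by simp)
  rw [this, map_natCast]

theorem resK_eq_zero_iff {x : K} (hx : v x ≤ 1) : resK v x = 0 ↔ v x < 1 := by
  have h0 : resK v (0 : K) = 0 := by
    rw [resK_of_le (by rw [map_zero]; exact zero_le)]
    exact map_zero (IsLocalRing.residue v.valuationSubring)
  rw [← h0, resK_eq_iff hx (by rw [map_zero]; exact zero_le), sub_zero]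

end Residue

/-! ### The reduction map on points -/

section Points

variable [DecidableEq K] {v : Valuation K Γ₀} {W : WeierstrassCurve K} {α β : K}

/-- The reduction character with values in the residue field. -/
noncomputable def redU (v : Valuation K Γ₀) (α β : K) (P : W.toAffine.Point) : ResK v :=
  resK v (nodeU α β P)

theorem redU_eq_iff (hN : NodeData v W α β) {P Q : W.toAffine.Point} (hP : InE0 v W P)
    (hQ : InE0 v W Q) : redU v α β P = redU v α β Q ↔ InKer v W (P - Q) := by
  unfold redU
  rw [resK_eq_iff (val_nodeU hN hP).le (val_nodeU hN hQ).le,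
    val_nodeU_sub_lt_iff_inKer_sub hN hP hQ]

theorem redU_add (hN : NodeData v W α β) {P Q : W.toAffine.Point} (hP : InE0 v W P)
    (hQ : InE0 v W Q) : redU v α β (P + Q) = redU v α β P * redU v α β Q := by
  unfold redU
  have hu := (val_nodeU hN hP).le
  have hu' := (val_nodeU hN hQ).le
  rw [← resK_mul hu hu', resK_eq_iff (val_nodeU hN (inE0_add hN hP hQ)).le]
  · exact val_nodeU_add_sub_lt hN hP hQ
  · rw [map_mul]
    calc v (nodeU α β P) * v (nodeU α β Q) ≤ 1 * 1 := mul_le_mul' hu hu'
      _ = 1 := one_mul _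

omit [DecidableEq K] in
theorem redU_zero : redU v α β (0 : W.toAffine.Point) = 1 := by
  unfold redU; rw [nodeU_zero, resK_one]

omit [DecidableEq K] in
theorem redU_ne_zero (hN : NodeData v W α β) {P : W.toAffine.Point} (hP : InE0 v W P) :
    redU v α β P ≠ 0 := by
  unfold redU
  rw [Ne, resK_eq_zero_iff (val_nodeU hN hP).le, val_nodeU hN hP]
  exact lt_irrefl _

theorem redU_nsmul (hN : NodeData v W α β) {P : W.toAffine.Point} (hP : InE0 v W P) (n : ℕ) :
    redU v α β (n • P) = redU v α β P ^ n := by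
  induction n with
  | zero => rw [zero_smul, pow_zero, redU_zero]
  | succ n ih => rw [succ_nsmul, pow_succ, redU_add hN (inE0_nsmul hN hP n) hP, ih]

theorem redU_pow_eq_one (hN : NodeData v W α β) {p : ℕ} {P : W.toAffine.Point}
    (hP : InE0 v W P) (hpP : p • P = 0) : redU v α β P ^ p = 1 := by
  rw [← redU_nsmul hN hP, hpP, redU_zero]

theorem redU_eq_one_iff (hN : NodeData v W α β) {P : W.toAffine.Point} (hP : InE0 v W P) :
    redU v α β P = 1 ↔ InKer v W P := by
  rw [← redU_zero (v := v) (W := W) (α := α) (β := β), redU_eq_iff hN hP (Or.inl rfl), sub_zero]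

/-- The reduction character is injective on the `p`-torsion of `E₀` (`v p = 1`). -/
theorem redU_injOn (hN : NodeData v W α β) {p : ℕ} (hvp : v (p : K) = 1) :
    Set.InjOn (redU v α β) {P : W.toAffine.Point | InE0 v W P ∧ p • P = 0} := by
  rintro P ⟨hP, hpP⟩ Q ⟨hQ, hpQ⟩ h
  unfold redU at h
  rw [resK_eq_iff (val_nodeU hN hP).le (val_nodeU hN hQ).le] at h
  exact eq_of_val_nodeU_sub_lt hN hvp hP hQ hpP hpQ h

/-- **A set of `p`-torsion points of `E₀` is finite with at most `p` elements** (`v p = 1`). -/
theorem finite_and_ncard_le (hN : NodeData v W α β) {p : ℕ} (hp : 0 < p) (hvp : v (p : K) = 1)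
    (S : Set W.toAffine.Point) (hS : ∀ P ∈ S, InE0 v W P ∧ p • P = 0) :
    S.Finite ∧ S.ncard ≤ p := by
  have hmaps : ∀ P ∈ S, redU v α β P ∈ (Polynomial.nthRootsFinset p (1 : ResK v) : Set (ResK v)) := by
    intro P hP
    rw [Finset.mem_coe, Polynomial.mem_nthRootsFinset hp]
    exact redU_pow_eq_one hN (hS P hP).1 (hS P hP).2
  have hinj : Set.InjOn (redU v α β) S := (redU_injOn hN hvp).mono (fun P hP => hS P hP)
  have hfin : (Polynomial.nthRootsFinset p (1 : ResK v) : Set (ResK v)).Finite :=
    Finset.finite_toSet _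
  refine ⟨Set.Finite.of_injOn hmaps hinj hfin, ?_⟩
  have h1 := Set.ncard_le_ncard_of_injOn (redU v α β) hmaps hinj hfin
  rw [Set.ncard_coe_finset] at h1
  refine h1.trans ?_
  classical
  rw [Polynomial.nthRootsFinset_def]
  exact (Multiset.toFinset_card_le _).trans (Polynomial.card_nthRoots p 1)

/-- In residue characteristic `p` the `p`-torsion of `E₀` lies in the kernel of reduction. -/
theorem inKer_of_nsmul_eq_zero_of_val_lt (hN : NodeData v W α β) {p : ℕ} (hp : p.Prime)
    (hvp : v (p : K) < 1) {P : W.toAffine.Point} (hP : InE0 v W P) (hpP : p • P = 0) :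
    InKer v W P := by
  rw [← redU_eq_one_iff hN hP]
  have h1 := redU_pow_eq_one hN hP hpP
  have hchar : (p : ResK v) = 0 := by
    rw [← resK_natCast, resK_eq_zero_iff (Kernel.val_natCast_le v p)]
    exact hvp
  have : Fact p.Prime := ⟨hp⟩
  have : CharP (ResK v) p := (CharP.charP_iff_prime_eq_zero hp).mpr hchar
  have h2 : (redU v α β P - 1) ^ p = 0 := by
    rw [sub_pow_char, one_pow, h1, sub_self]
  exact sub_eq_zero.mp (pow_eq_zero_iff hp.ne_zero |>.mp h2)

end Points

/-! ### The shape needed by `LocalTwoAbs.local_block` -/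

section AlgClosed

open Fermat.Agent.S13.NodeComp

variable [DecidableEq K] [IsAlgClosed K] {v : Valuation K Γ₀} {W : WeierstrassCurve K} {α β : K}

/-- **(RED)** The `p`-torsion of `E₀` is finite with at most `p` elements. -/
theorem finite_and_card_inf_E0sub_le (hN : NodeData v W α β) {p : ℕ} (hp : 0 < p)
    (hvp : v (p : K) = 1) (V : AddSubgroup W.toAffine.Point) (hV : ∀ P ∈ V, p • P = 0) :
    Finite ↥(V ⊓ E0sub hN) ∧ Nat.card ↥(V ⊓ E0sub hN) ≤ p := by
  have hS : ∀ P ∈ ((V ⊓ E0sub hN : AddSubgroup W.toAffine.Point) : Set W.toAffine.Point),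
      InE0 v W P ∧ p • P = 0 := by
    intro P hP
    rw [SetLike.mem_coe, AddSubgroup.mem_inf] at hP
    exact ⟨(mem_E0sub_iff hN P).mp hP.2, hV P hP.1⟩
  obtain ⟨hfin, hcard⟩ := finite_and_ncard_le hN hp hvp _ hS
  refine ⟨hfin.to_subtype, ?_⟩
  rw [← Nat.card_coe_set_eq] at hcard
  exact hcard

end AlgClosed

end Fermat.Agent.S13.NodeRed
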