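import Fermat.Agent.S13.Assembly
import Fermat.Agent.S05
import Fermat.Agent.S54.Frobenius

/-!
# S13 top-level assembly, with S05 (landed) and S54 (existence of valuation subrings) plugged in
-/

set_option autoImplicit false

namespace Fermat.Agent.S13

open WeierstrassCurve WeierstrassCurve.Affine WeierstrassCurve.Affine.Point
open scoped WeierstrassCurve.Affine

/-- S13 from the outputs of the four blocks (D), (G), (L2), (Lp). -/
theorem s13_of_blocks (P : FreyPackage) (hD : DOut P) (hG : GOut) (h2 : L2Out P) (hp : LpOut P)
    (hred : ¬ GaloisRepIsIrreducible (K := Qb) ℚ P.freyCurve P.p) :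
    HasGaloisStableCofixedLine (K := Qb) ℚ P.freyCurve P.p :=
  s13_of P hD hG h2 hp (fun _ hq hq2 hqp => Fermat.Agent.S05.result P hq hq2 hqp)
    (fun q hq => Fermat.Agent.S54.exists_valuationSubring_liesOver q hq) hred

end Fermat.Agent.S13
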