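import Mathlib
import Fermat.Agent.S14.Trans

set_option autoImplicit false
set_option linter.style.haveILetI false

open NumberField
open scoped Pointwise
open Fermat.Agent.S14 Fermat.Agent.S54.FrobExists

namespace Fermat.Agent.S13

local notation "Qb" => AlgebraicClosure ℚ
local notation "GQ" => (AlgebraicClosure ℚ ≃ₐ[ℚ] AlgebraicClosure ℚ)

/-- In a Galois number field of degree `> 1` some maximal ideal has nontrivial inertia group. -/
theorem exists_inertia_ne_bot (L : Type*) [Field L] [NumberField L] [IsGalois ℚ L]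
    (H : Module.finrank ℚ L ≠ 1) :
    ∃ (P : Ideal (𝓞 L)) (_ : P.IsMaximal), P.inertia Gal(L/ℚ) ≠ ⊥ := by
  obtain ⟨P, hP, hram⟩ := NumberField.exists_not_isUnramifiedAt_int (K := L) (𝒪 := 𝓞 L) H
  refine ⟨P, hP, fun hbot => hram ?_⟩
  haveI : P.IsPrime := hP.isPrime
  have h1 : Nat.card (P.inertia Gal(L/ℚ)) = (P.under ℤ).ramificationIdxIn (𝓞 L) :=
    Ideal.card_inertia_eq_ramificationIdxIn (P.under ℤ) P
  rw [hbot, Subgroup.card_bot,
    Ideal.ramificationIdxIn_eq_ramificationIdx (P.under ℤ) P Gal(L/ℚ)] at h1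
  rw [← Ideal.ramificationIdx_eq_one_iff]
  exact h1.symm

section Aux

variable {L : Type} [Field L] [NumberField L] [IsGalois ℚ L] [Algebra L Qb]
  [IsScalarTower ℚ L Qb] {H : Subgroup GQ}
  (hL1 : ∀ σ : GQ, σ ∈ H ↔ ∀ x : L, σ (algebraMap L Qb x) = algebraMap L Qb x)
  (hI : ∀ (A : ValuationSubring Qb) (ℓ : ℕ), ℓ.Prime → A.LiesOverPrime ℓ →
      A.inertiaSubgroupIn ℚ ≤ H)

include hL1 hI in
theorem eq_one_of_mem_inertia_of_le (Q : Ideal (integralClosure ℤ L)) (hQ : Q.IsMaximal) {ℓ : ℕ}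
    (hℓ : ℓ.Prime) (hℓQ : (ℓ : integralClosure ℤ L) ∈ Q)
    (τ : L ≃ₐ[ℚ] L) (hτ : τ ∈ Q.inertia (L ≃ₐ[ℚ] L)) : τ = 1 := by
  haveI := Trans.isGalois_Qb
  haveI := hQ
  obtain ⟨A, rfl⟩ := exists_valuationSubring_centerIdeal_comap_eq (Ω := Qb) L Q
  obtain ⟨hA1, hA2⟩ := Trans.liesOverPrime_of_natCast_mem hℓQ
  rw [inertia_centerIdeal_eq Trans.isAlgebraic_int_L _ hℓ hA2] at hτ
  obtain ⟨σ, hσI, rfl⟩ := exists_mem_inertiaSubgroupIn_restrictNormalHom_eq L A hℓ hA1 τ hτ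
  have hσH : σ ∈ H := hI A ℓ hℓ hA1 hσI
  ext x
  apply (algebraMap L Qb).injective
  rw [restrictNormalHom_apply_coe]
  exact (hL1 σ).mp hσH x

end Aux

/-- **Minkowski, Galois-group form**: an open normal subgroup of `G_ℚ` which contains the inertia
group of every valuation subring of `ℚ̄` lying over a prime is the whole group. -/
theorem eq_top_of_inertiaSubgroupIn_le (H : Subgroup GQ) [H.Normal] (hH : IsOpen (H : Set GQ))
    (hI : ∀ (A : ValuationSubring Qb) (ℓ : ℕ), ℓ.Prime → A.LiesOverPrime ℓ →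
      A.inertiaSubgroupIn ℚ ≤ H) : H = ⊤ := by
  obtain ⟨L, hF, hNF, hGal, ι, h1, h2⟩ := Trans.exists_numberField_of_isOpen_normal H hH
  letI : Algebra L Qb := ι.toAlgebra
  haveI : IsScalarTower ℚ L Qb := IsScalarTower.of_algebraMap_eq (fun q => by
    rw [RingHom.algebraMap_toAlgebra, eq_ratCast, eq_ratCast, map_ratCast])
  have hL1 : ∀ σ : GQ, σ ∈ H ↔ ∀ x : L, σ (algebraMap L Qb x) = algebraMap L Qb x := h1
  have hdeg : Module.finrank ℚ L = 1 := by
    by_contra hne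
    obtain ⟨P, hP, hin⟩ := exists_inertia_ne_bot L hne
    apply hin
    rw [eq_bot_iff]
    intro τ hτ
    rw [Subgroup.mem_bot]
    haveI := hP
    have hP0 : P ≠ ⊥ := Ring.ne_bot_of_isMaximal_of_not_isField hP (RingOfIntegers.not_isField L)
    obtain ⟨ℓ, hℓ, hℓP⟩ := Trans.exists_prime_natCast_mem P hP0
    exact eq_one_of_mem_inertia_of_le hL1 hI P hP hℓ hℓP τ hτ
  rw [eq_top_iff]
  intro σ _
  rw [hL1]
  intro x
  have hx : x ∈ (⊥ : IntermediateField ℚ L) := by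
    have hbot : (⊥ : IntermediateField ℚ L) = ⊤ :=
      IntermediateField.bot_eq_top_iff_finrank_eq_one.mpr hdeg
    rw [hbot]
    trivial
  obtain ⟨q, rfl⟩ := IntermediateField.mem_bot.mp hx
  rw [← IsScalarTower.algebraMap_apply, AlgEquiv.commutes]

/-- **Minkowski, character form**: a homomorphism from `G_ℚ` with open kernel which is trivial on
all inertia groups is trivial. -/
theorem monoidHom_eq_one_of_forall_inertia {M : Type*} [Group M] (χ : GQ →* M)
    (hχ : IsOpen (χ.ker : Set GQ))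
    (hI : ∀ (A : ValuationSubring Qb) (ℓ : ℕ), ℓ.Prime → A.LiesOverPrime ℓ →
      ∀ σ ∈ A.inertiaSubgroupIn ℚ, χ σ = 1) (σ : GQ) : χ σ = 1 := by
  have h := eq_top_of_inertiaSubgroupIn_le χ.ker hχ
    (fun A ℓ hℓ hA σ hσ => MonoidHom.mem_ker.mpr (hI A ℓ hℓ hA σ hσ))
  have : σ ∈ χ.ker := h ▸ Subgroup.mem_top σ
  exact MonoidHom.mem_ker.mp this

end Fermat.Agent.S13
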