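import Fermat.Agent.S13.Assembly
import Fermat.Agent.S13.Minkowski
import Fermat.Agent.S13.InertiaConj
import Fermat.Agent.S05.Val

/-!
# S13: the block output `GOut` (Minkowski in the form used by the top-level assembly)
-/

set_option autoImplicit false

namespace Fermat.Agent.S13

open IntermediateField

/-- A subgroup of `G_ℚ` containing the fixer of a finite set is open. -/
theorem isOpen_of_finset_fixer (H : Subgroup GQ)
    (hS : ∃ S : Finset Qb, ∀ σ : GQ, (∀ s ∈ S, σ s = s) → σ ∈ H) : IsOpen (H : Set GQ) := by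
  obtain ⟨S, hS⟩ := hS
  let E : IntermediateField ℚ Qb := adjoin ℚ (S : Set Qb)
  have : FiniteDimensional ℚ E := by
    apply IntermediateField.finiteDimensional_adjoin
    intro z _
    exact (Fermat.Agent.S05.isAlgebraic_rat_algebraicClosure z).isIntegral
  refine Subgroup.isOpen_mono (H₁ := E.fixingSubgroup) ?_ E.fixingSubgroup_isOpen
  intro σ hσ
  rw [IntermediateField.mem_fixingSubgroup_iff] at hσ
  exact hS σ (fun s hs => hσ s (subset_adjoin ℚ _ (by simpa using hs)))

/-- Block (G) in the shape used by `s13_of`. -/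
theorem gOut : GOut := by
  intro H hHn hS hI
  have := hHn
  have : IsGalois ℚ Qb := Fermat.Agent.S54.FrobExists.isGalois_rat_algebraicClosure
  refine eq_top_of_inertiaSubgroupIn_le H (isOpen_of_finset_fixer H hS) ?_
  intro A' ℓ hℓ hA' τ hτ
  obtain ⟨A, hA, hIA⟩ := hI ℓ hℓ
  obtain ⟨g, rfl⟩ := exists_smul_valuationSubring_eq A A' hℓ hA hA'
  rw [conj_mem_inertiaSubgroupIn_smul] at hτ
  have h1 : g⁻¹ * τ * g ∈ H := hIA hτ
  have h2 := hHn.conj_mem _ h1 g
  simpa [mul_assoc] using h2

end Fermat.Agent.S13
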