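import Mathlib
import Fermat.Prelude.Def_FLTPrelim_Ramification
import Fermat.Agent.S05.Defs
import Fermat.Agent.S05.Val
import Fermat.Agent.S05.H23Frey
import Fermat.Agent.S05.H26FreyArith

/-!
# S13: the Frey curve at a valuation subring of `ℚ̄` over `2`

For `A` over `2` and `W = P.freyCurve⁄ℚ̄ : y² + xy = x³ + a₂x² + a₄x`:
* `frey_nodeData_two`: `NodeData A.valuation W α β` for the two roots `α, β` of `t² + t - a₂`
  (`a₂ = (bᵖ - 1 - aᵖ)/4` is an integer since `a ≡ 3 mod 4`, `2 ∣ b`; `a₄ = -aᵖbᵖ/16` is an even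
  integer since `p ≥ 5`; `(α - β)² = bᵖ - aᵖ` is odd);
* `frey_val_a₄_two`: `v a₄ = (v 2) ^ m` with `p ∤ 2 m` (`m = p v₂(b) - 4`);
* `frey_val_p_two`: `v p = 1`.
-/

set_option autoImplicit false
set_option linter.unusedSectionVars false

namespace Fermat.Agent.S13.FreyTwo

open WeierstrassCurve WeierstrassCurve.Affine Fermat.Agent.S05
open scoped WeierstrassCurve.Affine

local notation "Qb" => AlgebraicClosure ℚ

section Arith

variable (P : FreyPackage)

theorem two_dvd_b : (2 : ℤ) ∣ P.b := (ZMod.intCast_zmod_eq_zero_iff_dvd P.b 2).1 P.hb2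

theorem not_two_dvd_a : ¬ (2 : ℤ) ∣ P.a := by
  intro h
  have h4 : (P.a : ZMod 4) = 3 := P.ha4
  obtain ⟨k, hk⟩ := h
  rw [hk] at h4
  push_cast at h4
  have : ∀ x : ZMod 4, (2 : ZMod 4) * x ≠ 3 := by decide
  exact this _ h4

theorem four_dvd_a₂_num : (4 : ℤ) ∣ P.b ^ P.p - 1 - P.a ^ P.p := by
  have hp := P.hp5
  have hodd := P.hp_odd
  have h1 : (4 : ℤ) ∣ P.b ^ P.p := by
    obtain ⟨k, hk⟩ := two_dvd_b P
    have : P.b ^ P.p = P.b ^ 2 * P.b ^ (P.p - 2) := by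
      rw [← pow_add]; congr 1; omega
    rw [this, hk]
    exact Dvd.dvd.mul_right ⟨k ^ 2, by ring⟩ _
  have h2 : (4 : ℤ) ∣ P.a ^ P.p + 1 := by
    have ha : P.a ≡ -1 [ZMOD 4] := by
      have h4 : (P.a : ZMod 4) = 3 := P.ha4
      have h5 : ((P.a : ℤ) : ZMod 4) = ((-1 : ℤ) : ZMod 4) := by
        rw [h4]; decide
      exact_mod_cast (ZMod.intCast_eq_intCast_iff P.a (-1) 4).mp h5
    have := ha.pow P.p
    rw [hodd.neg_one_pow] at this
    have h3 := this.dvd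
    have : P.a ^ P.p + 1 = -(-1 - P.a ^ P.p) := by ring
    rw [this, dvd_neg]
    exact h3
  have : P.b ^ P.p - 1 - P.a ^ P.p = P.b ^ P.p - (P.a ^ P.p + 1) := by ring
  rw [this]
  exact dvd_sub h1 h2

/-- `b = 2 ^ k * b'` with `b'` odd and `k ≥ 1`. -/
theorem exists_b_eq : ∃ (k : ℕ) (b' : ℤ), 1 ≤ k ∧ ¬ (2 : ℤ) ∣ b' ∧ P.b = 2 ^ k * b' := by
  have hfin : FiniteMultiplicity (2 : ℤ) P.b := Int.finiteMultiplicity_iff.mpr ⟨by decide, P.hb0⟩
  obtain ⟨c, hc, hnd⟩ := hfin.exists_eq_pow_mul_and_not_dvd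
  refine ⟨multiplicity (2 : ℤ) P.b, c, ?_, hnd, hc⟩
  by_contra h
  have h0 : multiplicity (2 : ℤ) P.b = 0 := by omega
  rw [h0, pow_zero, one_mul] at hc
  exact hnd (hc ▸ two_dvd_b P)

theorem not_p_dvd_two_mul (k : ℕ) : ¬ ((P.p : ℕ) : ℤ) ∣ 2 * ((P.p : ℤ) * k - 4) := by
  intro h
  have h1 : ((P.p : ℕ) : ℤ) ∣ 8 := by
    have h2 : ((P.p : ℕ) : ℤ) ∣ 2 * ((P.p : ℤ) * k) := Dvd.dvd.mul_left (Dvd.intro _ rfl) _
    have h3 := dvd_sub h2 h
    have : 2 * ((P.p : ℤ) * k) - 2 * ((P.p : ℤ) * k - 4) = 8 := by ring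
    rwa [this] at h3
  have h4 : P.p ∣ 8 := by exact_mod_cast h1
  have h5 : P.p ≤ 8 := Nat.le_of_dvd (by norm_num) h4
  have h6 := P.hp5
  have hpp := P.pp
  interval_cases P.p <;> simp_all (config := {decide := true})

end Arith

section Val

variable (P : FreyPackage) (A : ValuationSubring Qb) (hA : A.LiesOverPrime 2)
include hA

theorem val_two_lt_one : A.valuation (2 : Qb) < 1 := by
  have := A.mem_nonunits_iff.mp hA
  simpa using this

theorem val_two_ne_zero : A.valuation (2 : Qb) ≠ 0 :=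
  (Valuation.ne_zero_iff _).mpr two_ne_zero

theorem val_odd {n : ℤ} (hn : ¬ (2 : ℤ) ∣ n) : A.valuation (n : Qb) = 1 :=
  val_intCast_eq_one A Nat.prime_two hA (by simpa using hn)

theorem frey_val_p_two : A.valuation ((P.p : ℕ) : Qb) = 1 := by
  have h : ¬ (2 : ℤ) ∣ ((P.p : ℕ) : ℤ) := by
    intro h
    have h1 : 2 ∣ P.p := by exact_mod_cast h
    have := (Nat.prime_dvd_prime_iff_eq Nat.prime_two P.pp).mp h1
    have := P.hp5
    omega
  have := val_odd A hA h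
  simpa using this

theorem frey_a₂_int : ∃ z : ℤ, (P.freyCurve⁄Qb).a₂ = (z : Qb) := by
  obtain ⟨z, hz⟩ := four_dvd_a₂_num P
  refine ⟨z, ?_⟩
  show algebraMap ℚ Qb P.freyCurve.a₂ = _
  have : P.freyCurve.a₂ = (z : ℚ) := by
    rw [freyCurve_a₂]
    unfold freyA freyB
    have : ((P.b : ℚ) ^ P.p - 1 - (P.a : ℚ) ^ P.p) = ((P.b ^ P.p - 1 - P.a ^ P.p : ℤ) : ℚ) := by
      push_cast; ring
    rw [this, hz]
    push_cast
    ring
  rw [this, map_intCast]

/-- `a₄ = -(aᵖ b'ᵖ) 2^(pk-4)`. -/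
theorem frey_a₄_eq_two : ∃ (k : ℕ) (u : ℤ), 1 ≤ k ∧ ¬ (2 : ℤ) ∣ u ∧ 4 < P.p * k ∧
    (P.freyCurve⁄Qb).a₄ = (u : Qb) * (2 : Qb) ^ (P.p * k - 4) := by
  obtain ⟨k, b', hk, hb', hb⟩ := exists_b_eq P
  have hp5 := P.hp5
  have hlt : 4 < P.p * k := by nlinarith
  refine ⟨k, -(P.a ^ P.p * b' ^ P.p), hk, ?_, hlt, ?_⟩
  · rw [dvd_neg]
    intro h
    rcases Int.prime_two.dvd_or_dvd h with h | h
    · exact not_two_dvd_a P (Int.prime_two.dvd_of_dvd_pow h)
    · exact hb' (Int.prime_two.dvd_of_dvd_pow h)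
  · show algebraMap ℚ Qb P.freyCurve.a₄ = _
    have : P.freyCurve.a₄ = ((-(P.a ^ P.p * b' ^ P.p) : ℤ) : ℚ) * (2 : ℚ) ^ (P.p * k - 4) := by
      rw [freyCurve_a₄]
      unfold freyA freyB
      have h16 : (2 : ℚ) ^ (P.p * k) = 16 * (2 : ℚ) ^ (P.p * k - 4) := by
        have : P.p * k = 4 + (P.p * k - 4) := by omega
        conv_lhs => rw [this, pow_add]
        norm_num
      have hbq : (P.b : ℚ) = 2 ^ k * (b' : ℚ) := by exact_mod_cast congrArg (Int.cast (R := ℚ)) hb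
      rw [hbq, mul_pow, ← pow_mul, mul_comm k P.p, h16]
      push_cast
      ring
    rw [this, map_mul, map_pow, map_intCast, map_ofNat]

theorem frey_val_a₄_two : ∃ m : ℤ, 0 < m ∧
    A.valuation (P.freyCurve⁄Qb).a₄ = A.valuation (2 : Qb) ^ m ∧ ¬ ((P.p : ℕ) : ℤ) ∣ 2 * m := by
  obtain ⟨k, u, hk, hu, hlt, h4⟩ := frey_a₄_eq_two P A hA
  refine ⟨(P.p : ℤ) * k - 4, ?_, ?_, not_p_dvd_two_mul P k⟩
  · have : ((4 : ℕ) : ℤ) < ((P.p * k : ℕ) : ℤ) := by exact_mod_cast hlt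
    push_cast at this
    linarith
  · rw [h4, map_mul, map_pow, val_odd A hA hu, one_mul, ← zpow_natCast]
    congr 1
    rw [Nat.cast_sub hlt.le]
    push_cast
    ring

theorem frey_nodeData_two : ∃ α β : Qb, NodeData A.valuation (P.freyCurve⁄Qb) α β := by
  obtain ⟨α, β, hsum, hprod⟩ := FreyArith.exists_tangent_roots (P.freyCurve⁄Qb)
  obtain ⟨z, hz⟩ := frey_a₂_int P A hA
  obtain ⟨m, hm0, hm, -⟩ := frey_val_a₄_two P A hA
  have ha₁ : (P.freyCurve⁄Qb).a₁ = 1 := by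
    show algebraMap ℚ Qb P.freyCurve.a₁ = 1
    simp
  refine ⟨α, β, ?_⟩
  exact
    { a₃ := by
        show algebraMap ℚ Qb P.freyCurve.a₃ = 0
        simp
      a₆ := by
        show algebraMap ℚ Qb P.freyCurve.a₆ = 0
        simp
      a₁ := by rw [ha₁, map_one]
      a₂ := by rw [hz]; exact val_intCast_le_one A z
      a₄_lt := by
        rw [hm]
        have h2 := val_two_lt_one A hA
        obtain ⟨n, rfl⟩ := Int.eq_ofNat_of_zero_le hm0.le
        rw [zpow_natCast]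
        exact pow_lt_one₀ zero_le h2 (by omega)
      a₄_ne := by
        intro h0
        rw [h0, map_zero] at hm
        exact zpow_ne_zero m (val_two_ne_zero A hA) hm.symm
      sum := hsum
      prod := hprod
      sep := by
        -- `(α - β)² = 1 + 4 a₂ = bᵖ - aᵖ`, odd
        have hsq : (α - β) ^ 2 = ((P.b ^ P.p - P.a ^ P.p : ℤ) : Qb) := by
          have e : (α - β) ^ 2 = (α + β) ^ 2 - 4 * (α * β) := by ring
          rw [e, hsum, hprod, ha₁]
          have h2 : (P.freyCurve⁄Qb).a₂ = algebraMap ℚ Qb P.freyCurve.a₂ := rfl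
          rw [h2, freyCurve_a₂]
          unfold freyA freyB
          rw [map_div₀, map_sub, map_sub, map_pow, map_pow, map_one, map_intCast, map_intCast,
            map_ofNat]
          push_cast
          ring
        have hodd : ¬ (2 : ℤ) ∣ P.b ^ P.p - P.a ^ P.p := by
          intro h
          have hb : (2 : ℤ) ∣ P.b ^ P.p := dvd_pow (two_dvd_b P) P.hp0
          have ha : (2 : ℤ) ∣ P.a ^ P.p := by
            have := dvd_sub hb h
            rwa [sub_sub_cancel] at this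
          exact not_two_dvd_a P (Int.prime_two.dvd_of_dvd_pow ha)
        have hval : A.valuation (α - β) ^ 2 = 1 := by
          rw [← map_pow, hsq]; exact val_odd A hA hodd
        exact (pow_left_inj₀ zero_le zero_le two_ne_zero).mp (by rw [hval, one_pow]) }

end Val

end Fermat.Agent.S13.FreyTwo
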