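import Fermat.Agent.S13.NodeComp
import Fermat.Agent.S05.Mult

/-!
# S13: unipotence of inertia at a prime of multiplicative reduction (residue characteristic `≠ p`)

General S05 setting (`NodeData v W α β` over an algebraically closed valued field `K`), `p` a
`v`-unit.  An inertia-like pair `(σ, f)` fixing `a₁, a₂` satisfies `(f - 1)² = 0` on the
`p`-torsion: `f P - P ∈ E₀` by invariance of the component map, and `f` moves points of `E₀` by
elements of the kernel of reduction, which has no `p`-torsion.

Together with the linear algebra lemma `unipotent_line` (a unipotent endomorphism of a space of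
dimension `≤ 2` over `𝔽_p` stabilising a line `N` acts trivially on `N` and on `V / N`) this gives
the local block at `2` of S13 without any information on the value group of the inertia field.
-/

set_option autoImplicit false

namespace Fermat.Agent.S13.L2Unip

open WeierstrassCurve WeierstrassCurve.Affine Fermat.Agent.S05 Fermat.Agent.S13.NodeComp

section Node

variable {K : Type*} [Field K] [DecidableEq K] [IsAlgClosed K]
variable {Γ₀ : Type*} [LinearOrderedCommGroupWithZero Γ₀]
variable {v : Valuation K Γ₀} {W : WeierstrassCurve K} {α β : K}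

/-- An inertia-like map moves every point by an element of `E₀`. -/
theorem inE0_map_sub (hN : NodeData v W α β)
    {σ : K →+* K} {f : W.toAffine.Point →+ W.toAffine.Point} (hf : InertiaLike v W σ f)
    (h1 : σ W.a₁ = W.a₁) (h2 : σ W.a₂ = W.a₂) (P : W.toAffine.Point) :
    InE0 v W (f P - P) := by
  have hα : σ α = α := fp_sigma_alpha hN hf h1 h2
  have hβ : σ β = β := fp_sigma_alpha (fp_swap hN) hf h1 h2
  rw [← comp_eq_zero_iff hN, map_sub, comp_map_of_fix hN hf.val_eq hf.map_some hα hβ P, sub_self]

/-- **Unipotence.** `(f - 1)² = 0` on the `p`-torsion, `p` a unit. -/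
theorem map_sub_eq_of_node (hN : NodeData v W α β) {p : ℕ} (hvp : v (p : K) = 1)
    {σ : K →+* K} {f : W.toAffine.Point →+ W.toAffine.Point} (hf : InertiaLike v W σ f)
    (h1 : σ W.a₁ = W.a₁) (h2 : σ W.a₂ = W.a₂) {P : W.toAffine.Point} (hP : p • P = 0) :
    f (f P - P) = f P - P := by
  have hW : IntegralCoeffs v W := NodeData.integralCoeffs hN
  have hE : InE0 v W (f P - P) := inE0_map_sub hN hf h1 h2 P
  have hker := sub_inKer_of_inE0 hN hf hE
  have hp0 : p • (f (f P - P) - (f P - P)) = 0 := by
    have hQ : p • (f P - P) = 0 := by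
      rw [smul_sub, ← map_nsmul, hP, map_zero, sub_zero]
    rw [smul_sub, ← map_nsmul, hQ, map_zero, sub_zero]
  exact sub_eq_zero.mp (eq_zero_of_inKer_of_nsmul_eq_zero hW hker hvp hp0)

end Node

section LinearAlgebra

variable {F : Type*} [Field F] {V : Type*} [AddCommGroup V] [Module F V] [Module.Finite F V]

/-- A linear endomorphism `u` with `u² = 0` of a space of dimension `≤ 2` stabilising a proper
nonzero subspace `N` kills `N` and maps everything into `N`. -/
theorem nilpotent_line (hV : Module.finrank F V ≤ 2) (N : Submodule F V) (hbot : N ≠ ⊥)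
    (htop : N ≠ ⊤) (u : V →ₗ[F] V) (hu : ∀ x, u (u x) = 0) (hN : ∀ x ∈ N, u x ∈ N) :
    (∀ x ∈ N, u x = 0) ∧ ∀ x, u x ∈ N := by
  have hN1 : 0 < Module.finrank F N := by
    rw [Module.finrank_pos_iff]
    exact (Submodule.nontrivial_iff_ne_bot).mpr hbot
  have hN2 : Module.finrank F N < Module.finrank F V := Submodule.finrank_lt htop
  have hNone : Module.finrank F N = 1 := by omega
  constructor
  · intro x hx
    by_contra hne
    -- `span {u x} = N`
    have hle : Submodule.span F {u x} ≤ N := by
      rw [Submodule.span_singleton_le_iff_mem]; exact hN x hx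
    have hfr : Module.finrank F (Submodule.span F {u x}) = 1 := finrank_span_singleton hne
    have heq : Submodule.span F {u x} = N :=
      Submodule.eq_of_le_of_finrank_eq hle (by rw [hfr, hNone])
    have hx' : x ∈ Submodule.span F {u x} := heq ▸ hx
    obtain ⟨a, ha⟩ := Submodule.mem_span_singleton.mp hx'
    apply hne
    rw [← ha, map_smul, hu, smul_zero]
  · intro x
    by_contra hne
    -- `N ⊔ span {u x} = ⊤`
    have hlt : N < N ⊔ Submodule.span F {u x} := by
      refine lt_of_le_of_ne le_sup_left (fun h => hne ?_)
      have : Submodule.span F {u x} ≤ N := by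
        rw [h]; exact le_sup_right
      exact (Submodule.span_singleton_le_iff_mem _ _).mp this
    have hfr : Module.finrank F N < Module.finrank F ↥(N ⊔ Submodule.span F {u x}) :=
      Submodule.finrank_lt_finrank_of_lt hlt
    have hle2 := Submodule.finrank_le (N ⊔ Submodule.span F {u x})
    have heq : N ⊔ Submodule.span F {u x} = ⊤ :=
      Submodule.eq_top_of_finrank_eq (by omega)
    have hx' : x ∈ N ⊔ Submodule.span F {u x} := heq ▸ Submodule.mem_top
    obtain ⟨n, hn, z, hz, hxz⟩ := Submodule.mem_sup.mp hx'
    obtain ⟨a, ha⟩ := Submodule.mem_span_singleton.mp hz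
    apply hne
    have hun : u n = 0 := by
      -- first part
      by_contra hne'
      have hle : Submodule.span F {u n} ≤ N := by
        rw [Submodule.span_singleton_le_iff_mem]; exact hN n hn
      have hfr' : Module.finrank F (Submodule.span F {u n}) = 1 := finrank_span_singleton hne'
      have heq' : Submodule.span F {u n} = N :=
        Submodule.eq_of_le_of_finrank_eq hle (by rw [hfr', hNone])
      have hn' : n ∈ Submodule.span F {u n} := heq' ▸ hn
      obtain ⟨b, hb⟩ := Submodule.mem_span_singleton.mp hn'
      apply hne'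
      rw [← hb, map_smul, hu, smul_zero]
    rw [← hxz, ← ha, map_add, map_smul, hu, smul_zero, add_zero, hun]
    exact N.zero_mem

end LinearAlgebra

section ZModp

variable {p : ℕ} [Fact p.Prime] {V : Type*} [AddCommGroup V] [Module (ZMod p) V]
  [Module.Finite (ZMod p) V]

/-- A unipotent additive endomorphism `g` (`(g - 1)² = 0`) of an `𝔽_p`-space of dimension `≤ 2`
stabilising a line `N` acts trivially on `N` and on `V / N`. -/
theorem unipotent_line (hV : Module.finrank (ZMod p) V ≤ 2) (N : Submodule (ZMod p) V)
    (hbot : N ≠ ⊥) (htop : N ≠ ⊤) (g : V →+ V) (hg : ∀ x, g (g x - x) = g x - x)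
    (hN : ∀ x ∈ N, g x ∈ N) :
    (∀ x ∈ N, g x = x) ∧ ∀ x, g x - x ∈ N := by
  let u : V →ₗ[ZMod p] V := (g - AddMonoidHom.id V).toZModLinearMap p
  have hux : ∀ x, u x = g x - x := fun x => rfl
  have hu : ∀ x, u (u x) = 0 := by
    intro x
    rw [hux, hux, hg, sub_self]
  have hN' : ∀ x ∈ N, u x ∈ N := fun x hx => by
    rw [hux]; exact N.sub_mem (hN x hx) hx
  obtain ⟨h1, h2⟩ := nilpotent_line hV N hbot htop u hu hN'
  refine ⟨fun x hx => ?_, fun x => ?_⟩
  · have := h1 x hx
    rw [hux] at this
    exact sub_eq_zero.mp this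
  · have := h2 x
    rwa [hux] at this

end ZModp

end Fermat.Agent.S13.L2Unip
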