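import Fermat.Agent.S13.Assembly
import Fermat.Agent.S13.L2Unip
import Fermat.Agent.S05.Frey

/-!
# S13: the local block at `2`, part (b), at the level of the Prelude definitions

Given `NodeData` for the Frey curve at a valuation subring `A` of `ℚ̄` over `2` (Frey arithmetic at
`2`: separate file), every element of the inertia group of `A` acts trivially on a Galois-stable
line `N` of `E[p]` and on `E[p] / N`.
-/

set_option autoImplicit false

namespace Fermat.Agent.S13

open WeierstrassCurve WeierstrassCurve.Affine WeierstrassCurve.Affine.Point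
open scoped WeierstrassCurve.Affine
open Fermat.Agent.S05

/-- A prime `p ≠ q` is a unit at a valuation subring over `q`. -/
theorem valuation_natCast_eq_one_of_ne (A : ValuationSubring Qb) {q : ℕ} (hq : q.Prime)
    (hA : A.LiesOverPrime q) {p : ℕ} (hp : p.Prime) (hpq : p ≠ q) :
    A.valuation ((p : ℕ) : Qb) = 1 := by
  have h : ¬ (q : ℤ) ∣ ((p : ℕ) : ℤ) := by
    intro h
    have h1 : q ∣ p := by exact_mod_cast h
    exact hpq ((Nat.prime_dvd_prime_iff_eq hq hp).mp h1).symm
  have := val_intCast_eq_one A hq hA h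
  simpa using this

/-- Unipotence of inertia on `E[p]` at a prime `q ≠ p` of nodal reduction (Prelude level). -/
theorem smul_smul_sub_eq (W : Affine ℚ) (A : ValuationSubring Qb) {σ : GQ}
    (hσ : σ ∈ A.inertiaSubgroupIn ℚ) {α β : Qb}
    (hNode : NodeData A.valuation (W.map (algebraMap ℚ Qb)) α β) {p : ℕ}
    (hvp : A.valuation ((p : ℕ) : Qb) = 1) (x : Submodule.torsionBy ℤ (W⁄Qb).Point p) :
    σ • (σ • x - x) = σ • x - x := by
  have hx : p • (x : (W⁄Qb).Point) = 0 := by
    have := (Submodule.mem_torsionBy_iff _ _).mp x.2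
    rwa [natCast_zsmul] at this
  have hf := inertiaLike_galois W A hσ
  have h1 : (σ : Qb →+* Qb) (W.map (algebraMap ℚ Qb)).a₁ = (W.map (algebraMap ℚ Qb)).a₁ := by
    simp
  have h2 : (σ : Qb →+* Qb) (W.map (algebraMap ℚ Qb)).a₂ = (W.map (algebraMap ℚ Qb)).a₂ := by
    simp
  have key := L2Unip.map_sub_eq_of_node hNode hvp hf h1 h2 hx
  apply Subtype.ext
  exact key

/-- **Local block at `2`, part (b)**, in hypothesis form on `NodeData` at `A`. -/
theorem l2Out_b_of_nodeData (P : FreyPackage) [Finite (Vp P)]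
    (hfr : Module.finrank (ZMod P.p) (Vp P) ≤ 2)
    (N : Submodule (ZMod P.p) (Vp P)) (hNst : IsGaloisStable ℚ N) (hbot : N ≠ ⊥) (htop : N ≠ ⊤)
    (A : ValuationSubring Qb) (hA : A.LiesOverPrime 2) {α β : Qb}
    (hNode : NodeData A.valuation (P.freyCurve.map (algebraMap ℚ Qb)) α β)
    {σ : GQ} (hσ : σ ∈ A.inertiaSubgroupIn ℚ) :
    (∀ x ∈ N, σ • x = x) ∧ ∀ x : Vp P, σ • x - x ∈ N := by
  have : Fact P.p.Prime := ⟨P.pp⟩
  have : Module.Finite (ZMod P.p) (Vp P) := Module.Finite.of_finite
  have hp2 : P.p ≠ 2 := by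
    have := P.hp5; omega
  have hvp := valuation_natCast_eq_one_of_ne A Nat.prime_two hA P.pp hp2
  exact L2Unip.unipotent_line hfr N hbot htop (DistribSMul.toAddMonoidHom (Vp P) σ)
    (fun x => smul_smul_sub_eq P.freyCurve A hσ hNode hvp x) (fun x hx => hNst σ x hx)

end Fermat.Agent.S13
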