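import Fermat.Agent.S13.NodeComp
import Fermat.Agent.S05.Mult

/-!
# S13: the abstract local block at a prime of multiplicative reduction with `p ∤ v(Δ)`

General S05 setting (`NodeData v W α β` over an algebraically closed valued field `K`), `p` an odd
prime which is a `v`-unit, `V` the `p`-torsion, `I` a family of "inertia-like" automorphisms.
If the value group of the fixed field of `I` is generated by `v π`, `v a₄ = (v π) ^ m` with
`p ∤ 2 m`, and `|V ∩ E₀| ≤ p`, then every `I`-stable subgroup `N ≤ V` of order `p` equals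
`V ∩ E₀`, and `I` acts trivially on `N` and on `V / N`.
-/

set_option autoImplicit false

namespace Fermat.Agent.S13.LocalTwoAbs

open WeierstrassCurve WeierstrassCurve.Affine Fermat.Agent.S05 Fermat.Agent.S13.NodeComp

set_option linter.unusedSectionVars false

variable {K : Type*} [Field K] [DecidableEq K] [IsAlgClosed K]
variable {Γ₀ : Type*} [LinearOrderedCommGroupWithZero Γ₀]
variable {v : Valuation K Γ₀} {W : WeierstrassCurve K} {α β : K}

/-- `n ↦ g ^ n` is injective on `ℤ` for `0 < g < 1`. -/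
theorem zpow_injective_of_lt_one {g : Γ₀} (h0 : g ≠ 0) (h1 : g < 1) :
    Function.Injective (fun n : ℤ => g ^ n) := by
  have hpos : 0 < g := zero_lt_iff.mpr h0
  have hanti : StrictAnti (fun n : ℤ => g ^ n) := zpow_right_strictAnti₀ hpos h1
  exact hanti.injective

/-- In a subgroup of prime order `p` every element is a natural multiple of a given nonzero
element. -/
theorem exists_nsmul_eq_of_card_prime {A : Type*} [AddCommGroup A] {p : ℕ} (hp : p.Prime)
    (N : AddSubgroup A) (hcard : Nat.card N = p) {P : A} (hP : P ∈ N) (hP0 : P ≠ 0)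
    {Q : A} (hQ : Q ∈ N) : ∃ k : ℕ, Q = k • P := by
  have : Fact p.Prime := ⟨hp⟩
  have htop : AddSubgroup.zmultiples (⟨P, hP⟩ : N) = ⊤ :=
    zmultiples_eq_top_of_prime_card hcard (fun h => hP0 (congrArg Subtype.val h))
  have hmem : (⟨Q, hQ⟩ : N) ∈ AddSubgroup.zmultiples (⟨P, hP⟩ : N) := by rw [htop]; trivial
  obtain ⟨j, hj⟩ := AddSubgroup.mem_zmultiples_iff.mp hmem
  have hj' : j • P = Q := by
    have := congrArg Subtype.val hj
    simpa using this
  have hpP : (p : ℤ) • P = 0 := by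
    have h1 : Nat.card N • (⟨P, hP⟩ : N) = 0 := card_nsmul_eq_zero'
    rw [hcard] at h1
    have := congrArg Subtype.val h1
    rw [natCast_zsmul]
    simpa using this
  refine ⟨(j % p).toNat, ?_⟩
  have hnn : 0 ≤ j % (p : ℤ) := Int.emod_nonneg _ (by exact_mod_cast hp.ne_zero)
  rw [← hj', ← natCast_zsmul, Int.toNat_of_nonneg hnn]
  conv_lhs => rw [← Int.emod_add_mul_ediv j p]
  rw [add_zsmul, mul_comm, mul_zsmul, hpP, smul_zero, add_zero]

/-- **Abstract local block.** -/
theorem local_block (hN : NodeData v W α β) {p : ℕ} (hp : p.Prime) (hp2 : p ≠ 2)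
    (hvp : v (p : K) = 1)
    (I : Set ((K →+* K) × (W.toAffine.Point →+ W.toAffine.Point)))
    (hI : ∀ σf ∈ I, InertiaLike v W σf.1 σf.2 ∧ σf.1 W.a₁ = W.a₁ ∧ σf.1 W.a₂ = W.a₂)
    (π : K) (hπ0 : v π ≠ 0) (hπ1 : v π < 1)
    (hV2 : ∀ x : K, x ≠ 0 → (∀ σf ∈ I, σf.1 x = x) → ∃ n : ℤ, v x = v π ^ n)
    (m : ℤ) (hm : v W.a₄ = v π ^ m) (hpm : ¬ (p : ℤ) ∣ 2 * m)
    (V : AddSubgroup W.toAffine.Point) (hV : ∀ P, P ∈ V ↔ p • P = 0)
    (hredfin : Finite ↥(V ⊓ E0sub hN)) (hred : Nat.card ↥(V ⊓ E0sub hN) ≤ p)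
    (N : AddSubgroup W.toAffine.Point) (hNV : N ≤ V) (hNcard : Nat.card N = p)
    (hNst : ∀ σf ∈ I, ∀ P ∈ N, σf.2 P ∈ N) :
    N = V ⊓ E0sub hN ∧
      ∀ σf ∈ I, (∀ P ∈ N, σf.2 P = P) ∧ ∀ P ∈ V, σf.2 P - P ∈ N := by
  have hodd : Odd p := hp.odd_of_ne_two hp2
  have hs := NodeData.s_pos hN
  have hW : IntegralCoeffs v W := NodeData.integralCoeffs hN
  -- the automorphisms in `I` fix `α` and `β`
  have hfix : ∀ σf ∈ I, σf.1 α = α ∧ σf.1 β = β := by
    intro σf hσf
    obtain ⟨hf, h1, h2⟩ := hI σf hσf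
    exact ⟨fp_sigma_alpha hN hf h1 h2, fp_sigma_alpha (fp_swap hN) hf h1 h2⟩
  have hcompinv : ∀ σf ∈ I, ∀ P, comp hN (σf.2 P) = comp hN P := by
    intro σf hσf P
    obtain ⟨hf, -, -⟩ := hI σf hσf
    obtain ⟨hα, hβ⟩ := hfix σf hσf
    exact comp_map_of_fix hN hf.val_eq hf.map_some hα hβ P
  -- Step A: `N ≤ E₀`
  have hNE0 : N ≤ E0sub hN := by
    intro P hPN
    rw [mem_E0sub_iff]
    by_contra hE
    have hpP : p • P = 0 := (hV P).mp (hNV hPN)
    have hP0 : P ≠ 0 := by
      rintro rfl; exact hE (Or.inl rfl)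
    -- `P` is fixed by every `f`
    have hfixP : ∀ σf ∈ I, σf.2 P = P := by
      intro σf hσf
      obtain ⟨k, hk⟩ := exists_nsmul_eq_of_card_prime hp N hNcard hPN hP0 (hNst σf hσf P hPN)
      have h1 : comp hN (k • P) = comp hN P := by rw [← hk]; exact hcompinv σf hσf P
      have h2 := natCast_eq_one_of_comp_nsmul_eq hN hp hpP hE k h1
      -- `k ≡ 1 mod p`
      have h3 : (p : ℤ) ∣ (k : ℤ) - 1 := by
        rw [← ZMod.intCast_zmod_eq_zero_iff_dvd]
        push_cast
        rw [h2, sub_self]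
      obtain ⟨j, hj⟩ := h3
      have h4 : (k : ℤ) • P = P := by
        have : (k : ℤ) = 1 + p * j := by linarith
        rw [this, add_zsmul, one_zsmul, mul_comm, mul_zsmul, natCast_zsmul, hpP, smul_zero,
          add_zero]
      rw [hk, ← natCast_zsmul, h4]
    obtain ⟨x, y, h, k, rfl, hlo, hhi, hpow⟩ := exists_level_of_nsmul_eq_zero hN hodd hpP hE
    have hx0 : x ≠ 0 := by
      intro h0; rw [h0, map_zero] at hlo; exact not_lt_zero hlo
    have hσx : ∀ σf ∈ I, σf.1 x = x := by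
      intro σf hσf
      obtain ⟨hf, -, -⟩ := hI σf hσf
      obtain ⟨h', hfP⟩ := hf.map_some x y h
      have := hfixP σf hσf
      rw [hfP, Point.some.injEq] at this
      exact this.1
    obtain ⟨n, hn⟩ := hV2 x hx0 hσx
    -- `p n = 2 k m`
    have hinj := zpow_injective_of_lt_one hπ0 hπ1
    have heq : (v π) ^ ((p : ℤ) * n) = (v π) ^ (2 * (k : ℤ) * m) := by
      have h1 : (v π) ^ ((p : ℤ) * n) = v x ^ p := by
        rw [hn, mul_comm, zpow_mul, zpow_natCast]
      have h2 : (v π) ^ (2 * (k : ℤ) * m) = v W.a₄ ^ (2 * k) := by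
        rw [hm, mul_comm (2 * (k : ℤ)) m, zpow_mul]
        have : (2 * (k : ℤ)) = ((2 * k : ℕ) : ℤ) := by push_cast; ring
        rw [this, zpow_natCast]
      rw [h1, h2, hpow]
    have hpn : (p : ℤ) * n = 2 * (k : ℤ) * m := hinj heq
    have hpk : (p : ℤ) ∣ (k : ℤ) := by
      have hdvd : (p : ℤ) ∣ (k : ℤ) * (2 * m) := ⟨n, by linarith⟩
      have hpprime : Prime (p : ℤ) := Nat.prime_iff_prime_int.mp hp
      rcases hpprime.dvd_or_dvd hdvd with h' | h'
      · exact h'
      · exact absurd h' hpm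
    obtain ⟨k', hk'⟩ := hpk
    have hn' : n = 2 * k' * m := by
      have hp0 : (p : ℤ) ≠ 0 := by exact_mod_cast hp.ne_zero
      have : (p : ℤ) * n = p * (2 * k' * m) := by rw [hpn, hk']; ring
      exact mul_left_cancel₀ hp0 this
    -- `v x` is a power of `s²`
    have hcls : cls hN (v x) = 1 := by
      rw [cls_eq_one_iff hN ((hs.trans hlo).ne')]
      refine ⟨k', ?_⟩
      rw [hn, hn', hm, ← zpow_natCast (v π ^ m) 2, ← zpow_mul, ← zpow_mul]
      congr 1
      push_cast
      ring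
    have hs2 : v W.a₄ ^ 2 < v W.a₄ := by
      rw [pow_two]; exact mul_lt_of_lt_one_right hs hN.a₄_lt
    exact cls_ne_one_of_mem_Ioo hN (hs2.trans hlo) hhi hcls
  -- Step B: `N = V ⊓ E₀`
  have hle : N ≤ V ⊓ E0sub hN := le_inf hNV hNE0
  have hNfin : Finite N := Nat.finite_of_card_ne_zero (by rw [hNcard]; exact hp.ne_zero)
  have hNeq : N = V ⊓ E0sub hN := by
    apply le_antisymm hle
    intro P hP
    by_contra hPN
    -- compare cardinalities through the inclusion
    have hlt : Nat.card N < Nat.card ↥(V ⊓ E0sub hN) := by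
      let ι : N → ↥(V ⊓ E0sub hN) := fun Q => ⟨Q.1, hle Q.2⟩
      have hι : Function.Injective ι := fun Q Q' h => Subtype.ext (congrArg (fun z => z.1) h)
      have hns : ¬ Function.Surjective ι := by
        intro hsurj
        obtain ⟨Q, hQ⟩ := hsurj ⟨P, hP⟩
        apply hPN
        have : Q.1 = P := congrArg (fun z => z.1) hQ
        rw [← this]; exact Q.2
      classical
      let _ : Fintype N := Fintype.ofFinite N
      let _ : Fintype ↥(V ⊓ E0sub hN) := Fintype.ofFinite _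
      rw [Nat.card_eq_fintype_card, Nat.card_eq_fintype_card]
      exact Fintype.card_lt_of_injective_not_surjective ι hι hns
    rw [hNcard] at hlt
    exact absurd hred (not_le.mpr hlt)
  refine ⟨hNeq, fun σf hσf => ?_⟩
  obtain ⟨hf, -, -⟩ := hI σf hσf
  have htors : ∀ P ∈ V, σf.2 P ∈ V := by
    intro P hP
    rw [hV] at hP ⊢
    rw [← map_nsmul, hP, map_zero]
  constructor
  · -- trivial action on `N ⊆ E₀`
    intro P hPN
    have hE : InE0 v W P := (mem_E0sub_iff hN P).mp (hNE0 hPN)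
    have hker := sub_inKer_of_inE0 hN hf hE
    have hPV := hNV hPN
    have hp0 : p • (σf.2 P - P) = 0 := by
      rw [smul_sub, (hV _).mp (htors P hPV), (hV P).mp hPV, sub_zero]
    have := eq_zero_of_inKer_of_nsmul_eq_zero hW hker hvp hp0
    exact sub_eq_zero.mp this
  · -- trivial action on `V / N`
    intro P hPV
    rw [hNeq]
    refine ⟨V.sub_mem (htors P hPV) hPV, ?_⟩
    show σf.2 P - P ∈ (comp hN).ker
    rw [AddMonoidHom.mem_ker, map_sub, hcompinv σf hσf P, sub_self]

end Fermat.Agent.S13.LocalTwoAbs
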