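import Fermat.Agent.S13.NodeComp
import Fermat.Agent.S13.LocalTwoAbs
import Fermat.Agent.S05.Sep
import Fermat.Agent.S05.Integral

/-!
# S13: no "rational" `p`-torsion at a multiplicative prime over `2` with `p ∤ v(Δ)`

General S05 setting (`NodeData v W α β` over an algebraically closed valued field `K`), residue
characteristic `2`, `a₁ ≡ 1`, `p ≥ 5` a prime which is a `v`-unit, `v a₄ = (v π) ^ m` with
`p ∤ 2 m`. A predicate `Rat` on `K` ("rational elements") such that nonzero rational elements have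
valuation in `(v π) ^ ℤ` and integral rational elements are `≡ 0` or `≡ 1` modulo the maximal
ideal. Then a subgroup `S` of the `p`-torsion all of whose affine points have rational coordinates
is trivial.
-/

set_option autoImplicit false

namespace Fermat.Agent.S13.RatTorsion

open WeierstrassCurve WeierstrassCurve.Affine Fermat.Agent.S05 Fermat.Agent.S13.NodeComp
  Fermat.Agent.S13.LocalTwoAbs

set_option linter.unusedSectionVars false

variable {K : Type*} [Field K] [DecidableEq K] [IsAlgClosed K]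
variable {Γ₀ : Type*} [LinearOrderedCommGroupWithZero Γ₀]
variable {v : Valuation K Γ₀} {W : WeierstrassCurve K} {α β : K}

/-- A torsion level `g` with `s < g < 1`, `g ^ p = s ^ (2k)` cannot lie in `(v π) ^ ℤ` when
`s = (v π) ^ m` with `p ∤ 2 m`. -/
theorem false_of_level_zpow (hN : NodeData v W α β) {p : ℕ} (hp : p.Prime)
    {π : K} (hπ0 : v π ≠ 0) (hπ1 : v π < 1) {m : ℤ} (hm : v W.a₄ = v π ^ m)
    (hpm : ¬ (p : ℤ) ∣ 2 * m) {g : Γ₀} {k : ℕ} {n : ℤ} (hlo : v W.a₄ < g) (hhi : g < 1)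
    (hpow : g ^ p = v W.a₄ ^ (2 * k)) (hn : g = v π ^ n) : False := by
  have hs := NodeData.s_pos hN
  have hinj := zpow_injective_of_lt_one hπ0 hπ1
  have heq : (v π) ^ ((p : ℤ) * n) = (v π) ^ (2 * (k : ℤ) * m) := by
    have h1 : (v π) ^ ((p : ℤ) * n) = g ^ p := by
      rw [hn, mul_comm, zpow_mul, zpow_natCast]
    have h2 : (v π) ^ (2 * (k : ℤ) * m) = v W.a₄ ^ (2 * k) := by
      rw [hm, mul_comm (2 * (k : ℤ)) m, zpow_mul]
      have : (2 * (k : ℤ)) = ((2 * k : ℕ) : ℤ) := by push_cast; ring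
      rw [this, zpow_natCast]
    rw [h1, h2, hpow]
  have hpn : (p : ℤ) * n = 2 * (k : ℤ) * m := hinj heq
  have hpk : (p : ℤ) ∣ (k : ℤ) := by
    have hdvd : (p : ℤ) ∣ (k : ℤ) * (2 * m) := ⟨n, by linarith⟩
    have hpprime : Prime (p : ℤ) := Nat.prime_iff_prime_int.mp hp
    rcases hpprime.dvd_or_dvd hdvd with h' | h'
    · exact h'
    · exact absurd h' hpm
  obtain ⟨k', hk'⟩ := hpk
  have hn' : n = 2 * k' * m := by
    have hp0 : (p : ℤ) ≠ 0 := by exact_mod_cast hp.ne_zero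
    have : (p : ℤ) * n = p * (2 * k' * m) := by rw [hpn, hk']; ring
    exact mul_left_cancel₀ hp0 this
  have hcls : cls hN g = 1 := by
    rw [cls_eq_one_iff hN ((hs.trans hlo).ne')]
    refine ⟨k', ?_⟩
    rw [hn, hn', hm, ← zpow_natCast (v π ^ m) 2, ← zpow_mul, ← zpow_mul]
    congr 1
    push_cast
    ring
  have hs2 : v W.a₄ ^ 2 < v W.a₄ := by
    rw [pow_two]; exact mul_lt_of_lt_one_right hs hN.a₄_lt
  exact cls_ne_one_of_mem_Ioo hN (hs2.trans hlo) hhi hcls

/-- Shape of a nonzero "rational" `p`-torsion point: it is an affine point `(x, y)` with `x ≡ 1`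
and `y ≡ 0` or `y ≡ 1` modulo the maximal ideal. -/
theorem shape_of_rational (hN : NodeData v W α β) {p : ℕ} (hp : p.Prime) (hp2 : p ≠ 2)
    (hvp : v (p : K) = 1)
    {π : K} (hπ0 : v π ≠ 0) (hπ1 : v π < 1) {m : ℤ} (hm : v W.a₄ = v π ^ m)
    (hpm : ¬ (p : ℤ) ∣ 2 * m)
    (Rat : K → Prop)
    (hRatVal : ∀ x, Rat x → x ≠ 0 → ∃ n : ℤ, v x = v π ^ n)
    (hRatRes : ∀ x, Rat x → v x ≤ 1 → v x < 1 ∨ v (x - 1) < 1)
    {Q : W.toAffine.Point} (hQ0 : Q ≠ 0) (hpQ : p • Q = 0)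
    (hQRat : ∀ x y h, Q = Point.some x y h → Rat x ∧ Rat y) :
    ∃ (x y : K) (h : W.toAffine.Nonsingular x y), Q = Point.some x y h ∧ v x = 1 ∧
      v (x - 1) < 1 ∧ v y ≤ 1 ∧ (v y < 1 ∨ v (y - 1) < 1) := by
  have hodd : Odd p := hp.odd_of_ne_two hp2
  have hW : IntegralCoeffs v W := NodeData.integralCoeffs hN
  -- (i) `Q ∈ E₀`
  have hE : InE0 v W Q := by
    by_contra hE
    obtain ⟨x, y, h, k, rfl, hlo, hhi, hpow⟩ := exists_level_of_nsmul_eq_zero hN hodd hpQ hE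
    have hx0 : x ≠ 0 := by
      intro h0; rw [h0, map_zero] at hlo; exact not_lt_zero hlo
    obtain ⟨n, hn⟩ := hRatVal x (hQRat x y h rfl).1 hx0
    exact false_of_level_zpow hN hp hπ0 hπ1 hm hpm hlo hhi hpow hn
  rcases hE with h0 | ⟨x, y, h, rfl, hx⟩
  · exact absurd h0 hQ0
  -- (ii) `Q ∉ E₁`
  have hx1 : v x = 1 := by
    refine le_antisymm ?_ hx
    by_contra hlt
    push Not at hlt
    have hker : InKer v W (Point.some x y h) := Or.inr ⟨x, y, h, rfl, hlt⟩
    exact hQ0 (eq_zero_of_inKer_of_nsmul_eq_zero hW hker hvp hpQ)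
  obtain ⟨hRx, hRy⟩ := hQRat x y h rfl
  have hy : v y ≤ 1 := y_integral hW h.1 hx1.le
  refine ⟨x, y, h, rfl, hx1, ?_, hy, hRatRes y hRy hy⟩
  rcases hRatRes x hRx hx1.le with h1 | h1
  · rw [hx1] at h1; exact absurd h1 (lt_irrefl _)
  · exact h1

/-- **Lemma R (abstract form).** -/
theorem eq_bot_of_rational (hN : NodeData v W α β) {p : ℕ} (hp : p.Prime) (hp2 : p ≠ 2)
    (hp3 : p ≠ 3) (hvp : v (p : K) = 1) (hv2 : v (2 : K) < 1) (ha₁ : v (W.a₁ - 1) < 1)
    (π : K) (hπ0 : v π ≠ 0) (hπ1 : v π < 1) (m : ℤ) (hm : v W.a₄ = v π ^ m)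
    (hpm : ¬ (p : ℤ) ∣ 2 * m)
    (Rat : K → Prop)
    (hRatVal : ∀ x, Rat x → x ≠ 0 → ∃ n : ℤ, v x = v π ^ n)
    (hRatRes : ∀ x, Rat x → v x ≤ 1 → v x < 1 ∨ v (x - 1) < 1)
    (S : AddSubgroup W.toAffine.Point) (hS : ∀ P ∈ S, p • P = 0)
    (hSRat : ∀ x y h, Point.some x y h ∈ S → Rat x ∧ Rat y) : S = ⊥ := by
  have hW : IntegralCoeffs v W := NodeData.integralCoeffs hN
  rw [AddSubgroup.eq_bot_iff_forall]
  intro P hPS
  by_contra hP0
  have hpP : p • P = 0 := hS P hPS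
  -- `2 • P` is a nonzero element of `S`
  have h2S : 2 • P ∈ S := S.nsmul_mem hPS 2
  have hcop2 : Nat.Coprime 2 p := by
    rw [Nat.coprime_comm]; exact (Nat.coprime_primes hp Nat.prime_two).mpr hp2
  have hcop3 : Nat.Coprime 3 p := by
    rw [Nat.coprime_comm]; exact (Nat.coprime_primes hp Nat.prime_three).mpr hp3
  -- coprime multiples of `P` vanish only if `P` does
  have hcop : ∀ k : ℕ, Nat.Coprime k p → k • P = 0 → P = 0 := by
    intro k hk hkP
    have h1 : addOrderOf P ∣ k := addOrderOf_dvd_of_nsmul_eq_zero hkP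
    have h2 : addOrderOf P ∣ p := addOrderOf_dvd_of_nsmul_eq_zero hpP
    have h3 : addOrderOf P ∣ Nat.gcd k p := Nat.dvd_gcd h1 h2
    rw [hk] at h3
    exact AddMonoid.addOrderOf_eq_one_iff.mp (Nat.dvd_one.mp h3)
  have h2P0 : 2 • P ≠ 0 := fun h => hP0 (hcop 2 hcop2 h)
  have hshape := fun (Q : W.toAffine.Point) (hQS : Q ∈ S) (hQ0 : Q ≠ 0) =>
    shape_of_rational hN hp hp2 hvp hπ0 hπ1 hm hpm Rat hRatVal hRatRes hQ0 (hS Q hQS)
      (fun x y h hQ => hSRat x y h (hQ ▸ hQS))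
  obtain ⟨x, y, h, hPeq, hx1, hxr, hy, hyr⟩ := hshape P hPS hP0
  obtain ⟨x', y', h', hP2eq, hx1', hxr', hy', hyr'⟩ := hshape (2 • P) h2S h2P0
  have hxx : v (x' - x) < 1 := by
    have : x' - x = (x' - 1) - (x - 1) := by ring
    rw [this]; exact Valuation.map_sub_lt v hxr' hxr
  -- case A: `y' ≡ y`
  have caseA : v (y' - y) < 1 → False := by
    intro hyy
    have hker := sub_inKer_of_congr hW h h' hx1.le hy hxx hyy (partial_unit_of_unit_x hN h.1 hx1)
    rw [← hP2eq, ← hPeq] at hker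
    have h3 : 2 • P - P = P := by rw [two_nsmul]; abel
    rw [h3] at hker
    exact hP0 (eq_zero_of_inKer_of_nsmul_eq_zero hW hker hvp hpP)
  -- case B: `y' ≡ -y - a₁ x`
  have caseB : v (y' - W.toAffine.negY x y) < 1 → False := by
    intro hyy
    have hneg : W.toAffine.Nonsingular x (W.toAffine.negY x y) := (nonsingular_neg ..).mpr h
    have hyn : v (W.toAffine.negY x y) ≤ 1 := y_integral hW hneg.1 hx1.le
    have hker := sub_inKer_of_congr hW hneg h' hx1.le hyn hxx hyy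
      (partial_unit_of_unit_x hN hneg.1 hx1)
    rw [← Point.neg_some h, ← hP2eq, ← hPeq] at hker
    have h3 : 2 • P - -P = 3 • P := by
      rw [sub_neg_eq_add, two_nsmul, succ_nsmul, two_nsmul]
    rw [h3] at hker
    have hp3P : p • (3 • P) = 0 := by rw [smul_comm, hpP, smul_zero]
    have := eq_zero_of_inKer_of_nsmul_eq_zero hW hker hvp hp3P
    exact hP0 (hcop 3 hcop3 this)
  -- `y' + y + a₁ x ≡ y' + y + 1`
  have hnegY : y' - W.toAffine.negY x y = y' + y + W.a₁ * x := by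
    rw [negY, hN.a₃]; ring
  have haux : v ((W.a₁ - 1) * x + (x - 1)) < 1 :=
    Valuation.map_add_lt v ((by rw [map_mul]; exact mul_lt_one_of_lt_of_le ha₁ hx1.le)) hxr
  rcases hyr with hy0 | hy1 <;> rcases hyr' with hy0' | hy1'
  · exact caseA (Valuation.map_sub_lt v hy0' hy0)
  · apply caseB
    rw [hnegY]
    have : y' + y + W.a₁ * x = (y' - 1) + y + ((W.a₁ - 1) * x + (x - 1)) + 2 := by ring
    rw [this]
    exact Valuation.map_add_lt v (Valuation.map_add_lt v (Valuation.map_add_lt v hy1' hy0) haux)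
      hv2
  · apply caseB
    rw [hnegY]
    have : y' + y + W.a₁ * x = y' + (y - 1) + ((W.a₁ - 1) * x + (x - 1)) + 2 := by ring
    rw [this]
    exact Valuation.map_add_lt v (Valuation.map_add_lt v (Valuation.map_add_lt v hy0' hy1) haux)
      hv2
  · apply caseA
    have : y' - y = (y' - 1) - (y - 1) := by ring
    rw [this]; exact Valuation.map_sub_lt v hy1' hy1

end Fermat.Agent.S13.RatTorsion
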