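import Mathlib
import Fermat.Prelude.Def_FLTPrelim_Ramification
import Fermat.Agent.S05.Val
import Fermat.Agent.S14.TransCore

/-!
# S13: valuations of rational numbers in a valuation subring of `ℚ̄` over a prime

For `Ω/ℚ` a field extension and `A` a valuation subring of `Ω` over a prime `ℓ`:
* `valuation_intCast_eq_pow`: a nonzero integer has valuation `(v ℓ) ^ e`;
* `valuation_algebraMap_rat_eq_zpow`: a nonzero rational number has valuation `(v ℓ) ^ n`, `n : ℤ`;
* `valuation_algebraMap_rat_lt_or_sub_one_lt`: over `ℓ = 2`, a `2`-integral rational number is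
  congruent to `0` or `1` modulo the maximal ideal;
* `exists_rat_of_forall_galois_fixed`: for `Ω/ℚ` Galois, an element fixed by the whole Galois
  group is rational.
-/

set_option autoImplicit false
set_option linter.unusedSectionVars false

namespace Fermat.Agent.S13.RatVal

open Fermat.Agent.S05

section Val

variable {Ω : Type*} [Field Ω] [Algebra ℚ Ω] (A : ValuationSubring Ω) {ℓ : ℕ} (hℓ : ℓ.Prime)
  (hA : A.LiesOverPrime ℓ)
include hℓ hA

/-- A nonzero integer has the valuation of a power of `ℓ`. -/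
theorem valuation_intCast_eq_pow {n : ℤ} (hn : n ≠ 0) :
    ∃ e : ℕ, A.valuation (n : Ω) = A.valuation (ℓ : Ω) ^ e := by
  have hfin : FiniteMultiplicity (ℓ : ℤ) n :=
    Int.finiteMultiplicity_iff.mpr ⟨by simpa using hℓ.ne_one, hn⟩
  obtain ⟨c, hc, hnd⟩ := hfin.exists_eq_pow_mul_and_not_dvd
  refine ⟨multiplicity (ℓ : ℤ) n, ?_⟩
  conv_lhs => rw [hc]
  push_cast
  rw [map_mul, map_pow, val_intCast_eq_one A hℓ hA hnd, mul_one]

/-- A nonzero rational number has the valuation of an integral power of `ℓ`. -/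
theorem valuation_algebraMap_rat_eq_zpow {q : ℚ} (hq : q ≠ 0) :
    ∃ n : ℤ, A.valuation (algebraMap ℚ Ω q) = A.valuation (ℓ : Ω) ^ n := by
  obtain ⟨e₁, h₁⟩ := valuation_intCast_eq_pow A hℓ hA (Rat.num_ne_zero.mpr hq)
  obtain ⟨e₂, h₂⟩ := valuation_intCast_eq_pow A hℓ hA
    (n := (q.den : ℤ)) (by exact_mod_cast q.den_ne_zero)
  refine ⟨(e₁ : ℤ) - e₂, ?_⟩
  have hq' : q = (q.num : ℚ) / ((q.den : ℤ) : ℚ) := by
    push_cast
    exact (Rat.num_div_den q).symm
  have : CharZero Ω := algebraRat.charZero Ω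
  have hℓ0 : A.valuation (ℓ : Ω) ≠ 0 :=
    (Valuation.ne_zero_iff _).mpr (Nat.cast_ne_zero.mpr hℓ.ne_zero)
  conv_lhs => rw [hq']
  rw [map_div₀, map_intCast, map_intCast, map_div₀, h₁, h₂, zpow_sub₀ hℓ0, zpow_natCast,
    zpow_natCast]

end Val

section Two

variable {Ω : Type*} [Field Ω] [Algebra ℚ Ω] (A : ValuationSubring Ω) (hA : A.LiesOverPrime 2)
include hA

/-- A `2`-integral rational number is congruent to `0` or to `1` modulo the maximal ideal. -/
theorem valuation_algebraMap_rat_lt_or_sub_one_lt {q : ℚ}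
    (hq : A.valuation (algebraMap ℚ Ω q) ≤ 1) :
    A.valuation (algebraMap ℚ Ω q) < 1 ∨ A.valuation (algebraMap ℚ Ω q - 1) < 1 := by
  have h2 := Nat.prime_two
  have hq' : q = (q.num : ℚ) / ((q.den : ℤ) : ℚ) := by
    push_cast
    exact (Rat.num_div_den q).symm
  have hval : A.valuation (algebraMap ℚ Ω q)
      = A.valuation ((q.num : ℤ) : Ω) / A.valuation ((q.den : ℤ) : Ω) := by
    conv_lhs => rw [hq']
    rw [map_div₀, map_intCast, map_intCast, map_div₀]
  -- the denominator is odd
  have hden : ¬ ((2 : ℕ) : ℤ) ∣ (q.den : ℤ) := by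
    intro hd
    have hnum : ¬ ((2 : ℕ) : ℤ) ∣ q.num := by
      intro hn
      have hcop := q.reduced
      have h1 : (2 : ℕ) ∣ q.num.natAbs := by
        have := Int.natAbs_dvd_natAbs.mpr hn
        simpa using this
      have h2' : (2 : ℕ) ∣ q.den := by exact_mod_cast hd
      have := Nat.dvd_gcd h1 h2'
      rw [hcop] at this
      omega
    have hv1 : A.valuation ((q.num : ℤ) : Ω) = 1 := val_intCast_eq_one A h2 hA hnum
    have hv2 : A.valuation ((q.den : ℤ) : Ω) < 1 := val_intCast_lt_one A hA hd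
    rw [hval, hv1] at hq
    have hden0 : A.valuation ((q.den : ℤ) : Ω) ≠ 0 := by
      intro h0
      rw [h0, div_zero] at hq
      -- `1 / 0 = 0 ≤ 1` is no contradiction; use injectivity instead
      have : ((q.den : ℤ) : Ω) = 0 := (Valuation.zero_iff _).mp h0
      have h3 : algebraMap ℚ Ω ((q.den : ℤ) : ℚ) = 0 := by rw [map_intCast]; exact this
      rw [map_eq_zero] at h3
      exact q.den_ne_zero (by exact_mod_cast h3)
    rw [div_le_iff₀ (zero_lt_iff.mpr hden0), one_mul] at hq
    exact absurd hv2 (not_lt.mpr hq)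
  have hvden : A.valuation ((q.den : ℤ) : Ω) = 1 := val_intCast_eq_one A h2 hA hden
  by_cases hnum : ((2 : ℕ) : ℤ) ∣ q.num
  · left
    rw [hval, hvden, div_one]
    exact val_intCast_lt_one A hA hnum
  · right
    have hsub : algebraMap ℚ Ω q - 1
        = ((q.num - (q.den : ℤ) : ℤ) : Ω) / ((q.den : ℤ) : Ω) := by
      have hden0 : ((q.den : ℤ) : Ω) ≠ 0 := by
        intro h0
        rw [h0, map_zero] at hvden
        exact zero_ne_one hvden
      conv_lhs => rw [hq']
      rw [map_div₀, map_intCast, map_intCast, Int.cast_sub, div_sub_one hden0]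
    rw [hsub, map_div₀, hvden, div_one]
    apply val_intCast_lt_one A hA
    -- difference of two odd numbers
    have h1 : q.num % 2 = 1 := by
      have : ¬ (2 : ℤ) ∣ q.num := by simpa using hnum
      omega
    have h2' : (q.den : ℤ) % 2 = 1 := by
      have : ¬ (2 : ℤ) ∣ (q.den : ℤ) := by simpa using hden
      omega
    have : (2 : ℤ) ∣ q.num - (q.den : ℤ) := by omega
    simpa using this

end Two

section Fixed

variable {Ω : Type*} [Field Ω] [CharZero Ω] [Algebra ℚ Ω] [IsGalois ℚ Ω]

/-- An element fixed by the whole Galois group is rational. -/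
theorem exists_rat_of_forall_galois_fixed {x : Ω} (hx : ∀ σ : Ω ≃ₐ[ℚ] Ω, σ x = x) :
    ∃ q : ℚ, algebraMap ℚ Ω q = x :=
  Fermat.Agent.S14.mem_of_forall_smul_eq ℚ hx

end Fixed

end Fermat.Agent.S13.RatVal
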