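import Fermat.Agent.S13.Assembly
import Fermat.Agent.S13.L2GlueB
import Fermat.Agent.S13.RatTorsion
import Fermat.Agent.S13.RatVal
import Fermat.Agent.S13.FreyTwo
import Fermat.Agent.S54.Frobenius

/-!
# S13: the local block at `2` (`L2Out`) for the Frey curve

`l2Out P : DOut P → L2Out P`.
* part (b) (inertia at `2` acts trivially on a Galois-stable line `N` and on `E[p]/N`):
  `l2Out_b_of_nodeData` (unipotence) with the Frey `NodeData` at `2` (`FreyTwo`);
* part (a) (`N` is not pointwise fixed by `G_ℚ`): a pointwise fixed `N` consists of rational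
  points, and `RatTorsion.eq_bot_of_rational` shows that the Frey curve has no rational
  `p`-torsion.
-/

set_option autoImplicit false

namespace Fermat.Agent.S13

open WeierstrassCurve WeierstrassCurve.Affine WeierstrassCurve.Affine.Point
open scoped WeierstrassCurve.Affine
open Fermat.Agent.S05

/-- The dimension of `E[p]` is at most `2`. -/
theorem finrank_Vp_le_two (P : FreyPackage) [Finite (Vp P)] (hcard : Nat.card (Vp P) ≤ P.p ^ 2) :
    Module.finrank (ZMod P.p) (Vp P) ≤ 2 := by
  have : Fact P.p.Prime := ⟨P.pp⟩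
  have : Module.Finite (ZMod P.p) (Vp P) := Module.Finite.of_finite
  have h1 : Nat.card (Vp P) = P.p ^ Module.finrank (ZMod P.p) (Vp P) := by
    rw [Module.natCard_eq_pow_finrank (K := ZMod P.p), Nat.card_zmod]
  rw [h1] at hcard
  exact (Nat.pow_le_pow_iff_right P.pp.one_lt).mp hcard

/-- **Part (a)**: a nonzero Galois-stable submodule of `E[p]` is not pointwise fixed by `G_ℚ`:
the Frey curve has no rational point of order `p`. -/
theorem exists_smul_ne (P : FreyPackage) (N : Submodule (ZMod P.p) (Vp P)) (hbot : N ≠ ⊥) :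
    ∃ σ : GQ, ∃ x ∈ N, σ • x ≠ x := by
  by_contra hcon
  push Not at hcon
  apply hbot
  have hGal : IsGalois ℚ Qb := Fermat.Agent.S54.FrobExists.isGalois_rat_algebraicClosure
  obtain ⟨A, hA⟩ := Fermat.Agent.S54.exists_valuationSubring_liesOver 2 Nat.prime_two
  obtain ⟨α, β, hNode⟩ := FreyTwo.frey_nodeData_two P A hA
  obtain ⟨m, -, hm, hpm⟩ := FreyTwo.frey_val_a₄_two P A hA
  have hp5 := P.hp5
  -- the subgroup of points underlying `N`
  let S : AddSubgroup (P.freyCurve⁄Qb).Point :=
    N.toAddSubgroup.map (Submodule.torsionBy ℤ (P.freyCurve⁄Qb).Point P.p).subtype.toAddMonoidHom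
  have hS : ∀ Q ∈ S, P.p • Q = 0 := by
    rintro Q ⟨x, -, rfl⟩
    have := (Submodule.mem_torsionBy_iff _ _).mp x.2
    rwa [natCast_zsmul] at this
  have hSRat : ∀ (a b : Qb) (h : (P.freyCurve⁄Qb).Nonsingular a b), Point.some a b h ∈ S →
      (∃ q : ℚ, algebraMap ℚ Qb q = a) ∧ ∃ q : ℚ, algebraMap ℚ Qb q = b := by
    rintro a b h ⟨x, hxN, hx⟩
    have hfix : ∀ σ : GQ, σ a = a ∧ σ b = b := by
      intro σ
      have h1 : σ • x = x := hcon σ x hxN
      have h2 : σ • (x : (P.freyCurve⁄Qb).Point) = x := congrArg Subtype.val h1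
      have hx' : (x : (P.freyCurve⁄Qb).Point) = Point.some a b h := hx
      rw [hx', algEquiv_smul_def, Point.map_some] at h2
      simp only [Point.some.injEq] at h2
      exact h2
    exact ⟨RatVal.exists_rat_of_forall_galois_fixed (fun σ => (hfix σ).1),
      RatVal.exists_rat_of_forall_galois_fixed (fun σ => (hfix σ).2)⟩
  have hSbot : S = ⊥ := by
    refine RatTorsion.eq_bot_of_rational (v := A.valuation) (W := P.freyCurve⁄Qb) hNode P.pp
      (by omega) (by omega) (FreyTwo.frey_val_p_two P A hA) (FreyTwo.val_two_lt_one A hA) ?_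
      (2 : Qb) (FreyTwo.val_two_ne_zero A hA) (FreyTwo.val_two_lt_one A hA) m hm hpm
      (fun x => ∃ q : ℚ, algebraMap ℚ Qb q = x) ?_ ?_ S hS hSRat
    · have : (P.freyCurve⁄Qb).a₁ = 1 := by
        show algebraMap ℚ Qb P.freyCurve.a₁ = 1
        simp
      rw [this, sub_self, _root_.map_zero]
      exact zero_lt_one
    · rintro x ⟨q, rfl⟩ hx
      have hq : q ≠ 0 := by
        rintro rfl
        exact hx (_root_.map_zero _)
      obtain ⟨n, hn⟩ := RatVal.valuation_algebraMap_rat_eq_zpow A Nat.prime_two hA hq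
      refine ⟨n, ?_⟩
      rw [hn]
      simp
    · rintro x ⟨q, rfl⟩ hx
      exact RatVal.valuation_algebraMap_rat_lt_or_sub_one_lt A hA hx
  rw [eq_bot_iff]
  intro x hx
  rw [Submodule.mem_bot]
  have h1 : (x : (P.freyCurve⁄Qb).Point) ∈ S := ⟨x, hx, rfl⟩
  rw [hSbot, AddSubgroup.mem_bot] at h1
  exact Subtype.ext h1

/-- **The local block at `2`.** -/
theorem l2Out (P : FreyPackage) (hD : DOut P) : L2Out P := by
  obtain ⟨-, hfin, hcard⟩ := hD
  intro N hNst hbot htop
  refine ⟨exists_smul_ne P N hbot, fun A hA σ hσ => ?_⟩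
  obtain ⟨α, β, hNode⟩ := FreyTwo.frey_nodeData_two P A hA
  exact l2Out_b_of_nodeData P (finrank_Vp_le_two P hcard) N hNst hbot htop A hA hNode hσ

end Fermat.Agent.S13
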