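import Fermat.Agent.S13.LpGlueGen
import Fermat.Agent.S05.FreyMain

/-!
# S13, block (Lp): the Frey curve at an odd prime `q` (in particular `q = p`):
inertia moves `n`-torsion points by the kernel of reduction.
-/

set_option autoImplicit false

namespace Fermat.Agent.S13.LpGlue

open WeierstrassCurve WeierstrassCurve.Affine Fermat.Agent.S05 Fermat.Agent.S13.NodeComp
open scoped WeierstrassCurve.Affine

local notation "Qbar" => AlgebraicClosure ℚ

section Frey

variable (P : FreyPackage) {q : ℕ} (hq : q.Prime) (hq2 : q ≠ 2)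
  (A : ValuationSubring Qbar) (hA : A.LiesOverPrime q)
include hq hq2 hA

/-- The Frey model is integral at every odd prime. -/
theorem frey_integralCoeffs : IntegralCoeffs A.valuation (P.freyCurve⁄Qbar) := by
  have h4 := not_dvd_four hq hq2
  have h16 := not_dvd_sixteen hq hq2
  exact
    { a₁ := by simp
      a₂ := by
        show A.valuation (algebraMap ℚ Qbar P.freyCurve.a₂) ≤ 1
        rw [frey_a₂_eq, val_algebraMap_div A hq hA _ _ h4]
        exact val_intCast_le_one A _
      a₃ := by simp
      a₄ := by
        show A.valuation (algebraMap ℚ Qbar P.freyCurve.a₄) ≤ 1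
        rw [frey_a₄_eq, val_algebraMap_div A hq hA _ _ h16]
        exact val_intCast_le_one A _
      a₆ := by simp }

/-- `aᵖ/4` is integral at every odd prime. -/
theorem frey_val_shift_le_one : A.valuation (algebraMap ℚ Qbar (freyA P / 4)) ≤ 1 := by
  have h4 := not_dvd_four hq hq2
  have : freyA P / 4 = ((P.a ^ P.p : ℤ) : ℚ) / ((4 : ℤ) : ℚ) := by
    unfold freyA; push_cast; ring
  rw [this, val_algebraMap_div A hq hA _ _ h4]
  exact val_intCast_le_one A _

variable {σ : Qbar ≃ₐ[ℚ] Qbar} (hσ : σ ∈ A.inertiaSubgroupIn ℚ)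
include hσ

/-- **Inertia at an odd prime `q` moves the `n`-torsion of the Frey curve by the kernel of
reduction**, provided that for the nodal models the `n`-torsion of `E₀` lies in the kernel of
reduction (automatic for `n = q`; for `n` prime to `q` the conclusion is weaker than S05). -/
theorem frey_sub_inKer {n : ℕ}
    (hE0p : ∀ (W' : Affine ℚ) (α β : Qbar), NodeData A.valuation (W'⁄Qbar) α β →
      ∀ R : (W'⁄Qbar).Point, InE0 A.valuation (W'⁄Qbar) R → n • R = 0 →
        InKer A.valuation (W'⁄Qbar) R)
    {T : (P.freyCurve⁄Qbar).Point} (hT : n • T = 0) :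
    InKer A.valuation (P.freyCurve⁄Qbar) (Point.map σ.toAlgHom T - T) := by
  have h4 := not_dvd_four hq hq2
  have h16 := not_dvd_sixteen hq hq2
  have hp0 := P.hp0
  have hqi : Prime (q : ℤ) := Nat.prime_iff_prime_int.mp hq
  by_cases hc : (q : ℤ) ∣ P.c
  · -- nodal reduction of the translated model
    have hna : ¬ (q : ℤ) ∣ P.a :=
      not_dvd_of_gcd_eq_one hq (by rw [gcd_comm]; exact P.hgcdac) hc
    obtain ⟨α, β, hN⟩ := exists_nodeData (freyShift P) A (freyShift_a₃ P) (freyShift_a₆ P)
      (by rw [freyShift_a₁]; simp)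
      (by
        rw [freyShift_a₂, val_algebraMap_div A hq hA _ _ h4]
        exact val_intCast_le_one A _)
      (by
        rw [freyShift_a₄, val_algebraMap_div A hq hA _ _ h16]
        apply val_intCast_lt_one A hA
        exact dvd_mul_of_dvd_right (dvd_pow hc hp0) _)
      (by
        rw [freyShift_a₄]
        have ha : (P.a : ℚ) ≠ 0 := by exact_mod_cast P.ha0
        have hc' : (P.c : ℚ) ≠ 0 := by exact_mod_cast P.hc0
        have : (P.a : ℚ) ^ P.p ≠ 0 := pow_ne_zero _ ha
        have : (P.c : ℚ) ^ P.p ≠ 0 := pow_ne_zero _ hc'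
        push_cast
        simp [*])
      (by
        rw [freyShift_disc_eq, val_algebraMap_int]
        apply val_intCast_eq_one A hq hA
        exact not_dvd_pow_add_pow hq hp0 hc hna)
    set e := shiftEquivBC (K := Qbar) P.freyCurve (freyA P / 4) (-(freyA P) / 8) with he
    have hT' : n • e T = 0 := by rw [← map_nsmul, hT, map_zero]
    have h1 := galois_sub_inKer_of_node (freyShift P) A hσ hN (hE0p (freyShift P) α β hN) hT'
    have h2 : Point.map σ.toAlgHom (e T) - e T = e (Point.map σ.toAlgHom T - T) := by
      rw [map_sub]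
      congr 1
      exact (shiftEquivBC_smul (K := Qbar) (S := ℚ) P.freyCurve (freyA P / 4) (-(freyA P) / 8)
        σ T).symm
    have h3 : InKer A.valuation ((shiftCurve P.freyCurve (freyA P / 4) (-(freyA P) / 8))⁄Qbar)
        (Point.map σ.toAlgHom (e T) - e T) := h1
    rw [h2] at h3
    exact (inKer_shiftEquivBC_iff P.freyCurve A (freyA P / 4) (-(freyA P) / 8)
      (frey_val_shift_le_one P hq hq2 A hA) _).mp h3
  · by_cases hab : (q : ℤ) ∣ P.a * P.b
    · -- nodal reduction of the Frey model itself
      obtain ⟨α, β, hN⟩ := exists_nodeData P.freyCurve A rfl rfl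
        (by simp)
        (by
          rw [frey_a₂_eq, val_algebraMap_div A hq hA _ _ h4]
          exact val_intCast_le_one A _)
        (by
          rw [frey_a₄_eq, val_algebraMap_div A hq hA _ _ h16]
          apply val_intCast_lt_one A hA
          rw [dvd_neg, ← mul_pow, dvd_pow_iff_int hq hp0]
          exact hab)
        (by
          rw [freyCurve_a₄]
          have ha : (P.a : ℚ) ≠ 0 := by exact_mod_cast P.ha0
          have hb : (P.b : ℚ) ≠ 0 := by exact_mod_cast P.hb0
          unfold freyA freyB
          have : (P.a : ℚ) ^ P.p ≠ 0 := pow_ne_zero _ ha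
          have : (P.b : ℚ) ^ P.p ≠ 0 := pow_ne_zero _ hb
          simp [*])
        (by
          rw [frey_disc_eq, val_algebraMap_int]
          apply val_intCast_eq_one A hq hA
          rcases hqi.dvd_or_dvd hab with ha | hb
          · exact not_dvd_pow_sub_pow hq hp0 ha (not_dvd_of_gcd_eq_one hq P.hgcdab ha)
          · have hna : ¬ (q : ℤ) ∣ P.a :=
              not_dvd_of_gcd_eq_one hq (by rw [gcd_comm]; exact P.hgcdab) hb
            intro h
            exact not_dvd_pow_sub_pow hq hp0 hb hna (by
              have : P.a ^ P.p - P.b ^ P.p = -(P.b ^ P.p - P.a ^ P.p) := by ring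
              rw [this, dvd_neg]; exact h))
      exact galois_sub_inKer_of_node P.freyCurve A hσ hN (hE0p P.freyCurve α β hN) hT
    · -- good reduction
      have habc : ¬ (q : ℤ) ∣ P.a * P.b * P.c := by
        intro h
        rcases hqi.dvd_or_dvd h with h | h
        · exact hab h
        · exact hc h
      have hW := frey_integralCoeffs P hq hq2 A hA
      have hΔ : A.valuation (P.freyCurve⁄Qbar).Δ = 1 := by
        show A.valuation (P.freyCurve.map (algebraMap ℚ Qbar)).Δ = 1
        rw [WeierstrassCurve.map_Δ]
        show A.valuation (algebraMap ℚ Qbar P.freyCurve.Δ) = 1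
        rw [frey_Δ_eq, val_algebraMap_div A hq hA _ _ (not_dvd_two_pow hq hq2 8)]
        apply val_intCast_eq_one A hq hA
        rw [dvd_pow_iff_int hq (by have := P.hp0; omega)]
        exact habc
      exact galois_sub_inKer_of_good P.freyCurve A hσ hW hΔ T

end Frey

end Fermat.Agent.S13.LpGlue
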