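import Mathlib
import Fermat.Agent.S05.Kernel

/-!
# S13, piece `Vieta`: valuation of the product of the roots, and the valuation count on `p`-torsion

* `val_leadingCoeff_mul_prod_roots`: if a polynomial `f` over a valued field has `natDegree f`
  distinct roots `s`, then `v (leadingCoeff f) * ∏ r ∈ s, v r = v (f.coeff 0)`.
* `val_coeff_preΨ_le_one`: the division polynomials of a curve with integral coefficients have
  integral coefficients.
* `le_prod_val_zOf_of_torsion`: (hypothesis form) if all `p ^ 2 - 1` nonzero `p`-torsion points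
  lie in the kernel of reduction and their `x`-coordinates are roots of `preΨ p`, then
  `v p ≤ ∏ v (z T)`.
-/

set_option autoImplicit false

namespace Fermat.Agent.S13

open Polynomial WeierstrassCurve WeierstrassCurve.Affine Fermat.Agent.S05 Fermat.Agent.S05.Kernel

section Roots

variable {L : Type*} [Field L] {Γ₀ : Type*} [LinearOrderedCommGroupWithZero Γ₀]
  (v : Valuation L Γ₀)

/-- A polynomial with `natDegree` distinct roots `s` is `C lc * ∏ (X - r)`. -/
theorem eq_C_leadingCoeff_mul_prod_of_card_eq {f : L[X]} (hf : f ≠ 0) (s : Finset L)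
    (hs : ∀ r ∈ s, f.IsRoot r) (hcard : s.card = f.natDegree) :
    f = C f.leadingCoeff * ∏ r ∈ s, (X - C r) := by
  classical
  have hsub : s.val ≤ f.roots := by
    rw [Multiset.le_iff_subset s.nodup]
    intro r hr
    exact (mem_roots hf).mpr (hs r hr)
  have hle : Multiset.card f.roots ≤ f.natDegree := card_roots' f
  have hcard' : Multiset.card s.val = s.card := rfl
  have heq : s.val = f.roots := by
    refine Multiset.eq_of_le_of_card_le hsub ?_
    rw [hcard', hcard]
    exact hle
  have h := C_leadingCoeff_mul_prod_multiset_X_sub_C (p := f) (by rw [← heq, hcard', hcard])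
  rw [← heq] at h
  exact h.symm

/-- Vieta for the constant coefficient, in terms of valuations. -/
theorem val_leadingCoeff_mul_prod_roots {f : L[X]} (hf : f ≠ 0) (s : Finset L)
    (hs : ∀ r ∈ s, f.IsRoot r) (hcard : s.card = f.natDegree) :
    v f.leadingCoeff * ∏ r ∈ s, v r = v (f.coeff 0) := by
  classical
  have h := eq_C_leadingCoeff_mul_prod_of_card_eq hf s hs hcard
  have h0 : f.coeff 0 = f.leadingCoeff * ∏ r ∈ s, (-r) := by
    conv_lhs => rw [h]
    rw [coeff_zero_eq_eval_zero, eval_mul, eval_C, eval_prod]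
    simp
  rw [h0, map_mul, map_prod]
  simp

end Roots

section Integral

variable {L : Type*} [Field L] {Γ₀ : Type*} [LinearOrderedCommGroupWithZero Γ₀]
  {v : Valuation L Γ₀} {W : WeierstrassCurve L}

/-- The model of an integral curve over the valuation ring. -/
def integerModel (hW : IntegralCoeffs v W) : WeierstrassCurve v.integer :=
  ⟨⟨W.a₁, hW.a₁⟩, ⟨W.a₂, hW.a₂⟩, ⟨W.a₃, hW.a₃⟩, ⟨W.a₄, hW.a₄⟩, ⟨W.a₆, hW.a₆⟩⟩

theorem integerModel_map (hW : IntegralCoeffs v W) :
    (integerModel hW).map v.integer.subtype = W := by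
  ext <;> rfl

/-- The univariate division polynomials of a curve with integral coefficients have integral
coefficients. -/
theorem val_coeff_preΨ_le_one (hW : IntegralCoeffs v W) (n : ℤ) (i : ℕ) :
    v ((W.preΨ n).coeff i) ≤ 1 := by
  have h : W.preΨ n = ((integerModel hW).preΨ n).map v.integer.subtype := by
    rw [← map_preΨ, integerModel_map]
  rw [h, coeff_map]
  exact (((integerModel hW).preΨ n).coeff i).2

theorem val_coeff_ΨSq_le_one (hW : IntegralCoeffs v W) (n : ℤ) (i : ℕ) :
    v ((W.ΨSq n).coeff i) ≤ 1 := by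
  have h : W.ΨSq n = ((integerModel hW).ΨSq n).map v.integer.subtype := by
    rw [← map_ΨSq, integerModel_map]
  rw [h, coeff_map]
  exact (((integerModel hW).ΨSq n).coeff i).2

theorem val_coeff_Φ_le_one (hW : IntegralCoeffs v W) (n : ℤ) (i : ℕ) :
    v ((W.Φ n).coeff i) ≤ 1 := by
  have h : W.Φ n = ((integerModel hW).Φ n).map v.integer.subtype := by
    rw [← map_Φ, integerModel_map]
  rw [h, coeff_map]
  exact (((integerModel hW).Φ n).coeff i).2

end Integral

section Torsion

variable {L : Type*} [Field L] [DecidableEq L] {Γ₀ : Type*} [LinearOrderedCommGroupWithZero Γ₀]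
  {v : Valuation L Γ₀} {W : WeierstrassCurve L}

/-- The `x`-coordinate of a point (`0` at the point at infinity). -/
def xOf (W : WeierstrassCurve L) : W.toAffine.Point → L
  | .zero => 0
  | .some x _ _ => x

omit [DecidableEq L] in
theorem xOf_some {x y : L} (h : W.toAffine.Nonsingular x y) : xOf W (Point.some x y h) = x := rfl

omit [DecidableEq L] in
/-- Two affine points with the same `x`-coordinate are equal or opposite. -/
theorem eq_or_eq_neg_of_xOf_eq {T T' : W.toAffine.Point} (hT : T ≠ 0) (hT' : T' ≠ 0)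
    (h : xOf W T' = xOf W T) : T' = T ∨ T' = -T := by
  rcases T with _ | ⟨x, y, hxy⟩
  · exact absurd rfl hT
  rcases T' with _ | ⟨x', y', hxy'⟩
  · exact absurd rfl hT'
  simp only [xOf] at h
  subst h
  rcases Y_eq_of_X_eq hxy'.1 hxy.1 rfl with hy | hy
  · left; subst hy; rfl
  · right
    rw [Point.neg_some]
    subst hy; rfl

/-- A nonzero point of odd order is not its own opposite. -/
theorem ne_neg_of_nsmul_eq_zero {T : W.toAffine.Point} {p : ℕ} (hodd : Odd p) (hT : T ≠ 0)
    (hp : p • T = 0) : T ≠ -T := by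
  intro h
  have h2 : 2 • T = 0 := by
    rw [two_nsmul]
    nth_rewrite 2 [h]
    exact add_neg_cancel T
  obtain ⟨k, rfl⟩ := hodd
  apply hT
  have : (2 * k + 1) • T = T := by
    rw [add_nsmul, mul_comm, mul_nsmul', h2, smul_zero, zero_add, one_nsmul]
  rw [← this, hp]

/-- **Valuation count on the `p`-torsion** (hypothesis form): suppose `S` is the set of all
`p ^ 2 - 1` nonzero `p`-torsion points of an integral Weierstrass curve, that their `x`-coordinates
are roots of the `p`-th division polynomial, and that they all lie in the kernel of reduction.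
Then `v p ≤ ∏ T ∈ S, v (z T)`, where `z = x / y`. -/
theorem le_prod_val_zOf_of_torsion (hW : IntegralCoeffs v W) {p : ℕ} (hp : p.Prime) (hp2 : p ≠ 2)
    (S : Finset W.toAffine.Point) (hS0 : (0 : W.toAffine.Point) ∉ S)
    (hSneg : ∀ T ∈ S, -T ∈ S) (hStors : ∀ T ∈ S, p • T = 0) (hcard : S.card = p ^ 2 - 1)
    (hD : ∀ (x y : L) (h : W.toAffine.Nonsingular x y), Point.some x y h ∈ S →
      (W.preΨ (p : ℤ)).eval x = 0)
    (hker : ∀ T ∈ S, InKer v W T) :
    v (p : L) ≤ ∏ T ∈ S, v (zOf W T) := by
  classical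
  by_cases hpL : (p : L) = 0
  · rw [hpL, map_zero]; exact zero_le
  have hodd : Odd p := hp.odd_of_ne_two hp2
  have hne0 : ∀ T ∈ S, T ≠ 0 := fun T hT h0 => hS0 (h0 ▸ hT)
  -- the fibres of `xOf` on `S` have exactly two elements
  set xs : Finset L := S.image (xOf W) with hxs
  have hfib : ∀ r ∈ xs, (S.filter (fun T => xOf W T = r)).card = 2 := by
    intro r hr
    obtain ⟨T, hTS, rfl⟩ := Finset.mem_image.mp hr
    have hTn : T ≠ -T := ne_neg_of_nsmul_eq_zero hodd (hne0 T hTS) (hStors T hTS)
    have : S.filter (fun T' => xOf W T' = xOf W T) = {T, -T} := by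
      ext T'
      simp only [Finset.mem_filter, Finset.mem_insert, Finset.mem_singleton]
      constructor
      · rintro ⟨hT'S, hx⟩
        exact eq_or_eq_neg_of_xOf_eq (hne0 T hTS) (hne0 T' hT'S) hx
      · rintro (rfl | rfl)
        · exact ⟨hTS, rfl⟩
        · refine ⟨hSneg T hTS, ?_⟩
          rcases T with _ | ⟨x, y, hxy⟩
          · rfl
          · rw [Point.neg_some]; rfl
    rw [this, Finset.card_pair hTn]
  have hcard2 : S.card = 2 * xs.card := by
    rw [Finset.card_eq_sum_card_fiberwise (f := xOf W) (t := xs)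
      (fun T hT => Finset.mem_image_of_mem _ hT), Finset.sum_congr rfl hfib]
    simp [mul_comm]
  -- the division polynomial
  have hpZ : ((p : ℤ) : L) ≠ 0 := by exact_mod_cast hpL
  have hnotEven : ¬ Even (p : ℤ) := by
    rw [Int.not_even_iff_odd]; exact_mod_cast hodd
  have hdeg : (W.preΨ (p : ℤ)).natDegree = (p ^ 2 - 1) / 2 := by
    rw [natDegree_preΨ W hpZ, if_neg hnotEven, Int.natAbs_natCast]
  have hlc : (W.preΨ (p : ℤ)).leadingCoeff = (p : L) := by
    rw [leadingCoeff_preΨ W hpZ, if_neg hnotEven]; simp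
  have hf0 : W.preΨ (p : ℤ) ≠ 0 := preΨ_ne_zero W hpZ
  have hxscard : xs.card = (W.preΨ (p : ℤ)).natDegree := by
    rw [hdeg, ← hcard, hcard2]; simp
  have hroots : ∀ r ∈ xs, (W.preΨ (p : ℤ)).IsRoot r := by
    intro r hr
    obtain ⟨T, hTS, rfl⟩ := Finset.mem_image.mp hr
    rcases T with _ | ⟨x, y, hxy⟩
    · exact absurd rfl (hne0 _ hTS)
    · exact hD x y hxy hTS
  have hV := val_leadingCoeff_mul_prod_roots v hf0 xs hroots hxscard
  rw [hlc] at hV
  have hle : v (p : L) * ∏ r ∈ xs, v r ≤ 1 := hV ▸ val_coeff_preΨ_le_one hW _ 0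
  -- valuations of `z`
  have hz : ∀ T ∈ S, v (zOf W T) ^ 2 = (v (xOf W T))⁻¹ := by
    intro T hTS
    rcases hker T hTS with h0 | ⟨x, y, hxy, rfl, hx⟩
    · exact absurd h0 (hne0 T hTS)
    · rw [zOf_some, xOf_some, map_div₀, div_pow, val_y_sq_eq hW hxy.1 hx]
      have hx0 : v x ≠ 0 := (zero_lt_one.trans hx).ne'
      field_simp
  have hxpos : ∀ T ∈ S, 1 < v (xOf W T) := by
    intro T hTS
    rcases hker T hTS with h0 | ⟨x, y, hxy, rfl, hx⟩
    · exact absurd h0 (hne0 T hTS)
    · exact hx
  have hprodsq : (∏ T ∈ S, v (zOf W T)) ^ 2 = ((∏ r ∈ xs, v r)⁻¹) ^ 2 := by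
    rw [← Finset.prod_pow, Finset.prod_congr rfl hz,
      ← Finset.prod_fiberwise_of_maps_to (g := xOf W) (t := xs)
        (fun T hT => Finset.mem_image_of_mem _ hT)]
    rw [← Finset.prod_inv_distrib, ← Finset.prod_pow]
    refine Finset.prod_congr rfl fun r hr => ?_
    rw [Finset.prod_congr rfl (g := fun _ => (v r)⁻¹)
      (fun T hT => by rw [(Finset.mem_filter.mp hT).2]), Finset.prod_const, hfib r hr]
  -- conclusion
  set P := ∏ T ∈ S, v (zOf W T) with hP
  set Q := ∏ r ∈ xs, v r with hQ
  have hQpos : 0 < Q := by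
    refine Finset.prod_pos fun r hr => ?_
    obtain ⟨T, hTS, rfl⟩ := Finset.mem_image.mp hr
    exact zero_lt_one.trans (hxpos T hTS)
  have hpQ : v (p : L) ≤ Q⁻¹ := by
    have h := hle
    rw [← mul_inv_cancel₀ hQpos.ne', mul_comm] at h
    exact le_of_mul_le_mul_left h hQpos
  by_contra hlt
  push Not at hlt
  have h1 : P ^ 2 < v (p : L) ^ 2 := pow_lt_pow_left₀ hlt zero_le two_ne_zero
  have h2 : v (p : L) ^ 2 ≤ (Q⁻¹) ^ 2 := pow_le_pow_left₀ zero_le hpQ 2
  rw [hprodsq] at h1
  exact absurd (h1.trans_le h2) (lt_irrefl _)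

end Torsion

end Fermat.Agent.S13
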