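import Mathlib
import Fermat.Agent.S13.Vieta

/-!
# S13, piece `Supersingular`: no inertia-stable line when all of `E[p]` reduces to the origin

Hypothesis form (abstract valued field `Ω`, abstract family of "inertia-like" automorphisms):
if all `p ^ 2` points of `E[p]` lie in the kernel of reduction, the `x`-coordinates of the nonzero
ones are roots of the `p`-th division polynomial, and every nonzero element of `Ω` fixed by the
family has valuation an integral power of `v p`, then no proper nontrivial subset `N ∋ 0` of `E[p]`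
is stable under the family.
-/

set_option autoImplicit false

namespace Fermat.Agent.S13

open Polynomial WeierstrassCurve WeierstrassCurve.Affine Fermat.Agent.S05 Fermat.Agent.S05.Kernel

variable {Ω : Type*} [Field Ω] [DecidableEq Ω] {Γ₀ : Type*} [LinearOrderedCommGroupWithZero Γ₀]
  {v : Valuation Ω Γ₀} {W : WeierstrassCurve Ω}

omit [DecidableEq Ω] in
/-- In the kernel of reduction of an integral curve, the parameter `z = x / y` of a nonzero point
is nonzero and has valuation `< 1`. -/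
theorem zOf_ne_zero_and_val_lt_one (hW : IntegralCoeffs v W) {T : W.toAffine.Point} (hT : T ≠ 0)
    (hker : InKer v W T) : zOf W T ≠ 0 ∧ v (zOf W T) < 1 := by
  rcases hker with h0 | ⟨x, y, hxy, rfl, hx⟩
  · exact absurd h0 hT
  · have hx0 : x ≠ 0 := fun h => by rw [h, map_zero] at hx; exact not_lt.mpr zero_le hx
    have hy0 : y ≠ 0 := y_ne_zero hW hxy.1 hx
    refine ⟨by rw [zOf_some]; exact div_ne_zero hx0 hy0, ?_⟩
    have hsq : v (zOf W (Point.some x y hxy)) ^ 2 = (v x)⁻¹ := by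
      rw [zOf_some, map_div₀, div_pow, val_y_sq_eq hW hxy.1 hx]
      have hvx0 : v x ≠ 0 := (zero_lt_one.trans hx).ne'
      field_simp
    by_contra hge
    push Not at hge
    have h1 : (1 : Γ₀) ≤ v (zOf W (Point.some x y hxy)) ^ 2 := one_le_pow₀ hge
    rw [hsq] at h1
    have : v x ≤ 1 := by
      have hvx0 : 0 < v x := zero_lt_one.trans hx
      have := mul_le_mul_of_nonneg_left h1 hvx0.le
      rwa [mul_one, mul_inv_cancel₀ hvx0.ne'] at this
    exact not_lt.mpr this hx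

/-- **Supersingular case.** If all of `E[p]` lies in the kernel of reduction, there is no
stable line. -/
theorem false_of_stable_of_forall_inKer (hW : IntegralCoeffs v W) {p : ℕ} (hp : p.Prime)
    (hp2 : p ≠ 2) (hvp : v (p : Ω) < 1) (hp0 : (p : Ω) ≠ 0)
    (V : Finset W.toAffine.Point) (h0V : (0 : W.toAffine.Point) ∈ V)
    (hVneg : ∀ T ∈ V, -T ∈ V) (hVtors : ∀ T ∈ V, p • T = 0) (hVcard : V.card = p ^ 2)
    (hD : ∀ (x y : Ω) (h : W.toAffine.Nonsingular x y), Point.some x y h ∈ V →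
      (W.preΨ (p : ℤ)).eval x = 0)
    (hker : ∀ T ∈ V, InKer v W T)
    (N : Finset W.toAffine.Point) (hNV : N ⊆ V) (h0N : (0 : W.toAffine.Point) ∈ N)
    (hN1 : 1 < N.card) (hN2 : N.card < p ^ 2)
    {ι : Type*} (σ : ι → Ω →+* Ω) (f : ι → W.toAffine.Point → W.toAffine.Point)
    (hf : ∀ (i : ι) (x y : Ω) (h : W.toAffine.Nonsingular x y),
      ∃ h' : W.toAffine.Nonsingular (σ i x) (σ i y), f i (Point.some x y h) = Point.some (σ i x) (σ i y) h')
    (hNstab : ∀ i, ∀ T ∈ N, f i T ∈ N)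
    (hV2 : ∀ x : Ω, x ≠ 0 → (∀ i, σ i x = x) → ∃ n : ℤ, v x = v (p : Ω) ^ n) :
    False := by
  classical
  have hvp0 : 0 < v (p : Ω) := zero_lt_iff.mpr ((Valuation.ne_zero_iff v).mpr hp0)
  -- (alpha)
  have hα : v (p : Ω) ≤ ∏ T ∈ V.erase 0, v (zOf W T) := by
    refine le_prod_val_zOf_of_torsion hW hp hp2 (V.erase 0) (Finset.notMem_erase 0 V) ?_ ?_ ?_ ?_ ?_
    · intro T hT
      rw [Finset.mem_erase] at hT ⊢
      exact ⟨fun h => hT.1 (neg_eq_zero.mp h), hVneg T hT.2⟩
    · exact fun T hT => hVtors T (Finset.mem_of_mem_erase hT)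
    · rw [Finset.card_erase_of_mem h0V, hVcard]
    · exact fun x y h hT => hD x y h (Finset.mem_of_mem_erase hT)
    · exact fun T hT => hker T (Finset.mem_of_mem_erase hT)
  -- the two parts of the product
  have hsplit : V.erase 0 = (N.erase 0) ∪ (V \ N) := by
    ext T
    simp only [Finset.mem_erase, Finset.mem_union, Finset.mem_sdiff]
    constructor
    · rintro ⟨h0, hTV⟩
      by_cases hTN : T ∈ N
      · exact Or.inl ⟨h0, hTN⟩
      · exact Or.inr ⟨hTV, hTN⟩
    · rintro (⟨h0, hTN⟩ | ⟨hTV, hTN⟩)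
      · exact ⟨h0, hNV hTN⟩
      · exact ⟨fun h => hTN (h ▸ h0N), hTV⟩
  have hdisj : Disjoint (N.erase 0) (V \ N) := by
    rw [Finset.disjoint_left]
    intro T hT hT'
    exact (Finset.mem_sdiff.mp hT').2 (Finset.mem_of_mem_erase hT)
  rw [hsplit, Finset.prod_union hdisj] at hα
  have hlt1 : ∀ T ∈ V, T ≠ 0 → v (zOf W T) < 1 := fun T hT h0 =>
    (zOf_ne_zero_and_val_lt_one hW h0 (hker T hT)).2
  have hne0 : ∀ T ∈ V, T ≠ 0 → zOf W T ≠ 0 := fun T hT h0 =>
    (zOf_ne_zero_and_val_lt_one hW h0 (hker T hT)).1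
  -- the product over `V \ N` is `< 1`
  have hB : ∏ T ∈ V \ N, v (zOf W T) < 1 := by
    have hne : (V \ N).Nonempty := by
      rw [Finset.nonempty_iff_ne_empty]
      intro h
      have hsub : V ⊆ N := Finset.sdiff_eq_empty_iff_subset.mp h
      have := Finset.card_le_card hsub
      omega
    obtain ⟨T₀, hT₀⟩ := hne
    have hT₀' := Finset.mem_sdiff.mp hT₀
    have hT₀0 : T₀ ≠ 0 := fun h => hT₀'.2 (h ▸ h0N)
    rw [← Finset.mul_prod_erase _ _ hT₀]
    have h1 : ∏ T ∈ (V \ N).erase T₀, v (zOf W T) ≤ 1 := by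
      refine Finset.prod_le_one' fun T hT => ?_
      have hT' := Finset.mem_sdiff.mp (Finset.mem_of_mem_erase hT)
      exact (hlt1 T hT'.1 (fun h => hT'.2 (h ▸ h0N))).le
    calc v (zOf W T₀) * ∏ T ∈ (V \ N).erase T₀, v (zOf W T)
        ≤ v (zOf W T₀) * 1 := mul_le_mul_right h1 _
      _ < 1 := by rw [mul_one]; exact hlt1 T₀ hT₀'.1 hT₀0
  -- the product over `N \ 0` is an integral power of `v p`
  set Z : Ω := ∏ T ∈ N.erase 0, zOf W T with hZ
  have hZ0 : Z ≠ 0 := by
    rw [hZ, Finset.prod_ne_zero_iff]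
    intro T hT
    rw [Finset.mem_erase] at hT
    exact hne0 T (hNV hT.2) hT.1
  have hfi0 : ∀ i, ∀ T : W.toAffine.Point, T ≠ 0 → f i T ≠ 0 := by
    intro i T hT
    rcases T with _ | ⟨x, y, hxy⟩
    · exact absurd rfl hT
    · obtain ⟨h', he⟩ := hf i x y hxy
      rw [he]; exact Point.some_ne_zero h'
  have hfinj : ∀ i, Set.InjOn (f i) {T | T ≠ 0} := by
    intro i T hT T' hT' he
    rcases T with _ | ⟨x, y, hxy⟩
    · exact absurd rfl hT
    rcases T' with _ | ⟨x', y', hxy'⟩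
    · exact absurd rfl hT'
    obtain ⟨h1, e1⟩ := hf i x y hxy
    obtain ⟨h2, e2⟩ := hf i x' y' hxy'
    rw [e1, e2] at he
    have hx : σ i x = σ i x' := by injection he
    have hy : σ i y = σ i y' := by injection he
    have hx' := (σ i).injective hx
    have hy' := (σ i).injective hy
    subst hx' hy'
    rfl
  have hzf : ∀ i, ∀ T : W.toAffine.Point, T ≠ 0 → zOf W (f i T) = σ i (zOf W T) := by
    intro i T hT
    rcases T with _ | ⟨x, y, hxy⟩
    · exact absurd rfl hT
    · obtain ⟨h', he⟩ := hf i x y hxy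
      rw [he, zOf_some, zOf_some, map_div₀]
  have hZfix : ∀ i, σ i Z = Z := by
    intro i
    rw [hZ, map_prod]
    have hmaps : ∀ T ∈ N.erase 0, f i T ∈ N.erase 0 := by
      intro T hT
      rw [Finset.mem_erase] at hT ⊢
      exact ⟨hfi0 i T hT.1, hNstab i T hT.2⟩
    have hinj : Set.InjOn (f i) (N.erase 0 : Finset W.toAffine.Point) := by
      intro T hT T' hT' he
      exact hfinj i (Finset.mem_erase.mp hT).1 (Finset.mem_erase.mp hT').1 he
    have himg : (N.erase 0).image (f i) = N.erase 0 :=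
      Finset.eq_of_subset_of_card_le
        (fun T hT => by
          obtain ⟨T', hT', rfl⟩ := Finset.mem_image.mp hT
          exact hmaps T' hT')
        (by rw [Finset.card_image_of_injOn hinj])
    calc ∏ T ∈ N.erase 0, σ i (zOf W T) = ∏ T ∈ N.erase 0, zOf W (f i T) :=
          Finset.prod_congr rfl fun T hT => (hzf i T (Finset.mem_erase.mp hT).1).symm
      _ = ∏ T ∈ (N.erase 0).image (f i), zOf W T := (Finset.prod_image hinj).symm
      _ = ∏ T ∈ N.erase 0, zOf W T := by rw [himg]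
  obtain ⟨n, hn⟩ := hV2 Z hZ0 hZfix
  have hvZ : v Z = ∏ T ∈ N.erase 0, v (zOf W T) := by rw [hZ, map_prod]
  have hA1 : v Z < 1 := by
    rw [hvZ]
    have hne : (N.erase 0).Nonempty := by
      rw [← Finset.card_pos, Finset.card_erase_of_mem h0N]; omega
    obtain ⟨T₀, hT₀⟩ := hne
    have hT₀' := Finset.mem_erase.mp hT₀
    rw [← Finset.mul_prod_erase _ _ hT₀]
    have h1 : ∏ T ∈ (N.erase 0).erase T₀, v (zOf W T) ≤ 1 := by
      refine Finset.prod_le_one' fun T hT => ?_
      have hT' := Finset.mem_erase.mp (Finset.mem_of_mem_erase hT)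
      exact (hlt1 T (hNV hT'.2) hT'.1).le
    calc v (zOf W T₀) * ∏ T ∈ (N.erase 0).erase T₀, v (zOf W T)
        ≤ v (zOf W T₀) * 1 := mul_le_mul_right h1 _
      _ < 1 := by rw [mul_one]; exact hlt1 T₀ (hNV hT₀'.2) hT₀'.1
  have hA : v Z ≤ v (p : Ω) := by
    rw [hn] at hA1 ⊢
    have hn1 : 1 ≤ n := by
      by_contra hlt
      push Not at hlt
      have hle : n ≤ 0 := by omega
      obtain ⟨m, rfl⟩ : ∃ m : ℕ, n = -(m : ℤ) := ⟨(-n).toNat, by omega⟩
      rw [zpow_neg, zpow_natCast] at hA1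
      have h1 : v (p : Ω) ^ m ≤ 1 := pow_le_one₀ zero_le hvp.le
      have hpos : 0 < v (p : Ω) ^ m := pow_pos hvp0 m
      have : (1 : Γ₀) ≤ (v (p : Ω) ^ m)⁻¹ := by
        rw [← mul_inv_cancel₀ hpos.ne']
        calc v (p : Ω) ^ m * (v (p : Ω) ^ m)⁻¹ ≤ 1 * (v (p : Ω) ^ m)⁻¹ :=
              mul_le_mul_left h1 _
          _ = (v (p : Ω) ^ m)⁻¹ := one_mul _
      exact not_lt.mpr this hA1
    obtain ⟨m, rfl⟩ : ∃ m : ℕ, n = (m : ℤ) + 1 := ⟨(n - 1).toNat, by omega⟩
    rw [zpow_add_one₀ hvp0.ne', zpow_natCast]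
    calc v (p : Ω) ^ m * v (p : Ω) ≤ 1 * v (p : Ω) :=
          mul_le_mul_left (pow_le_one₀ zero_le hvp.le) _
      _ = v (p : Ω) := one_mul _
  -- contradiction
  rw [← hvZ] at hα
  have hZpos : 0 < v Z := zero_lt_iff.mpr ((Valuation.ne_zero_iff v).mpr hZ0)
  have : v Z * ∏ T ∈ V \ N, v (zOf W T) < v (p : Ω) :=
    calc v Z * ∏ T ∈ V \ N, v (zOf W T) < v Z * 1 := by
          exact mul_lt_mul_of_pos_left hB hZpos
      _ = v Z := mul_one _
      _ ≤ v (p : Ω) := hA
  exact absurd hα (not_le.mpr this)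

end Fermat.Agent.S13
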