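import Fermat.Agent.S13.AssemblyCard
import Fermat.Agent.S13.LpGlueFrey
import Fermat.Agent.S13.Supersingular
import Fermat.Agent.S13.DaOut
import Fermat.Agent.S13.RatVal

/-!
# S13, block (Lp), part (LP-T): not all of `E[p]` lies in the kernel of reduction at `A ∣ p`
as soon as a Galois-stable line exists.

Instantiation of helper16's `false_of_stable_of_forall_inKer` with `ι := G_ℚ` (the line is stable
under the whole Galois group, so the relevant products are rational numbers: no inertia-field
theory needed).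
-/

set_option autoImplicit false

namespace Fermat.Agent.S13

open WeierstrassCurve WeierstrassCurve.Affine WeierstrassCurve.Affine.Point Fermat.Agent.S05
open scoped WeierstrassCurve.Affine

theorem not_forall_inKer (P : FreyPackage) (hD : DOut P) (hDa : DaOut P)
    (N : Submodule (ZMod P.p) (Vp P)) (hN : IsGaloisStable ℚ N) (hbot : N ≠ ⊥) (htop : N ≠ ⊤)
    (A : ValuationSubring Qb) (hA : A.LiesOverPrime P.p) :
    ¬ ∀ x : Vp P, InKer A.valuation (P.freyCurve⁄Qb) (x : (P.freyCurve⁄Qb).Point) := by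
  classical
  intro hker
  have hfin : Finite (Vp P) := hD.2.1
  let _ : Fintype (Vp P) := Fintype.ofFinite _
  have hp2 : P.p ≠ 2 := by have := P.hp5; omega
  have hW := LpGlue.frey_integralCoeffs P P.pp hp2 A hA
  have hvp : A.valuation ((P.p : ℕ) : Qb) < 1 := (A.mem_nonunits_iff).mp hA
  have hp0 : ((P.p : ℕ) : Qb) ≠ 0 := by exact_mod_cast P.hp0
  have hcardV := card_Vp_eq_sq P hD N hbot htop
  have hcardN := card_line_eq P hD N hbot htop
  have htors : ∀ x : Vp P, P.p • (x : (P.freyCurve⁄Qb).Point) = 0 := by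
    intro x
    have := (Submodule.mem_torsionBy_iff _ _).mp x.2
    rwa [natCast_zsmul] at this
  have hmemV : ∀ T : (P.freyCurve⁄Qb).Point, P.p • T = 0 →
      T ∈ Submodule.torsionBy ℤ (P.freyCurve⁄Qb).Point P.p := by
    intro T hT
    rw [Submodule.mem_torsionBy_iff, natCast_zsmul]
    exact hT
  -- the finite sets
  let V : Finset (P.freyCurve⁄Qb).Point := Finset.univ.image (fun x : Vp P => (x : _))
  let N' : Finset (P.freyCurve⁄Qb).Point :=
    (Finset.univ.filter (fun x : Vp P => x ∈ N)).image (fun x : Vp P => (x : _))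
  have hinj : Function.Injective (fun x : Vp P => (x : (P.freyCurve⁄Qb).Point)) :=
    Subtype.val_injective
  have hmemV' : ∀ T, T ∈ V ↔ P.p • T = 0 := by
    intro T
    constructor
    · intro h
      obtain ⟨x, -, rfl⟩ := Finset.mem_image.mp h
      exact htors x
    · intro h
      exact Finset.mem_image.mpr ⟨⟨T, hmemV T h⟩, Finset.mem_univ _, rfl⟩
  have hVcard : V.card = P.p ^ 2 := by
    rw [Finset.card_image_of_injective _ hinj, Finset.card_univ, ← Nat.card_eq_fintype_card,
      hcardV]
  have hN'card : N'.card = P.p := by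
    rw [Finset.card_image_of_injective _ hinj, ← Fintype.card_subtype,
      ← Nat.card_eq_fintype_card]
    exact hcardN
  refine false_of_stable_of_forall_inKer (v := A.valuation) (W := (P.freyCurve⁄Qb)) hW P.pp hp2
    hvp hp0 V ?_ ?_ ?_ hVcard ?_ ?_ N' ?_ ?_ ?_ ?_
    (ι := GQ) (fun i => (i : Qb →+* Qb)) (fun i T => Point.map i.toAlgHom T) ?_ ?_ ?_
  · exact (hmemV' 0).mpr (nsmul_zero _)
  · intro T hT
    rw [hmemV'] at hT ⊢
    rw [neg_nsmul, hT, _root_.neg_zero]
  · intro T hT
    exact (hmemV' T).mp hT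
  · intro x y h hT
    exact hDa x y h ((hmemV' _).mp hT)
  · intro T hT
    obtain ⟨x, -, rfl⟩ := Finset.mem_image.mp hT
    exact hker x
  · intro T hT
    obtain ⟨x, -, rfl⟩ := Finset.mem_image.mp hT
    exact Finset.mem_image.mpr ⟨x, Finset.mem_univ _, rfl⟩
  · exact Finset.mem_image.mpr ⟨0, by simp, rfl⟩
  · rw [hN'card]; exact P.pp.one_lt
  · rw [hN'card]
    calc P.p = P.p ^ 1 := (pow_one _).symm
      _ < P.p ^ 2 := Nat.pow_lt_pow_right P.pp.one_lt (by norm_num)
  · intro i x y h
    exact ⟨_, Point.map_some i.toAlgHom h⟩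
  · intro i T hT
    obtain ⟨x, hx, rfl⟩ := Finset.mem_image.mp hT
    have hxN : x ∈ N := (Finset.mem_filter.mp hx).2
    exact Finset.mem_image.mpr ⟨i • x, Finset.mem_filter.mpr ⟨Finset.mem_univ _, hN i x hxN⟩, rfl⟩
  · intro x hx hfix
    have : IsGalois ℚ Qb := Fermat.Agent.S54.FrobExists.isGalois_rat_algebraicClosure
    obtain ⟨q, rfl⟩ := RatVal.exists_rat_of_forall_galois_fixed (Ω := Qb) hfix
    have hq : q ≠ 0 := by
      rintro rfl
      exact hx (map_zero _)
    exact RatVal.valuation_algebraMap_rat_eq_zpow A P.pp hA hq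

end Fermat.Agent.S13
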