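import Fermat.Agent.S13.LpFinal
import Fermat.Agent.S13.LpTop

/-!
# S13, block (Lp): `lpOut : DOut P → DaOut P → LpOut P`
-/

set_option autoImplicit false

namespace Fermat.Agent.S13

/-- **Block (Lp).** The local analysis at `p`, from the outputs `DOut`, `DaOut` of block (D). -/
theorem lpOut (P : FreyPackage) (hD : DOut P) (hDa : DaOut P) : LpOut P :=
  lpOut_of_top P (fun N hN hb ht A hA => not_forall_inKer P hD hDa N hN hb ht A hA)

end Fermat.Agent.S13
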