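import Mathlib
import Fermat.Agent.S13.EDS
import Fermat.Agent.S13.MulByN

/-!
# S13, block (D), piece T2 (race copy): the addSubMap identities for `(Φ_n, ΨSq_n)`

From Somos-4 (`EDS.lean`) and the identity `(*)` (hypothesis `hstar`, shape of `EDSStar.lean`)
in the coordinate ring, pulled back to `R[X]` by injectivity of `p ↦ mk (C p)`.
-/

set_option linter.unusedSimpArgs false

open Polynomial WeierstrassCurve
open scoped Polynomial.Bivariate

namespace Fermat.Agent.S13.AddSubAlg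

section Abstract

variable {S : Type*} [CommRing S] (w : ℤ → S) (x b₂ b₄ b₆ b₈ : S)

/-- Abstract form of the three addSubMap identities: consequences of Somos-4 and the identity
`(*)` at a single index. -/
theorem abstract_identities (n : ℤ)
    (hB : w 2 ^ 2 = 4 * x ^ 3 + b₂ * x ^ 2 + 2 * b₄ * x + b₆)
    (h3 : w 3 = 3 * x ^ 4 + b₂ * x ^ 3 + 3 * b₄ * x ^ 2 + 3 * b₆ * x + b₈)
    (hS4 : w (n + 2) * w (n - 2) = w (n + 1) * w (n - 1) * w 2 ^ 2 - w 3 * w n ^ 2)
    (hST : w (n + 2) * w (n - 1) ^ 2 + w (n - 2) * w (n + 1) ^ 2 =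
      (6 * x ^ 2 + b₂ * x + b₄) * w (n + 1) * w (n - 1) * w n - w 2 ^ 2 * w n ^ 3)
    (u f : ℤ → S)
    (hu0 : u n = w n ^ 2) (hup : u (n + 1) = w (n + 1) ^ 2) (hum : u (n - 1) = w (n - 1) ^ 2)
    (hf0 : f n = x * u n - w (n + 1) * w (n - 1))
    (hfp : f (n + 1) = x * u (n + 1) - w (n + 2) * w n)
    (hfm : f (n - 1) = x * u (n - 1) - w n * w (n - 2)) :
    f (n + 1) * f (n - 1) =
        (f n * x) ^ 2 - b₄ * (f n * x) * u n - b₆ * (f n + u n * x) * u n - b₈ * u n ^ 2 ∧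
      f (n + 1) * u (n - 1) + u (n + 1) * f (n - 1) =
        2 * (f n + u n * x) * (f n * x) + b₂ * (f n * x) * u n +
          b₄ * (f n + u n * x) * u n + b₆ * u n ^ 2 ∧
      u (n + 1) * u (n - 1) = (f n + u n * x) ^ 2 - 4 * (f n * x) * u n := by
  rw [hfp, hfm, hf0, hup, hum, hu0]
  generalize w (n + 2) = G at *
  generalize w (n + 1) = E at *
  generalize w (n - 1) = C at *
  generalize w (n - 2) = B at *
  generalize w n = D at *
  refine ⟨?_, ?_, ?_⟩
  · linear_combination (-(x * D)) * hST + D ^ 2 * hS4 + (x * D ^ 4 + D ^ 2 * E * C) * hB -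
      D ^ 4 * h3
  · linear_combination (-D) * hST + D ^ 4 * hB
  · ring

end Abstract

section CoordinateRing

variable {R : Type*} [CommRing R] (W : WeierstrassCurve R)

open WeierstrassCurve.Affine.CoordinateRing in
/-- `p ↦ mk (C p)` is injective `R[X] → R[W]`. -/
theorem mk_C_injective :
    Function.Injective fun p : R[X] => Affine.CoordinateRing.mk W (C p) := by
  intro p q hpq
  have h : (p - q) • (1 : W.toAffine.CoordinateRing) +
      (0 : R[X]) • Affine.CoordinateRing.mk W Y = 0 := by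
    rw [zero_smul, add_zero, Affine.CoordinateRing.smul, mul_one, C_sub, map_sub]
    exact sub_eq_zero.mpr hpq
  exact sub_eq_zero.mp (Affine.CoordinateRing.smul_basis_eq_zero h).1

/-- The polynomial identity `preΨ₄ = (6X² + b₂X + b₄) Ψ₃ - Ψ₂Sq²`. -/
theorem preΨ₄_eq :
    W.preΨ₄ = (6 * X ^ 2 + C W.b₂ * X + C W.b₄) * W.Ψ₃ - W.Ψ₂Sq ^ 2 := by
  have hb : (4 : R[X]) * C W.b₈ = C W.b₂ * C W.b₆ - C W.b₄ ^ 2 := by
    have := congrArg (C : R → R[X]) W.b_relation
    simpa only [C_mul, C_sub, C_pow, map_ofNat] using this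
  rw [preΨ₄, Ψ₃, Ψ₂Sq]
  simp only [C_mul, C_sub, C_pow, map_ofNat]
  linear_combination (X ^ 2) * hb

/-- The shape of the abstract identity `(*)` for normalised EDS (to be supplied by
`EDSStar.lean`), at a fixed ring. -/
def StarAt (S : Type*) [CommRing S] : Prop :=
  ∀ (b c e : S) (n : ℤ),
    normEDS b c (e * c - b ^ 4) (n + 2) * normEDS b c (e * c - b ^ 4) (n - 1) ^ 2 +
        normEDS b c (e * c - b ^ 4) (n - 2) * normEDS b c (e * c - b ^ 4) (n + 1) ^ 2 =
      e * normEDS b c (e * c - b ^ 4) (n + 1) * normEDS b c (e * c - b ^ 4) (n - 1) *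
          normEDS b c (e * c - b ^ 4) n -
        b ^ 2 * normEDS b c (e * c - b ^ 4) n ^ 3

open WeierstrassCurve.Affine.CoordinateRing in
/-- **T2**: the addSubMap identities for every Weierstrass curve over every commutative ring,
given the abstract identity `(*)` in the coordinate ring. -/
theorem addSubIdentities_of_starAt (hstar : StarAt W.toAffine.CoordinateRing) :
    AddSub.AddSubIdentities W := by
  intro n
  set mkW := Affine.CoordinateRing.mk W with hmk
  -- the sequence `w n = mk (ψ n)` as a normalised EDS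
  set b : W.toAffine.CoordinateRing := mkW W.ψ₂ with hb
  set c : W.toAffine.CoordinateRing := mkW (C W.Ψ₃) with hc
  set e : W.toAffine.CoordinateRing := mkW (C (6 * X ^ 2 + C W.b₂ * X + C W.b₄)) with he
  have hb2 : b ^ 2 = mkW (C W.Ψ₂Sq) := Affine.CoordinateRing.mk_ψ₂_sq W
  have hd : mkW (C W.preΨ₄) = e * c - b ^ 4 := by
    rw [preΨ₄_eq, C_sub, C_mul, C_pow, map_sub, map_mul, map_pow, ← hb2, ← pow_mul]
  have hw : ∀ m : ℤ, mkW (W.ψ m) = normEDS b c (e * c - b ^ 4) m := by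
    intro m
    rw [WeierstrassCurve.ψ, map_normEDS, hd]
  set x : W.toAffine.CoordinateRing := mkW (C X) with hx
  have hu : ∀ m : ℤ, mkW (C (W.ΨSq m)) = mkW (W.ψ m) ^ 2 := by
    intro m
    rw [Affine.CoordinateRing.mk_ψ, Affine.CoordinateRing.mk_Ψ_sq]
  have hf : ∀ m : ℤ, mkW (C (W.Φ m)) =
      x * mkW (C (W.ΨSq m)) - mkW (W.ψ (m + 1)) * mkW (W.ψ (m - 1)) := by
    intro m
    rw [← Affine.CoordinateRing.mk_φ, WeierstrassCurve.φ, map_sub, map_mul, map_mul, map_pow, hu]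
  have hB : mkW (W.ψ 2) ^ 2 = 4 * x ^ 3 + mkW (C (C W.b₂)) * x ^ 2 +
      2 * mkW (C (C W.b₄)) * x + mkW (C (C W.b₆)) := by
    rw [ψ_two, ← hb, hb2, Ψ₂Sq]
    simp only [C_add, C_mul, C_pow, map_add, map_mul, map_pow, map_ofNat, hx]
  have h3 : mkW (W.ψ 3) = 3 * x ^ 4 + mkW (C (C W.b₂)) * x ^ 3 +
      3 * mkW (C (C W.b₄)) * x ^ 2 + 3 * mkW (C (C W.b₆)) * x + mkW (C (C W.b₈)) := by
    rw [ψ_three, Ψ₃]
    simp only [C_add, C_mul, C_pow, map_add, map_mul, map_pow, map_ofNat, hx]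
  have hS4 := congrArg mkW (weierstrass_ψ_somos4 W n)
  simp only [map_sub, map_mul, map_pow] at hS4
  rw [← ψ_two, ← ψ_three] at hS4
  have hST := hstar b c e n
  simp only [← hw] at hST
  have hb' : b = mkW (W.ψ 2) := by rw [ψ_two]
  have he' : e = 6 * x ^ 2 + mkW (C (C W.b₂)) * x + mkW (C (C W.b₄)) := by
    rw [he]
    simp only [C_add, C_mul, C_pow, map_add, map_mul, map_pow, map_ofNat, hx]
  rw [hb', he'] at hST
  obtain ⟨h1, h2, h3'⟩ := abstract_identities (fun m => mkW (W.ψ m)) x (mkW (C (C W.b₂)))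
    (mkW (C (C W.b₄))) (mkW (C (C W.b₆))) (mkW (C (C W.b₈))) n hB h3 hS4 hST
    (fun m => mkW (C (W.ΨSq m))) (fun m => mkW (C (W.Φ m))) (hu n) (hu (n + 1)) (hu (n - 1))
    (hf n) (by simpa [add_sub_cancel_right, add_assoc] using hf (n + 1))
    (by simpa [sub_add_cancel, sub_sub] using hf (n - 1))
  refine ⟨mk_C_injective W ?_, mk_C_injective W ?_, mk_C_injective W ?_⟩
  · simp only [C_add, C_sub, C_mul, C_pow, map_add, map_sub, map_mul, map_pow, map_ofNat]
    exact h1
  · simp only [C_add, C_sub, C_mul, C_pow, map_add, map_sub, map_mul, map_pow, map_ofNat]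
    exact h2
  · simp only [C_add, C_sub, C_mul, C_pow, map_add, map_sub, map_mul, map_pow, map_ofNat]
    exact h3'

end CoordinateRing

end Fermat.Agent.S13.AddSubAlg
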