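import Mathlib

/-!
# S13, assembly core (abstract linear algebra / group theory)

`V` a two-dimensional `𝔽_p`-vector space with an additive action of a group `G`, `N₀` a `G`-stable
line. Under the "local" hypotheses (inertia away from `p` acts unipotently, inertia at `p` acts
trivially modulo a submodule `T` which is not everything unless there is no inertia-stable line,
no nonzero `G`-fixed vector, every character of `G` trivial on all inertia groups is trivial) the
line `N₀` is cofixed: `σ x - x ∈ N₀` for all `σ`, `x`.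
-/

set_option autoImplicit false

namespace Fermat.Agent.S13

section Core

variable {p : ℕ} [Fact p.Prime] {G V : Type*} [Group G] [AddCommGroup V] [Module (ZMod p) V]
  [DistribMulAction G V]

/-- An additive action commutes with the `ZMod p`-scalars. -/
theorem smul_zmod_smul (σ : G) (d : ZMod p) (x : V) : σ • (d • x) = d • (σ • x) := by
  have h : ∀ y : V, d • y = (d.val : ℕ) • y := fun y => by
    conv_lhs => rw [← ZMod.natCast_zmod_val d]
    rw [Nat.cast_smul_eq_nsmul]
  rw [h, h, smul_comm]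

/-- The character by which `G` acts on a one-dimensional subquotient `N'/N` of `V`
(`N ≤ N'` stable, `N'` spanned by `N` and `e`). -/
theorem exists_flag_character (N N' : Submodule (ZMod p) V)
    (hN : ∀ σ : G, ∀ x ∈ N, σ • x ∈ N) (hN' : ∀ σ : G, ∀ x ∈ N', σ • x ∈ N')
    (e : V) (heN' : e ∈ N') (heN : e ∉ N) (hspan : ∀ x ∈ N', ∃ c : ZMod p, x - c • e ∈ N) :
    ∃ χ : G →* (ZMod p)ˣ, ∀ σ, ∀ x ∈ N', σ • x - ((χ σ : (ZMod p)ˣ) : ZMod p) • x ∈ N := by
  classical
  -- uniqueness of the scalar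
  have huniq : ∀ c c' : ZMod p, c • e - c' • e ∈ N → c = c' := by
    intro c c' h
    by_contra hne
    have hd : c - c' ≠ 0 := sub_ne_zero.mpr hne
    apply heN
    have h' : (c - c') • e ∈ N := by rwa [sub_smul]
    have := N.smul_mem (c - c')⁻¹ h'
    rwa [smul_smul, inv_mul_cancel₀ hd, one_smul] at this
  choose c hc using fun σ : G => hspan (σ • e) (hN' σ e heN')
  -- the action on `N'` modulo `N`
  have hact : ∀ σ, ∀ x ∈ N', σ • x - c σ • x ∈ N := by
    intro σ x hx
    obtain ⟨d, hd⟩ := hspan x hx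
    have h1 : σ • (x - d • e) ∈ N := hN σ _ hd
    rw [smul_sub, smul_zmod_smul] at h1
    have h2 : d • (σ • e - c σ • e) ∈ N := N.smul_mem d (hc σ)
    have h3 : c σ • (x - d • e) ∈ N := N.smul_mem (c σ) hd
    have : σ • x - c σ • x =
        (σ • x - d • σ • e) + d • (σ • e - c σ • e) - c σ • (x - d • e) := by
      rw [smul_sub, smul_sub, smul_smul, smul_smul, mul_comm d (c σ)]
      abel
    rw [this]
    exact N.sub_mem (N.add_mem h1 h2) h3
  have hone : c 1 = 1 := by
    apply huniq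
    have := hc 1
    rw [one_smul] at this
    rw [one_smul, ← neg_mem_iff, neg_sub]
    exact this
  have hmul : ∀ σ τ, c (σ * τ) = c σ * c τ := by
    intro σ τ
    apply huniq
    -- `(σ τ) e ≡ c (σ τ) e`, and `(σ τ) e = σ (τ e) ≡ σ (c τ e) = c τ σ e ≡ c τ c σ e`
    have h1 : σ • (τ • e - c τ • e) ∈ N := hN σ _ (hc τ)
    rw [smul_sub, smul_zmod_smul, ← mul_smul] at h1
    have h2 : c τ • (σ • e - c σ • e) ∈ N := N.smul_mem _ (hc σ)
    have h3 := hc (σ * τ)
    have : c (σ * τ) • e - (c σ * c τ) • e =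
        (σ * τ) • e - c τ • σ • e + c τ • (σ • e - c σ • e) - ((σ * τ) • e - c (σ * τ) • e) := by
      rw [smul_sub, smul_smul, mul_comm (c τ) (c σ)]
      abel
    rw [this]
    exact N.sub_mem (N.add_mem h1 h2) h3
  let f : G →* ZMod p := { toFun := c, map_one' := hone, map_mul' := hmul }
  refine ⟨f.toHomUnits, fun σ x hx => ?_⟩
  exact hact σ x hx

/-- A two-dimensional space: structure of a proper nonzero submodule. -/
theorem exists_generator_of_line (hcard : Nat.card V = p ^ 2) (N₀ : Submodule (ZMod p) V)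
    (hbot : N₀ ≠ ⊥) (htop : N₀ ≠ ⊤) :
    (∃ e₁ ∈ N₀, e₁ ≠ 0 ∧ ∀ x ∈ N₀, ∃ c : ZMod p, x = c • e₁) ∧
      ∀ t : V, t ∉ N₀ → ∀ x : V, ∃ c : ZMod p, x - c • t ∈ N₀ := by
  classical
  have hfinV : Finite V := Nat.finite_of_card_ne_zero (by
    rw [hcard]; exact pow_ne_zero _ (Fact.out : p.Prime).ne_zero)
  have : Fintype V := Fintype.ofFinite V
  have hrank : Module.finrank (ZMod p) V = 2 := by
    have h1 := Module.card_eq_pow_finrank (K := ZMod p) (V := V)
    rw [ZMod.card, ← Nat.card_eq_fintype_card, hcard] at h1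
    exact (Nat.pow_right_injective (Fact.out : p.Prime).two_le h1).symm
  have h1 : Module.finrank (ZMod p) N₀ < 2 := by
    rw [← hrank]; exact Submodule.finrank_lt htop
  have h2 : 0 < Module.finrank (ZMod p) N₀ := by
    rw [Module.finrank_pos_iff]
    exact (Submodule.nontrivial_iff_ne_bot).mpr hbot
  have hN1 : Module.finrank (ZMod p) N₀ = 1 := by omega
  have hQ1 : Module.finrank (ZMod p) (V ⧸ N₀) = 1 := by
    have := Submodule.finrank_quotient_add_finrank N₀
    omega
  constructor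
  · obtain ⟨⟨e, he⟩, he0, hgen⟩ := finrank_eq_one_iff'.mp hN1
    refine ⟨e, he, fun h0 => he0 (Subtype.ext h0), fun x hx => ?_⟩
    obtain ⟨c, hc⟩ := hgen ⟨x, hx⟩
    exact ⟨c, (congrArg Subtype.val hc).symm⟩
  · intro t ht x
    have ht0 : (Submodule.Quotient.mk t : V ⧸ N₀) ≠ 0 := by
      rwa [Ne, Submodule.Quotient.mk_eq_zero]
    obtain ⟨c, hc⟩ := (finrank_eq_one_iff_of_nonzero' _ ht0).mp hQ1 (Submodule.Quotient.mk x)
    refine ⟨c, ?_⟩
    rw [← Submodule.Quotient.mk_eq_zero, Submodule.Quotient.mk_sub, Submodule.Quotient.mk_smul, hc,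
      sub_self]

/-- **Assembly core.** -/
theorem cofixed_of_local_conditions (hcard : Nat.card V = p ^ 2)
    (N₀ : Submodule (ZMod p) V) (hN₀ : ∀ σ : G, ∀ x ∈ N₀, σ • x ∈ N₀)
    (hbot : N₀ ≠ ⊥) (htop : N₀ ≠ ⊤)
    (K : Subgroup G) (hK : ∀ σ ∈ K, ∀ x : V, σ • x = x)
    {ι : Type*} (I : ι → Subgroup G)
    (hI : ∀ i, ∀ σ ∈ I i, ∀ x : V, σ • (σ • x - x) = σ • x - x)
    (Ip : Subgroup G) (T : Submodule (ZMod p) V)
    (hT : ∀ σ ∈ Ip, ∀ x : V, σ • x - x ∈ T)
    (hTtop : T = ⊤ → ∀ L : Submodule (ZMod p) V,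
      (∀ σ ∈ Ip, ∀ x ∈ L, σ • x ∈ L) → L = ⊥ ∨ L = ⊤)
    (hfix : ∀ x ∈ N₀, (∀ σ : G, σ • x = x) → x = 0)
    (hG : ∀ χ : G →* (ZMod p)ˣ, K ≤ χ.ker → (∀ i, I i ≤ χ.ker) → Ip ≤ χ.ker → ∀ σ, χ σ = 1) :
    ∀ (σ : G) (x : V), σ • x - x ∈ N₀ := by
  classical
  obtain ⟨⟨e₁, he₁, he₁0, hgen₁⟩, hgen₂⟩ := exists_generator_of_line hcard N₀ hbot htop
  -- `T ≠ ⊤`
  have hTne : T ≠ ⊤ := by
    intro h
    rcases hTtop h N₀ (fun σ _ x hx => hN₀ σ x hx) with h' | h'
    · exact hbot h'
    · exact htop h'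
  -- scalars: `c • e ∈ N` with `e ∉ N` forces `c = 0`
  have hzero : ∀ (N : Submodule (ZMod p) V) (e : V), e ∉ N → ∀ c : ZMod p, c • e ∈ N → c = 0 := by
    intro N e he c hc
    by_contra hne
    apply he
    have := N.smul_mem c⁻¹ hc
    rwa [smul_smul, inv_mul_cancel₀ hne, one_smul] at this
  -- generic: a character of a flag is trivial at `σ` with `(σ - 1)² = 0`
  have hunip : ∀ (N N' : Submodule (ZMod p) V) (e : V), e ∈ N' → e ∉ N →
      (∀ σ : G, ∀ x ∈ N', σ • x ∈ N') →
      ∀ (χ : G →* (ZMod p)ˣ), (∀ σ, ∀ x ∈ N', σ • x - ((χ σ : (ZMod p)ˣ) : ZMod p) • x ∈ N) →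
      ∀ σ : G, (∀ x : V, σ • (σ • x - x) = σ • x - x) → χ σ = 1 := by
    intro N N' e heN' heN hstab χ hχ σ hσ
    set c : ZMod p := ((χ σ : (ZMod p)ˣ) : ZMod p) with hc
    have hy' : σ • e - e ∈ N' := N'.sub_mem (hstab σ e heN') heN'
    have h1 := hχ σ e heN'
    have h2 := hχ σ (σ • e - e) hy'
    rw [hσ e] at h2
    -- `(1 - c) (σ e - e) ∈ N` and `σ e - e ≡ (c - 1) e`
    have h3 : (1 - c) • (σ • e - e) ∈ N := by
      have : (1 - c) • (σ • e - e) = (σ • e - e) - c • (σ • e - e) := by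
        rw [sub_smul, one_smul]
      rw [this]; exact h2
    have h4 : (1 - c) • ((c - 1) • e) ∈ N := by
      have h5 : (1 - c) • (σ • e - c • e) ∈ N := N.smul_mem _ h1
      have : (1 - c) • ((c - 1) • e) = (1 - c) • (σ • e - e) - (1 - c) • (σ • e - c • e) := by
        rw [← smul_sub, sub_smul c 1 e, one_smul]
        congr 1
        abel
      rw [this]; exact N.sub_mem h3 h5
    rw [smul_smul] at h4
    have h6 := hzero N e heN _ h4
    have h7 : c = 1 := by
      have : (c - 1) * (c - 1) = 0 := by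
        have : (1 - c) * (c - 1) = -((c - 1) * (c - 1)) := by ring
        rw [this, neg_eq_zero] at h6; exact h6
      have := mul_self_eq_zero.mp this
      exact sub_eq_zero.mp this
    exact Units.ext (by rw [← hc, h7]; rfl)
  -- the two cases
  by_cases hcase : T ≤ N₀
  · -- the character on `V / N₀`
    obtain ⟨t, ht⟩ : ∃ t : V, t ∉ N₀ := by
      by_contra h
      exact htop (eq_top_iff.mpr fun x _ => by
        by_contra hx
        exact h ⟨x, hx⟩)
    obtain ⟨χ, hχ⟩ := exists_flag_character (G := G) N₀ ⊤ hN₀ (fun _ _ _ => Submodule.mem_top)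
      t Submodule.mem_top ht (fun x _ => hgen₂ t ht x)
    have hχ1 : ∀ σ, χ σ = 1 := by
      apply hG χ
      · intro σ hσ
        rw [MonoidHom.mem_ker]
        have h1 := hχ σ t Submodule.mem_top
        rw [hK σ hσ t] at h1
        have h2 : (1 - ((χ σ : (ZMod p)ˣ) : ZMod p)) • t ∈ N₀ := by
          rwa [sub_smul, one_smul]
        have h3 := hzero N₀ t ht _ h2
        exact Units.ext (by rw [← sub_eq_zero.mp h3]; rfl)
      · intro i σ hσ
        rw [MonoidHom.mem_ker]
        exact hunip N₀ ⊤ t Submodule.mem_top ht (fun _ _ _ => Submodule.mem_top) χ hχ σ (hI i σ hσ)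
      · intro σ hσ
        rw [MonoidHom.mem_ker]
        have h1 := hχ σ t Submodule.mem_top
        have h2 : σ • t - t ∈ N₀ := hcase (hT σ hσ t)
        have h3 : (1 - ((χ σ : (ZMod p)ˣ) : ZMod p)) • t ∈ N₀ := by
          have : (1 - ((χ σ : (ZMod p)ˣ) : ZMod p)) • t =
              (σ • t - ((χ σ : (ZMod p)ˣ) : ZMod p) • t) - (σ • t - t) := by
            rw [sub_smul, one_smul]; abel
          rw [this]; exact N₀.sub_mem h1 h2
        have h4 := hzero N₀ t ht _ h3
        exact Units.ext (by rw [← sub_eq_zero.mp h4]; rfl)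
    intro σ x
    have := hχ σ x Submodule.mem_top
    rwa [hχ1 σ, Units.val_one, one_smul] at this
  · -- the character on `N₀`; this case is contradictory
    exfalso
    obtain ⟨t, htT, htN⟩ : ∃ t ∈ T, t ∉ N₀ := by
      by_contra h
      exact hcase fun x hx => by
        by_contra hxN
        exact h ⟨x, hx, hxN⟩
    obtain ⟨χ, hχ⟩ := exists_flag_character (G := G) ⊥ N₀ (fun σ x hx => by
        rw [Submodule.mem_bot] at hx ⊢; rw [hx, smul_zero]) hN₀ e₁ he₁
      (by rwa [Submodule.mem_bot]) (fun x hx => by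
        obtain ⟨c, hc⟩ := hgen₁ x hx
        exact ⟨c, by rw [Submodule.mem_bot, hc, sub_self]⟩)
    have hχ' : ∀ σ, ∀ x ∈ N₀, σ • x = ((χ σ : (ZMod p)ˣ) : ZMod p) • x := fun σ x hx => by
      have := hχ σ x hx
      rwa [Submodule.mem_bot, sub_eq_zero] at this
    have hχ1 : ∀ σ, χ σ = 1 := by
      apply hG χ
      · intro σ hσ
        rw [MonoidHom.mem_ker]
        have h1 := hχ' σ e₁ he₁
        rw [hK σ hσ e₁] at h1
        have h2 : (1 - ((χ σ : (ZMod p)ˣ) : ZMod p)) • e₁ ∈ (⊥ : Submodule (ZMod p) V) := by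
          rw [Submodule.mem_bot, sub_smul, one_smul, ← h1, sub_self]
        have h3 := hzero ⊥ e₁ (by rwa [Submodule.mem_bot]) _ h2
        exact Units.ext (by rw [← sub_eq_zero.mp h3]; rfl)
      · intro i σ hσ
        rw [MonoidHom.mem_ker]
        exact hunip ⊥ N₀ e₁ he₁ (by rwa [Submodule.mem_bot]) hN₀ χ hχ σ (hI i σ hσ)
      · intro σ hσ
        rw [MonoidHom.mem_ker]
        -- `y := σ e₁ - e₁ ∈ T ∩ N₀` must vanish
        have hyT : σ • e₁ - e₁ ∈ T := hT σ hσ e₁
        have hyN : σ • e₁ - e₁ ∈ N₀ := N₀.sub_mem (hN₀ σ e₁ he₁) he₁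
        have hy0 : σ • e₁ - e₁ = 0 := by
          by_contra hy
          apply hTne
          rw [eq_top_iff]
          intro v _
          obtain ⟨c, hc⟩ := hgen₂ t htN v
          -- `v - c t ∈ N₀ ⊆ T`
          have hN₀T : ∀ x ∈ N₀, x ∈ T := by
            intro x hx
            obtain ⟨d, hd⟩ := hgen₁ x hx
            obtain ⟨d', hd'⟩ := hgen₁ _ hyN
            have hd'0 : d' ≠ 0 := by
              rintro rfl
              rw [zero_smul] at hd'
              exact hy hd'
            have : x = (d * d'⁻¹) • (σ • e₁ - e₁) := by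
              rw [hd', smul_smul, mul_assoc, inv_mul_cancel₀ hd'0, mul_one, hd]
            rw [this]
            exact T.smul_mem _ hyT
          have : v = (v - c • t) + c • t := by abel
          rw [this]
          exact T.add_mem (hN₀T _ hc) (T.smul_mem c htT)
        have h1 := hχ' σ e₁ he₁
        rw [sub_eq_zero.mp hy0] at h1
        have h2 : (1 - ((χ σ : (ZMod p)ˣ) : ZMod p)) • e₁ ∈ (⊥ : Submodule (ZMod p) V) := by
          rw [Submodule.mem_bot, sub_smul, one_smul, ← h1, sub_self]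
        have h3 := hzero ⊥ e₁ (by rwa [Submodule.mem_bot]) _ h2
        exact Units.ext (by rw [← sub_eq_zero.mp h3]; rfl)
    apply he₁0
    apply hfix e₁ he₁
    intro σ
    rw [hχ' σ e₁ he₁, hχ1 σ, Units.val_one, one_smul]

end Core

end Fermat.Agent.S13
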