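import Fermat.Agent.S13.Assembly

/-!
# S13: `|E[p]| = p²` as soon as a proper nonzero submodule exists (given `DOut`)
-/

set_option autoImplicit false

namespace Fermat.Agent.S13

open WeierstrassCurve WeierstrassCurve.Affine WeierstrassCurve.Affine.Point
open scoped WeierstrassCurve.Affine

/-- Given the output of block (D) (`|V| ≤ p²`), the existence of a proper nonzero submodule of
`V = E[p]` forces `|V| = p²`. -/
theorem card_Vp_eq_sq (P : FreyPackage) (hD : DOut P) (N : Submodule (ZMod P.p) (Vp P))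
    (hNbot : N ≠ ⊥) (hNtop : N ≠ ⊤) : Nat.card (Vp P) = P.p ^ 2 := by
  obtain ⟨-, hfin, hcard⟩ := hD
  have : Fact P.p.Prime := ⟨P.pp⟩
  have : Module.Finite (ZMod P.p) (Vp P) := Module.Finite.of_finite
  have h1 : Nat.card (Vp P) = P.p ^ Module.finrank (ZMod P.p) (Vp P) := by
    rw [Module.natCard_eq_pow_finrank (K := ZMod P.p), Nat.card_zmod]
  have hfr : Module.finrank (ZMod P.p) (Vp P) ≤ 2 := by
    rw [h1] at hcard
    exact (Nat.pow_le_pow_iff_right P.pp.one_lt).mp hcard
  have hN1 : 0 < Module.finrank (ZMod P.p) N := by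
    rw [Module.finrank_pos_iff]
    exact (Submodule.nontrivial_iff_ne_bot).mpr hNbot
  have hN2 : Module.finrank (ZMod P.p) N < Module.finrank (ZMod P.p) (Vp P) :=
    Submodule.finrank_lt hNtop
  have h2 : Module.finrank (ZMod P.p) (Vp P) = 2 := by omega
  rw [h1, h2]

/-- The cardinality of a proper nonzero submodule of `V = E[p]` is `p`. -/
theorem card_line_eq (P : FreyPackage) (hD : DOut P) (N : Submodule (ZMod P.p) (Vp P))
    (hNbot : N ≠ ⊥) (hNtop : N ≠ ⊤) : Nat.card N = P.p := by
  obtain ⟨-, hfin, hcard⟩ := hD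
  have : Fact P.p.Prime := ⟨P.pp⟩
  have : Module.Finite (ZMod P.p) (Vp P) := Module.Finite.of_finite
  have h1 : Nat.card (Vp P) = P.p ^ Module.finrank (ZMod P.p) (Vp P) := by
    rw [Module.natCard_eq_pow_finrank (K := ZMod P.p), Nat.card_zmod]
  have hfr : Module.finrank (ZMod P.p) (Vp P) ≤ 2 := by
    rw [h1] at hcard
    exact (Nat.pow_le_pow_iff_right P.pp.one_lt).mp hcard
  have hN1 : 0 < Module.finrank (ZMod P.p) N := by
    rw [Module.finrank_pos_iff]
    exact (Submodule.nontrivial_iff_ne_bot).mpr hNbot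
  have hN2 : Module.finrank (ZMod P.p) N < Module.finrank (ZMod P.p) (Vp P) :=
    Submodule.finrank_lt hNtop
  have h2 : Module.finrank (ZMod P.p) N = 1 := by omega
  rw [Module.natCard_eq_pow_finrank (K := ZMod P.p) (V := N), Nat.card_zmod, h2, pow_one]

end Fermat.Agent.S13
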