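/-
S13 block (D), piece DP2-T2 (helper10): the three polynomial identities expressing that the pair
`(Φₙ, ΨSqₙ)` of division polynomials transforms under `n ↦ (n + 1, n - 1)` by the
addition-and-subtraction map on `x`-coordinates (`AddSub.AddSubIdentities`, the hypothesis of
`Fermat/Agent/S13/MulByN.lean`).

Route: in the coordinate ring `R[W]` write `ψₖ` for the class of the `k`-th division polynomial,
`x` for the class of `X`, and `κ = 6x² + b₂x + b₄`.  The three identities are linear combinations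
of the Somos-4 relation (`Fermat/Agent/S13/EDS.lean`) and of the non-homogeneous identity

  `(*)  ψₙ₊₂ψₙ₋₁² + ψₙ₋₂ψₙ₊₁² = ψₙ (κ ψₙ₊₁ψₙ₋₁ - ψ₂²ψₙ²)`,

which is proved by induction on `n` when `R` is a domain of characteristic zero (so that `R[W]` is
a domain in which `ψₖ ≠ 0` for `k ≠ 0`): `Eₙ := lhs - rhs` satisfies `Eₙ₊₁ψₙ₋₁ = Eₙψₙ₊₂`.
Finally `R[X] → R[W]` is injective.
-/
import Mathlib
import Fermat.Agent.S13.EDS
import Fermat.Agent.S13.MulByN

open Polynomial WeierstrassCurve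

namespace Fermat.Agent.S13.DivPolyAddSub

open WeierstrassCurve.Affine.CoordinateRing (mk)

variable {R : Type*} [CommRing R] (W : WeierstrassCurve R)

/-- The class of `ψₙ` in the coordinate ring. -/
noncomputable def psiK (n : ℤ) : W.toAffine.CoordinateRing := mk W (W.ψ n)

/-- The class of `X` in the coordinate ring. -/
noncomputable def xK : W.toAffine.CoordinateRing := mk W (C X)

/-- The class of a constant in the coordinate ring. -/
noncomputable def cK (r : R) : W.toAffine.CoordinateRing := mk W (C (C r))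

theorem psiK_zero : psiK W 0 = 0 := by simp [psiK]

theorem psiK_one : psiK W 1 = 1 := by simp [psiK]

theorem psiK_neg (n : ℤ) : psiK W (-n) = -psiK W n := by simp [psiK]

theorem psiK_sq (n : ℤ) : psiK W n ^ 2 = mk W (C (W.ΨSq n)) := by
  rw [psiK, Affine.CoordinateRing.mk_ψ, Affine.CoordinateRing.mk_Ψ_sq]

theorem mk_C_Φ (n : ℤ) :
    mk W (C (W.Φ n)) = xK W * psiK W n ^ 2 - psiK W (n + 1) * psiK W (n - 1) := by
  rw [← Affine.CoordinateRing.mk_φ, WeierstrassCurve.φ]
  simp only [map_sub, map_mul, map_pow, psiK, xK]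

theorem psiK_two_sq :
    psiK W 2 ^ 2 = 4 * xK W ^ 3 + cK W W.b₂ * xK W ^ 2 + 2 * cK W W.b₄ * xK W + cK W W.b₆ := by
  rw [psiK_sq, ΨSq_two, Ψ₂Sq]
  simp only [xK, cK, map_add, map_mul, map_pow, map_ofNat]

theorem psiK_three :
    psiK W 3 = 3 * xK W ^ 4 + cK W W.b₂ * xK W ^ 3 + 3 * cK W W.b₄ * xK W ^ 2 +
      3 * cK W W.b₆ * xK W + cK W W.b₈ := by
  rw [psiK, ψ_three, Ψ₃]
  simp only [xK, cK, map_add, map_mul, map_pow, map_ofNat]

theorem psiK_somos4 (n : ℤ) :
    psiK W (n + 2) * psiK W (n - 2) =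
      psiK W (n + 1) * psiK W (n - 1) * psiK W 2 ^ 2 - psiK W 3 * psiK W n ^ 2 := by
  have := congrArg (Affine.CoordinateRing.mk W) (weierstrass_ψ_somos4 W n)
  simpa only [map_sub, map_mul, map_pow, psiK, ψ_two, ψ_three] using this

/-- `κ = 6x² + b₂x + b₄` in the coordinate ring. -/
noncomputable def kappaK : W.toAffine.CoordinateRing :=
  6 * xK W ^ 2 + cK W W.b₂ * xK W + cK W W.b₄

/-- The non-homogeneous identity `(*)` at index `n`. -/
def StarAt (n : ℤ) : Prop :=
  psiK W (n + 2) * psiK W (n - 1) ^ 2 + psiK W (n - 2) * psiK W (n + 1) ^ 2 =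
    psiK W n * (kappaK W * psiK W (n + 1) * psiK W (n - 1) - psiK W 2 ^ 2 * psiK W n ^ 2)

theorem mk_C_Φ_succ (n : ℤ) :
    mk W (C (W.Φ (n + 1))) = xK W * psiK W (n + 1) ^ 2 - psiK W (n + 2) * psiK W n := by
  rw [mk_C_Φ, show n + 1 + 1 = n + 2 by ring, show n + 1 - 1 = n by ring]

theorem mk_C_Φ_pred (n : ℤ) :
    mk W (C (W.Φ (n - 1))) = xK W * psiK W (n - 1) ^ 2 - psiK W n * psiK W (n - 2) := by
  rw [mk_C_Φ, show n - 1 + 1 = n by ring, show n - 1 - 1 = n - 2 by ring]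

/-- Identity (c) in the coordinate ring. -/
theorem mk_identity_c (n : ℤ) :
    mk W (C (W.ΨSq (n + 1) * W.ΨSq (n - 1))) =
      mk W (C ((W.Φ n + W.ΨSq n * X) ^ 2 - 4 * (W.Φ n * X) * W.ΨSq n)) := by
  simp only [map_sub, map_mul, map_pow, map_add, map_ofNat, mk_C_Φ, ← psiK_sq]
  rw [← xK]
  ring

/-- Identity (b) in the coordinate ring, from `(*)`. -/
theorem mk_identity_b (n : ℤ) (hs : StarAt W n) :
    mk W (C (W.Φ (n + 1) * W.ΨSq (n - 1) + W.ΨSq (n + 1) * W.Φ (n - 1))) =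
      mk W (C (2 * (W.Φ n + W.ΨSq n * X) * (W.Φ n * X) + C W.b₂ * (W.Φ n * X) * W.ΨSq n +
          C W.b₄ * (W.Φ n + W.ΨSq n * X) * W.ΨSq n + C W.b₆ * W.ΨSq n ^ 2)) := by
  simp only [map_mul, map_pow, map_add, map_ofNat, mk_C_Φ, ← psiK_sq]
  simp only [show n + 1 + 1 = n + 2 by ring, show n + 1 - 1 = n by ring,
    show n - 1 + 1 = n by ring, show n - 1 - 1 = n - 2 by ring]
  rw [← xK, ← cK, ← cK, ← cK]
  unfold StarAt at hs
  rw [psiK_two_sq, kappaK] at hs
  linear_combination (-psiK W n) * hs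

/-- Identity (a) in the coordinate ring, from `(*)` and Somos-4. -/
theorem mk_identity_a (n : ℤ) (hs : StarAt W n) :
    mk W (C (W.Φ (n + 1) * W.Φ (n - 1))) =
      mk W (C ((W.Φ n * X) ^ 2 - C W.b₄ * (W.Φ n * X) * W.ΨSq n -
          C W.b₆ * (W.Φ n + W.ΨSq n * X) * W.ΨSq n - C W.b₈ * W.ΨSq n ^ 2)) := by
  simp only [map_sub, map_mul, map_pow, map_add, mk_C_Φ, ← psiK_sq]
  simp only [show n + 1 + 1 = n + 2 by ring, show n + 1 - 1 = n by ring,
    show n - 1 + 1 = n by ring, show n - 1 - 1 = n - 2 by ring]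
  rw [← xK, ← cK, ← cK, ← cK]
  unfold StarAt at hs
  have h4 := psiK_somos4 W n
  rw [psiK_two_sq, kappaK] at hs
  rw [psiK_two_sq, psiK_three] at h4
  linear_combination (-xK W * psiK W n) * hs + psiK W n ^ 2 * h4

/-- `R[X] → R[W]` is injective. -/
theorem mk_C_injective {p q : R[X]} (h : mk W (C p) = mk W (C q)) : p = q := by
  have h0 : (p - q) • (1 : W.toAffine.CoordinateRing) + (0 : R[X]) • mk W (Polynomial.X : R[X][X]) = 0 := by
    rw [Affine.CoordinateRing.smul, zero_smul, add_zero, mul_one, C_sub, map_sub, h, sub_self]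
  exact sub_eq_zero.mp (Affine.CoordinateRing.smul_basis_eq_zero h0).1

/-- The polynomial identity `preΨ₄ = (6X² + b₂X + b₄) Ψ₃ - Ψ₂Sq²`. -/
theorem preΨ₄_eq :
    W.preΨ₄ = (6 * X ^ 2 + C W.b₂ * X + C W.b₄) * W.Ψ₃ - W.Ψ₂Sq ^ 2 := by
  rw [preΨ₄, Ψ₃, Ψ₂Sq]
  have hb : C (4 * W.b₈) = C (W.b₂ * W.b₆ - W.b₄ ^ 2) := congrArg C W.b_relation
  simp only [map_sub, map_mul, map_pow, map_ofNat] at hb ⊢
  linear_combination (X ^ 2) * hb

theorem psiK_four :
    psiK W 4 = psiK W 2 * (kappaK W * psiK W 3 - (psiK W 2 ^ 2) ^ 2) := by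
  have h2 : psiK W 2 ^ 2 = mk W (C W.Ψ₂Sq) := by rw [psiK_sq, ΨSq_two]
  rw [h2]
  rw [psiK, psiK, psiK, ψ_four, ψ_two, ψ_three, preΨ₄_eq, kappaK, xK, cK, cK]
  simp only [map_sub, map_mul, map_pow, map_add, map_ofNat]
  ring

theorem starAt_zero : StarAt W 0 := by
  unfold StarAt
  rw [show (0 : ℤ) - 2 = -2 by ring, show (0 : ℤ) - 1 = -1 by ring, zero_add, zero_add,
    psiK_neg, psiK_neg, psiK_zero, psiK_one]
  ring

theorem starAt_one : StarAt W 1 := by
  unfold StarAt
  rw [show (1 : ℤ) - 2 = -1 by ring, show (1 : ℤ) - 1 = 0 by ring, show (1 : ℤ) + 2 = 3 by ring,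
    show (1 : ℤ) + 1 = 2 by ring, psiK_neg, psiK_zero, psiK_one]
  ring

theorem starAt_two : StarAt W 2 := by
  unfold StarAt
  rw [show (2 : ℤ) - 2 = 0 by ring, show (2 : ℤ) - 1 = 1 by ring, show (2 : ℤ) + 2 = 4 by ring,
    show (2 : ℤ) + 1 = 3 by ring, psiK_zero, psiK_one, psiK_four]
  ring

theorem starAt_neg {n : ℤ} (h : StarAt W n) : StarAt W (-n) := by
  unfold StarAt at *
  rw [show -n + 2 = -(n - 2) by ring, show -n - 2 = -(n + 2) by ring,
    show -n + 1 = -(n - 1) by ring, show -n - 1 = -(n + 1) by ring]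
  simp only [psiK_neg]
  linear_combination -h

theorem starAt_succ [IsDomain W.toAffine.CoordinateRing] {n : ℤ} (h : StarAt W n)
    (h0 : psiK W (n - 1) ≠ 0) : StarAt W (n + 1) := by
  unfold StarAt at *
  have s0 := psiK_somos4 W n
  have s1 := psiK_somos4 W (n + 1)
  simp only [show n + 1 + 2 = n + 3 by ring, show n + 1 - 2 = n - 1 by ring,
    show n + 1 + 1 = n + 2 by ring, show n + 1 - 1 = n by ring] at s1 ⊢
  apply mul_right_cancel₀ h0
  linear_combination psiK W (n + 2) * h + psiK W n ^ 2 * s1 - psiK W (n + 1) ^ 2 * s0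

theorem psiK_ne_zero [IsDomain R] [CharZero R] {n : ℤ} (hn : n ≠ 0) : psiK W n ≠ 0 := by
  intro h
  have h2 : mk W (C (W.ΨSq n)) = mk W (C 0) := by rw [← psiK_sq, h]; simp
  exact W.ΨSq_ne_zero (Int.cast_ne_zero.mpr hn) (mk_C_injective W h2)

theorem starAt_nat [IsDomain R] [CharZero R] (n : ℕ) : StarAt W (n + 2 : ℕ) := by
  induction n with
  | zero => simpa using starAt_two W
  | succ k ih =>
    have := starAt_succ W ih (psiK_ne_zero W (n := ((k + 2 : ℕ) : ℤ) - 1) (by push_cast; omega))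
    convert this using 1
    push_cast; ring

theorem starAt_all [IsDomain R] [CharZero R] (n : ℤ) : StarAt W n := by
  have hnat : ∀ k : ℕ, StarAt W k := by
    intro k
    rcases k with _ | _ | k
    · simpa using starAt_zero W
    · simpa using starAt_one W
    · exact starAt_nat W k
  rcases Int.natAbs_eq n with h | h
  · rw [h]; exact hnat _
  · rw [h]; exact starAt_neg W (hnat _)

open Fermat.Agent.S13.AddSub in
/-- `AddSubIdentities` over a domain of characteristic zero. -/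
theorem addSubIdentities_of_isDomain [IsDomain R] [CharZero R] : AddSubIdentities W := by
  intro n
  have hs := starAt_all W n
  exact ⟨mk_C_injective W (mk_identity_a W n hs), mk_C_injective W (mk_identity_b W n hs),
    mk_C_injective W (mk_identity_c W n)⟩

end Fermat.Agent.S13.DivPolyAddSub
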