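import Fermat.Agent.S13.LpGlue
import Fermat.Agent.S13.NodeRedCard

/-!
# S13, block (Lp): `LpOut P` from the single remaining input `hTop`
(if a Galois-stable line exists, not all of `E[p]` lies in the kernel of reduction at `A ∣ p`).
-/

set_option autoImplicit false

namespace Fermat.Agent.S13

open WeierstrassCurve WeierstrassCurve.Affine WeierstrassCurve.Affine.Point Fermat.Agent.S05
open scoped WeierstrassCurve.Affine

/-- `p` is a non-unit of a valuation subring lying over `p`. -/
theorem val_natCast_lt_one_of_liesOverPrime (A : ValuationSubring Qb) {q : ℕ}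
    (hA : A.LiesOverPrime q) : A.valuation (q : Qb) < 1 :=
  (A.mem_nonunits_iff).mp hA

/-- **Block (Lp)** with the nodal input discharged by `NodeRed`. -/
theorem lpOut_of_top (P : FreyPackage)
    (hTop : ∀ N : Submodule (ZMod P.p) (Vp P), IsGaloisStable ℚ N → N ≠ ⊥ → N ≠ ⊤ →
      ∀ A : ValuationSubring Qb, A.LiesOverPrime P.p →
        ¬ ∀ x : Vp P, InKer A.valuation (P.freyCurve⁄Qb) (x : (P.freyCurve⁄Qb).Point)) :
    LpOut P :=
  lpOut_of P
    (fun A hA _ _ _ hN _ hR hpR =>
      NodeRed.inKer_of_nsmul_eq_zero_of_val_lt hN P.pp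
        (val_natCast_lt_one_of_liesOverPrime A hA) hR hpR)
    hTop

end Fermat.Agent.S13
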