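import Fermat.Agent.S13.Assembly
import Fermat.Agent.S13.LpGlueFrey

/-!
# S13, block (Lp): the output `LpOut P` from

* `hE0p` : for nodal models at a valuation subring over `p`, the `p`-torsion of `E₀` lies in the
  kernel of reduction (helper27, `NodeRed`: `kˣ` has no `p`-torsion in characteristic `p`);
* `hTop` : if a Galois-stable line exists, not all of `E[p]` lies in the kernel of reduction
  (helper16, `Supersingular` + (D)).
-/

set_option autoImplicit false

namespace Fermat.Agent.S13

open WeierstrassCurve WeierstrassCurve.Affine WeierstrassCurve.Affine.Point Fermat.Agent.S05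
open scoped WeierstrassCurve.Affine

/-- The `p`-torsion points of the Frey curve in the kernel of reduction at `A`, as an additive
subgroup. -/
noncomputable def kerRedAddSubgroup (P : FreyPackage) (A : ValuationSubring Qb)
    (hW : IntegralCoeffs A.valuation (P.freyCurve⁄Qb)) : AddSubgroup (Vp P) where
  carrier := {x | InKer A.valuation (P.freyCurve⁄Qb) (x : (P.freyCurve⁄Qb).Point)}
  zero_mem' := Or.inl rfl
  add_mem' := fun hx hy => inKer_add hW hx hy
  neg_mem' := fun hx => inKer_neg hx

/-- The `p`-torsion points of the Frey curve in the kernel of reduction at `A`. -/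
noncomputable def kerRed (P : FreyPackage) (A : ValuationSubring Qb)
    (hW : IntegralCoeffs A.valuation (P.freyCurve⁄Qb)) : Submodule (ZMod P.p) (Vp P) :=
  AddSubgroup.toZModSubmodule P.p (kerRedAddSubgroup P A hW)

theorem mem_kerRed {P : FreyPackage} {A : ValuationSubring Qb}
    {hW : IntegralCoeffs A.valuation (P.freyCurve⁄Qb)} {x : Vp P} :
    x ∈ kerRed P A hW ↔ InKer A.valuation (P.freyCurve⁄Qb) (x : (P.freyCurve⁄Qb).Point) :=
  Iff.rfl

/-- **Block (Lp)** in hypothesis form. -/
theorem lpOut_of (P : FreyPackage)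
    (hE0p : ∀ A : ValuationSubring Qb, A.LiesOverPrime P.p →
      ∀ (W' : Affine ℚ) (α β : Qb), NodeData A.valuation (W'⁄Qb) α β →
      ∀ R : (W'⁄Qb).Point, InE0 A.valuation (W'⁄Qb) R → P.p • R = 0 →
        InKer A.valuation (W'⁄Qb) R)
    (hTop : ∀ N : Submodule (ZMod P.p) (Vp P), IsGaloisStable ℚ N → N ≠ ⊥ → N ≠ ⊤ →
      ∀ A : ValuationSubring Qb, A.LiesOverPrime P.p →
        ¬ ∀ x : Vp P, InKer A.valuation (P.freyCurve⁄Qb) (x : (P.freyCurve⁄Qb).Point)) :
    LpOut P := by
  intro N hNst hNbot hNtop A hA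
  have hp2 : P.p ≠ 2 := by have := P.hp5; omega
  have hW := LpGlue.frey_integralCoeffs P P.pp hp2 A hA
  refine ⟨kerRed P A hW, ?_, ?_⟩
  · intro h
    apply hTop N hNst hNbot hNtop A hA
    intro x
    have : x ∈ kerRed P A hW := h ▸ Submodule.mem_top
    exact this
  · intro σ hσ x
    rw [mem_kerRed]
    have hx : P.p • (x : (P.freyCurve⁄Qb).Point) = 0 := by
      have := (Submodule.mem_torsionBy_iff _ _).mp x.2
      rwa [natCast_zsmul] at this
    exact LpGlue.frey_sub_inKer P P.pp hp2 A hA hσ (hE0p A hA) hx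

end Fermat.Agent.S13
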