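import Fermat.Agent.S13.LpInertia
import Fermat.Agent.S05.Frey

/-!
# S13, block (Lp): inertia moves `p`-torsion by the kernel of reduction, for rational curves
over `ℚ̄` (Prelude-level Galois action), good or nodal reduction, and transfer of the kernel of
reduction along integral translations.
-/

set_option autoImplicit false

namespace Fermat.Agent.S13.LpGlue

open WeierstrassCurve WeierstrassCurve.Affine Fermat.Agent.S05 Fermat.Agent.S13.NodeComp
open scoped WeierstrassCurve.Affine

local notation "Qbar" => AlgebraicClosure ℚ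

section Abstract

variable {K : Type*} [Field K] {Γ₀ : Type*} [LinearOrderedCommGroupWithZero Γ₀]
variable {v : Valuation K Γ₀} {W : WeierstrassCurve K}

theorem inKer_some_iff {x y : K} (h : W.toAffine.Nonsingular x y) :
    InKer v W (Point.some x y h) ↔ 1 < v x := by
  constructor
  · rintro (h0 | ⟨x', y', h', he, hx⟩)
    · exact absurd h0 (Point.some_ne_zero h)
    · rw [Point.some.injEq] at he
      rw [he.1]; exact hx
  · intro hx
    exact Or.inr ⟨x, y, h, rfl, hx⟩

theorem one_lt_val_sub_iff {x r : K} (hr : v r ≤ 1) : 1 < v (x - r) ↔ 1 < v x := by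
  constructor
  · intro h
    by_contra hx
    push Not at hx
    exact absurd (Valuation.map_sub_le v hx hr) (not_le.mpr h)
  · intro h
    have : v (x - r) = v x := Valuation.map_sub_eq_of_lt_left v (lt_of_le_of_lt hr h)
    rw [this]; exact h

end Abstract

section General

variable (W : Affine ℚ) (A : ValuationSubring Qbar) {σ : Qbar ≃ₐ[ℚ] Qbar}

/-- The kernel of reduction is preserved by translation by an integral rational point. -/
theorem inKer_shiftEquivBC_iff (r t : ℚ) (hr : A.valuation (algebraMap ℚ Qbar r) ≤ 1)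
    (Q : (W⁄Qbar).Point) :
    InKer A.valuation ((shiftCurve W r t)⁄Qbar) (shiftEquivBC (K := Qbar) W r t Q) ↔
      InKer A.valuation (W⁄Qbar) Q := by
  rcases Q with _ | ⟨x, y, h⟩
  · have h0 : (Point.zero : (W⁄Qbar).Point) = 0 := rfl
    rw [h0, shiftEquivBC_zero]
    exact ⟨fun _ => Or.inl rfl, fun _ => Or.inl rfl⟩
  · obtain ⟨h', he⟩ := shiftEquivBC_some (K := Qbar) W r t h
    rw [he, inKer_some_iff, inKer_some_iff, one_lt_val_sub_iff hr]

/-- Good reduction: inertia moves every point by an element of the kernel of reduction. -/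
theorem galois_sub_inKer_of_good (hσ : σ ∈ A.inertiaSubgroupIn ℚ)
    (hW : IntegralCoeffs A.valuation (W⁄Qbar)) (hΔ : A.valuation (W⁄Qbar).Δ = 1)
    (T : (W⁄Qbar).Point) :
    InKer A.valuation (W⁄Qbar) (Point.map σ.toAlgHom T - T) :=
  LpInertia.sub_inKer_of_good hW hΔ (inertiaLike_galois W A hσ) T

/-- Existence of the tangent directions at the node (as in `S05.galois_fix_torsion_of_node`). -/
theorem exists_nodeData (h3 : W.a₃ = 0) (h6 : W.a₆ = 0)
    (h1 : A.valuation (algebraMap ℚ Qbar W.a₁) ≤ 1)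
    (h2 : A.valuation (algebraMap ℚ Qbar W.a₂) ≤ 1)
    (h4lt : A.valuation (algebraMap ℚ Qbar W.a₄) < 1) (h4ne : W.a₄ ≠ 0)
    (hdisc : A.valuation (algebraMap ℚ Qbar (W.a₁ ^ 2 + 4 * W.a₂)) = 1) :
    ∃ α β : Qbar, NodeData A.valuation (W⁄Qbar) α β := by
  set v := A.valuation with hv
  obtain ⟨α, hα⟩ : ∃ α : Qbar, α * α + algebraMap ℚ Qbar W.a₁ * α - algebraMap ℚ Qbar W.a₂ = 0 := by
    have hdeg : (Polynomial.X ^ 2 + Polynomial.C (algebraMap ℚ Qbar W.a₁) * Polynomial.X -
        Polynomial.C (algebraMap ℚ Qbar W.a₂) : Polynomial Qbar).degree ≠ 0 := by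
      have : (Polynomial.X ^ 2 + Polynomial.C (algebraMap ℚ Qbar W.a₁) * Polynomial.X -
          Polynomial.C (algebraMap ℚ Qbar W.a₂) : Polynomial Qbar).degree = 2 := by
        compute_degree!
      rw [this]; norm_num
    obtain ⟨α, hα⟩ := IsAlgClosed.exists_root _ hdeg
    refine ⟨α, ?_⟩
    simpa [Polynomial.IsRoot, pow_two] using hα
  set β : Qbar := -algebraMap ℚ Qbar W.a₁ - α with hβ
  have hsum : α + β = -algebraMap ℚ Qbar W.a₁ := by rw [hβ]; ring
  have hprod : α * β = -algebraMap ℚ Qbar W.a₂ := by rw [hβ]; linear_combination -hα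
  have hsq : (α - β) ^ 2 = algebraMap ℚ Qbar (W.a₁ ^ 2 + 4 * W.a₂) := by
    rw [map_add, map_pow, map_mul, map_ofNat]
    linear_combination (α + β - algebraMap ℚ Qbar W.a₁) * hsum - 4 * hprod
  have hsep : v (α - β) = 1 := by
    have : v (α - β) ^ 2 = 1 ^ 2 := by rw [← map_pow, hsq, hdisc, one_pow]
    exact val_pow_injective two_ne_zero this
  exact ⟨α, β,
    { a₃ := by simp [h3]
      a₆ := by simp [h6]
      a₁ := h1
      a₂ := h2
      a₄_lt := h4lt
      a₄_ne := by simpa using h4ne
      sum := hsum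
      prod := hprod
      sep := hsep }⟩

/-- Nodal reduction: inertia moves every `p`-torsion point by an element of the kernel of
reduction, provided `E₀[p] ⊆ E₁`. -/
theorem galois_sub_inKer_of_node (hσ : σ ∈ A.inertiaSubgroupIn ℚ) {α β : Qbar}
    (hN : NodeData A.valuation (W⁄Qbar) α β) {p : ℕ}
    (hE0p : ∀ R : (W⁄Qbar).Point, InE0 A.valuation (W⁄Qbar) R → p • R = 0 →
      InKer A.valuation (W⁄Qbar) R)
    {T : (W⁄Qbar).Point} (hT : p • T = 0) :
    InKer A.valuation (W⁄Qbar) (Point.map σ.toAlgHom T - T) := by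
  have hf := inertiaLike_galois W A hσ
  have hfix : ∀ x : ℚ, (σ : Qbar →+* Qbar) (algebraMap ℚ Qbar x) = algebraMap ℚ Qbar x :=
    fun x => σ.commutes x
  exact LpInertia.sub_inKer_of_node' hN hf (hfix _) (hfix _) hE0p hT

end General

end Fermat.Agent.S13.LpGlue
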