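import Fermat.Agent.S13.NodeComp
import Fermat.Agent.S05.Good
import Fermat.Agent.S05.Mult

/-!
# S13, block (Lp), abstract part: inertia moves `p`-torsion points by the kernel of reduction

General S05 setting (`K` a field, `v : Valuation K Γ₀`, `W` a Weierstrass curve over `K`,
`(σ, f)` inertia-like).

* `sub_inKer_of_good` : good reduction (`v Δ = 1`): `f T - T` lies in the kernel of reduction for
  **every** point `T` (no torsion hypothesis).
* `sub_inKer_of_node` : nodal reduction (`NodeData`), `σ` fixing the tangent directions: if the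
  `p`-torsion of `E₀` lies in the kernel of reduction (true when the residue characteristic is
  `p`, since `kˣ` has no `p`-torsion), then `f T - T` lies in the kernel of reduction for every
  `p`-torsion point `T`.
-/

set_option autoImplicit false

namespace Fermat.Agent.S13.LpInertia

open WeierstrassCurve WeierstrassCurve.Affine Fermat.Agent.S05 Fermat.Agent.S13.NodeComp

variable {K : Type*} [Field K] [DecidableEq K] {Γ₀ : Type*} [LinearOrderedCommGroupWithZero Γ₀]
variable {v : Valuation K Γ₀} {W : WeierstrassCurve K} {α β : K}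

/-- Good reduction: an inertia-like map moves every point by an element of the kernel of
reduction. -/
theorem sub_inKer_of_good {σ : K →+* K} {f : W.toAffine.Point →+ W.toAffine.Point}
    (hW : IntegralCoeffs v W) (hΔ : v W.Δ = 1) (hf : InertiaLike v W σ f)
    (T : W.toAffine.Point) : InKer v W (f T - T) := by
  rcases T with _ | ⟨x, y, hxy⟩
  · left
    have h0 : (Point.zero : W.toAffine.Point) = 0 := rfl
    rw [h0, map_zero, sub_zero]
  · obtain ⟨h', hfT⟩ := hf.map_some x y hxy
    rw [hfT]
    by_cases hx : v x ≤ 1
    · have hy : v y ≤ 1 := y_integral hW hxy.1 hx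
      exact sub_inKer_of_congr hW hxy h' hx hy (hf.sub_lt x hx) (hf.sub_lt y hy)
        (partial_unit_of_disc_unit hW hΔ hxy.1 hx hy)
    · push Not at hx
      rw [sub_eq_add_neg]
      apply inKer_add hW
      · right; exact ⟨_, _, h', rfl, by rw [hf.val_eq]; exact hx⟩
      · apply inKer_neg
        right; exact ⟨_, _, hxy, rfl, hx⟩

/-- Nodal reduction: an inertia-like map fixing the tangent directions moves every `p`-torsion
point by an element of the kernel of reduction, provided `E₀[p] ⊆ E₁`. -/
theorem sub_inKer_of_node [IsAlgClosed K] {σ : K →+* K}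
    {f : W.toAffine.Point →+ W.toAffine.Point}
    (hN : NodeData v W α β) (hf : InertiaLike v W σ f) (hα : σ α = α) (hβ : σ β = β) {p : ℕ}
    (hE0p : ∀ R : W.toAffine.Point, InE0 v W R → p • R = 0 → InKer v W R)
    {T : W.toAffine.Point} (hT : p • T = 0) : InKer v W (f T - T) := by
  have h1 : comp hN (f T - T) = 0 := by
    rw [map_sub, comp_map_of_fix hN hf.val_eq hf.map_some hα hβ T, sub_self]
  have h2 : InE0 v W (f T - T) := (comp_eq_zero_iff hN _).mp h1
  have h3 : p • (f T - T) = 0 := by
    rw [smul_sub, ← map_nsmul, hT, map_zero, sub_zero]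
  exact hE0p _ h2 h3

/-- Variant of `sub_inKer_of_node` for `σ` fixing `a₁` and `a₂`. -/
theorem sub_inKer_of_node' [IsAlgClosed K] {σ : K →+* K}
    {f : W.toAffine.Point →+ W.toAffine.Point}
    (hN : NodeData v W α β) (hf : InertiaLike v W σ f) (h1 : σ W.a₁ = W.a₁) (h2 : σ W.a₂ = W.a₂)
    {p : ℕ} (hE0p : ∀ R : W.toAffine.Point, InE0 v W R → p • R = 0 → InKer v W R)
    {T : W.toAffine.Point} (hT : p • T = 0) : InKer v W (f T - T) :=
  sub_inKer_of_node hN hf (fp_sigma_alpha hN hf h1 h2)
    (fp_sigma_alpha (NodeData.symm hN) hf h1 h2) hE0p hT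

end Fermat.Agent.S13.LpInertia
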