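/-
Block (D): the pull-back lemma.  For an ARBITRARY Weierstrass curve over an ARBITRARY commutative
ring `R`, the map `R[X] → R[W]`, `p ↦ mk W (C p)`, is injective (the coordinate ring is free over
`R[X]` with basis `{1, Y}`).  Hence an identity between images `mk W (C p) = mk W (C q)` in the
coordinate ring pulls back to `p = q` in `R[X]`.
-/
import Mathlib

set_option autoImplicit false

open Polynomial

open scoped Polynomial.Bivariate

namespace Fermat.Agent.S13

variable {R : Type*} [CommRing R]

open WeierstrassCurve.Affine.CoordinateRing in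
/-- `mk W (C p) = 0` in the coordinate ring forces `p = 0` (any commutative ring). -/
theorem eq_zero_of_mk_C_eq_zero (W : WeierstrassCurve R) {p : R[X]}
    (h : mk W.toAffine (C p) = 0) : p = 0 := by
  have h' : p • (1 : W.toAffine.CoordinateRing) + (0 : R[X]) • mk W.toAffine Y = 0 := by
    rw [zero_smul, add_zero, smul, mul_one, h]
  exact (smul_basis_eq_zero h').1

open WeierstrassCurve.Affine.CoordinateRing in
/-- **Pull-back lemma**: `p ↦ mk W (C p)` is injective `R[X] → R[W]`, for every Weierstrass curve
over every commutative ring. -/
theorem mk_C_injective (W : WeierstrassCurve R) :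
    Function.Injective
      (fun p : R[X] => WeierstrassCurve.Affine.CoordinateRing.mk W.toAffine (Polynomial.C p)) := by
  intro p q hpq
  have h : mk W.toAffine (C (p - q)) = 0 := by
    have hpq' : mk W.toAffine (C p) = mk W.toAffine (C q) := hpq
    rw [C_sub, map_sub, hpq', sub_self]
  exact sub_eq_zero.mp (eq_zero_of_mk_C_eq_zero W h)

open WeierstrassCurve.Affine.CoordinateRing in
/-- Usable form: an identity of images in the coordinate ring is an identity in `R[X]`. -/
theorem eq_of_mk_C_eq (W : WeierstrassCurve R) {p q : R[X]}
    (h : mk W.toAffine (C p) = mk W.toAffine (C q)) : p = q :=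
  mk_C_injective W h

open WeierstrassCurve.Affine.CoordinateRing in
/-- `mk W (C p) = mk W (C q) ↔ p = q`. -/
theorem mk_C_eq_iff (W : WeierstrassCurve R) {p q : R[X]} :
    mk W.toAffine (C p) = mk W.toAffine (C q) ↔ p = q :=
  ⟨eq_of_mk_C_eq W, fun h => by rw [h]⟩


end Fermat.Agent.S13
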