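import Fermat.Agent.S05.Node
import Fermat.Agent.S05.Comp
import Fermat.Agent.S05.Kernel

/-!
# S13 (C2-r): the reduction character on `E₀` for a curve with a node

General S05 setting: `K` a field with a valuation `v`, `W : y² + a₁xy = x³ + a₂x² + a₄x` a curve
with `NodeData v W α β` (the reduction has a node at `(0,0)` with tangent directions `α, β`).

For an affine point `P = (x, y)` put `nodeU α β P = (y - αx) / (y - βx)` (and `nodeU α β 0 = 1`).
On `E₀ = {P | InE0 v W P}` (the points not reducing to the node) this is a unit, it is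
multiplicative modulo the maximal ideal, and it is congruent to `1` exactly on the kernel of
reduction `E₁ = {P | InKer v W P}`.
-/

set_option autoImplicit false

namespace Fermat.Agent.S13.NodeRed

open WeierstrassCurve WeierstrassCurve.Affine Fermat.Agent.S05

variable {K : Type*} [Field K] {Γ₀ : Type*} [LinearOrderedCommGroupWithZero Γ₀]
variable {v : Valuation K Γ₀} {W : WeierstrassCurve K} {α β : K}

/-! ### Small facts on linearly ordered groups with zero -/

theorem sq_lt_sq_of_lt {a b : Γ₀} (h : a < b) : a * a < b * b :=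
  mul_lt_mul'' h h zero_le zero_le

theorem le_of_mul_self_le' {a b : Γ₀} (h : a * a ≤ b * b) : a ≤ b := by
  by_contra hlt
  push Not at hlt
  exact absurd h (not_le.mpr (sq_lt_sq_of_lt hlt))

theorem eq_of_mul_self_eq' {a b : Γ₀} (h : a * a = b * b) : a = b :=
  le_antisymm (le_of_mul_self_le' h.le) (le_of_mul_self_le' h.ge)

/-! ### The valuation of `x` when the intercept is small -/

/-- If `ξ = y - αx = A x + c` at a point with `1 ≤ v x` and `v c < v A` then `v x = (v A)²`. -/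
theorem val_x_eq_of_intercept_lt (hN : NodeData v W α β) {x y A c : K}
    (h : W.toAffine.Equation x y) (hx : 1 ≤ v x) (hξ : y - α * x = A * x + c)
    (hc : v c < v A) : v x = v A * v A := by
  have hxpos : 0 < v x := lt_of_lt_of_le zero_lt_one hx
  have hApos : 0 < v A := lt_of_le_of_lt zero_le hc
  obtain ⟨h1, h2⟩ := val_ξ_η_of_one_le hN h hx
  have hlt : v c < v (A * x) := by
    rw [map_mul]
    calc v c < v A := hc
      _ = v A * 1 := (mul_one _).symm
      _ ≤ v A * v x := mul_le_mul' le_rfl hx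
  have hvξ : v (y - α * x) = v A * v x := by
    rw [hξ, Valuation.map_add_eq_of_lt_left v hlt, map_mul]
  rw [← h1, hvξ] at h2
  have h3 : (v A * v A) * (v x * v x) = v x * (v x * v x) := by
    rw [← mul_assoc (v x), ← h2]; ac_rfl
  exact (mul_right_cancel₀ (mul_pos hxpos hxpos).ne' h3).symm

/-! ### Three collinear points, two of them in `E₀` -/

/-- Valuation estimates for three collinear points `Pᵢ = (xᵢ, yᵢ)` on the line `y = ℓ x + c`,
with `P₁, P₂ ∈ E₀`, in the case `v (ℓ - β) ≤ v (ℓ - α)`. -/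
theorem collinear_aux (hN : NodeData v W α β) {x₁ y₁ x₂ y₂ x₃ ℓ c : K}
    (h₁ : W.toAffine.Equation x₁ y₁) (h₂ : W.toAffine.Equation x₂ y₂)
    (hx₁ : 1 ≤ v x₁) (hx₂ : 1 ≤ v x₂)
    (hy₁ : y₁ = ℓ * x₁ + c) (hy₂ : y₂ = ℓ * x₂ + c)
    (e2 : x₁ * x₂ + x₁ * x₃ + x₂ * x₃ = W.a₄ - c * ((ℓ - α) + (ℓ - β)))
    (e3 : x₁ * x₂ * x₃ = c ^ 2)
    (hle : v (ℓ - β) ≤ v (ℓ - α)) :
    1 ≤ v x₃ ∧ v W.a₄ * (v (ℓ - α) * v (ℓ - α)) < v c * v c := by
  set A := ℓ - α with hA
  set B := ℓ - β with hB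
  have hAB : v (A - B) = 1 := by
    have : A - B = -(α - β) := by rw [hA, hB]; ring
    rw [this, Valuation.map_neg, hN.sep]
  have ha1 : 1 ≤ v A := by
    rw [← hAB]
    exact Valuation.map_sub_le v le_rfl hle
  have hapos : 0 < v A := lt_of_lt_of_le zero_lt_one ha1
  have haa1 : 1 ≤ v A * v A := by
    calc (1 : Γ₀) = 1 * 1 := (one_mul _).symm
      _ ≤ v A * v A := mul_le_mul' ha1 ha1
  have haapos : 0 < v A * v A := mul_pos hapos hapos
  have haaaa : v A * v A ≤ (v A * v A) * (v A * v A) := by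
    calc v A * v A = 1 * (v A * v A) := (one_mul _).symm
      _ ≤ (v A * v A) * (v A * v A) := mul_le_mul' haa1 le_rfl
  have hX₁pos : 0 < v x₁ := lt_of_lt_of_le zero_lt_one hx₁
  have hX₂pos : 0 < v x₂ := lt_of_lt_of_le zero_lt_one hx₂
  have hξ₁ : y₁ - α * x₁ = A * x₁ + c := by rw [hy₁, hA]; ring
  have hξ₂ : y₂ - α * x₂ = A * x₂ + c := by rw [hy₂, hA]; ring
  have key : v c < v A → v x₁ = v A * v A ∧ v x₂ = v A * v A := fun hc =>
    ⟨val_x_eq_of_intercept_lt hN h₁ hx₁ hξ₁ hc, val_x_eq_of_intercept_lt hN h₂ hx₂ hξ₂ hc⟩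
  have hsum : v (A + B) ≤ v A := Valuation.map_add_le v le_rfl hle
  have hE3 : v x₁ * v x₂ * v x₃ = v c * v c := by
    have := congrArg v e3
    rwa [map_mul, map_mul, map_pow, pow_two] at this
  -- rewrite `e2` as an expression for `x₁ x₂`
  have e2' : x₁ * x₂ = W.a₄ - c * (A + B) - x₁ * x₃ - x₂ * x₃ := by
    linear_combination e2
  -- if all the other terms are small, so is `x₁ x₂`
  have bound : ∀ g : Γ₀, v W.a₄ < g → v c * v A < g → v x₁ * v x₃ < g → v x₂ * v x₃ < g →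
      v x₁ * v x₂ < g := by
    intro g h1 h2 h3 h4
    rw [← map_mul, e2']
    refine Valuation.map_sub_lt v (Valuation.map_sub_lt v (Valuation.map_sub_lt v h1 ?_) ?_) ?_
    · rw [map_mul]
      exact lt_of_le_of_lt (mul_le_mul' le_rfl hsum) h2
    · rw [map_mul]; exact h3
    · rw [map_mul]; exact h4
  -- Step 1
  have step1 : v W.a₄ * (v A * v A) < v c * v c := by
    by_contra hcon
    push Not at hcon
    have hca : v c < v A := by
      by_contra hle'
      push Not at hle'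
      have h1 : v A * v A ≤ v W.a₄ * (v A * v A) := (mul_le_mul' hle' hle').trans hcon
      have h2 : v W.a₄ * (v A * v A) < 1 * (v A * v A) :=
        mul_lt_mul_of_pos_right hN.a₄_lt haapos
      rw [one_mul] at h2
      exact absurd h1 (not_le.mpr h2)
    obtain ⟨hX₁, hX₂⟩ := key hca
    rw [hX₁, hX₂] at hE3
    have h3 : (v A * v A) * v x₃ ≤ v W.a₄ := by
      have : (v A * v A) * ((v A * v A) * v x₃) ≤ (v A * v A) * v W.a₄ := by
        calc (v A * v A) * ((v A * v A) * v x₃) = v A * v A * (v A * v A) * v x₃ := by ac_rfl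
          _ = v c * v c := hE3
          _ ≤ v W.a₄ * (v A * v A) := hcon
          _ = (v A * v A) * v W.a₄ := mul_comm _ _
      exact le_of_mul_le_mul_left this haapos
    have h4 : (v A * v A) * v x₃ < (v A * v A) * (v A * v A) :=
      lt_of_le_of_lt h3 (lt_of_lt_of_le hN.a₄_lt (haa1.trans haaaa))
    have := bound ((v A * v A) * (v A * v A)) (lt_of_lt_of_le hN.a₄_lt (haa1.trans haaaa))
      (lt_of_lt_of_le (mul_lt_mul_of_pos_right hca hapos) haaaa)
      (by rw [hX₁]; exact h4) (by rw [hX₂]; exact h4)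
    rw [hX₁, hX₂] at this
    exact lt_irrefl _ this
  refine ⟨?_, step1⟩
  -- Step 2
  by_contra hcon
  push Not at hcon
  have hXXpos : 0 < v x₁ * v x₂ := mul_pos hX₁pos hX₂pos
  have hXX1 : 1 ≤ v x₁ * v x₂ := by
    calc (1 : Γ₀) = 1 * 1 := (one_mul _).symm
      _ ≤ v x₁ * v x₂ := mul_le_mul' hx₁ hx₂
  have h13 : v x₁ * v x₃ < v x₁ * v x₂ :=
    mul_lt_mul_of_pos_left (lt_of_lt_of_le hcon hx₂) hX₁pos
  have h23 : v x₂ * v x₃ < v x₁ * v x₂ := by
    rw [mul_comm (v x₁)]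
    exact mul_lt_mul_of_pos_left (lt_of_lt_of_le hcon hx₁) hX₂pos
  have hXXle : v x₁ * v x₂ ≤ v c * v A := by
    by_contra hlt
    push Not at hlt
    exact lt_irrefl _ (bound _ (lt_of_lt_of_le hN.a₄_lt hXX1) hlt h13 h23)
  have hcc : v c * v c < v c * v A := by
    calc v c * v c = v x₁ * v x₂ * v x₃ := hE3.symm
      _ < v x₁ * v x₂ * 1 := mul_lt_mul_of_pos_left hcon hXXpos
      _ = v x₁ * v x₂ := mul_one _
      _ ≤ v c * v A := hXXle
  have hca : v c < v A := lt_of_mul_lt_mul_left hcc zero_le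
  obtain ⟨hX₁, hX₂⟩ := key hca
  rw [hX₁, hX₂] at hXXle
  have h5 : (v A * v A) * (v A * v A) < (v A * v A) * 1 := by
    calc (v A * v A) * (v A * v A) ≤ v c * v A := hXXle
      _ < v A * v A := mul_lt_mul_of_pos_right hca hapos
      _ = (v A * v A) * 1 := (mul_one _).symm
  have h6 : v A * v A < 1 := lt_of_mul_lt_mul_left h5 zero_le
  exact absurd haa1 (not_le.mpr h6)

/-- Valuation estimates for three collinear points `Pᵢ = (xᵢ, yᵢ)` on the line `y = ℓ x + c`,
with `P₁, P₂ ∈ E₀`: the third point is in `E₀` too, and `a₄ (ℓ - α)²`, `a₄ (ℓ - β)²` are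
negligible with respect to `c²`. -/
theorem collinear_val (hN : NodeData v W α β) {x₁ y₁ x₂ y₂ x₃ ℓ c : K}
    (h₁ : W.toAffine.Equation x₁ y₁) (h₂ : W.toAffine.Equation x₂ y₂)
    (hx₁ : 1 ≤ v x₁) (hx₂ : 1 ≤ v x₂)
    (hy₁ : y₁ = ℓ * x₁ + c) (hy₂ : y₂ = ℓ * x₂ + c)
    (e2 : x₁ * x₂ + x₁ * x₃ + x₂ * x₃ = W.a₄ - c * ((ℓ - α) + (ℓ - β)))
    (e3 : x₁ * x₂ * x₃ = c ^ 2) :
    1 ≤ v x₃ ∧ v W.a₄ * (v (ℓ - α) * v (ℓ - α)) < v c * v c ∧
      v W.a₄ * (v (ℓ - β) * v (ℓ - β)) < v c * v c := by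
  rcases le_total (v (ℓ - β)) (v (ℓ - α)) with hle | hle
  · obtain ⟨h1, h2⟩ := collinear_aux hN h₁ h₂ hx₁ hx₂ hy₁ hy₂ e2 e3 hle
    refine ⟨h1, h2, lt_of_le_of_lt ?_ h2⟩
    exact mul_le_mul' le_rfl (mul_le_mul' hle hle)
  · have e2' : x₁ * x₂ + x₁ * x₃ + x₂ * x₃ = W.a₄ - c * ((ℓ - β) + (ℓ - α)) := by
      rw [e2]; ring
    obtain ⟨h1, h2⟩ := collinear_aux hN.symm h₁ h₂ hx₁ hx₂ hy₁ hy₂ e2' e3 hle
    refine ⟨h1, lt_of_le_of_lt ?_ h2, h2⟩
    exact mul_le_mul' le_rfl (mul_le_mul' hle hle)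

/-- Three collinear points, two of them in `E₀`: the third one is in `E₀` and the product of the
three values of `ξ / η` is congruent to `1`. -/
theorem collinear_main (hN : NodeData v W α β) {x₁ y₁ x₂ y₂ x₃ y₃ ℓ c : K}
    (h₁ : W.toAffine.Equation x₁ y₁) (h₂ : W.toAffine.Equation x₂ y₂)
    (hx₁ : 1 ≤ v x₁) (hx₂ : 1 ≤ v x₂)
    (hy₁ : y₁ = ℓ * x₁ + c) (hy₂ : y₂ = ℓ * x₂ + c) (hy₃ : y₃ = ℓ * x₃ + c)
    (e1 : x₁ + x₂ + x₃ = ℓ ^ 2 + W.a₁ * ℓ - W.a₂)
    (e2 : x₁ * x₂ + x₁ * x₃ + x₂ * x₃ = W.a₄ - 2 * ℓ * c - W.a₁ * c - W.a₃ * ℓ)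
    (e3 : x₁ * x₂ * x₃ = c ^ 2 + W.a₃ * c - W.a₆) :
    1 ≤ v x₃ ∧
      v ((y₁ - α * x₁) / (y₁ - β * x₁) * ((y₂ - α * x₂) / (y₂ - β * x₂)) *
        ((y₃ - α * x₃) / (y₃ - β * x₃)) - 1) < 1 := by
  have hs1 := hN.sum
  have hs2 := hN.prod
  have ea₁ : W.a₁ = -(α + β) := by rw [hs1]; ring
  have ea₂ : W.a₂ = -(α * β) := by rw [hs2]; ring
  rw [ea₁, ea₂] at e1
  rw [ea₁, hN.a₃] at e2
  rw [hN.a₃, hN.a₆] at e3
  have E1 : x₁ + x₂ + x₃ = (ℓ - α) * (ℓ - β) := by rw [e1]; ring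
  have E2 : x₁ * x₂ + x₁ * x₃ + x₂ * x₃ = W.a₄ - c * ((ℓ - α) + (ℓ - β)) := by rw [e2]; ring
  have E3 : x₁ * x₂ * x₃ = c ^ 2 := by rw [e3]; ring
  obtain ⟨hx₃, hA, hB⟩ := collinear_val hN h₁ h₂ hx₁ hx₂ hy₁ hy₂ E2 E3
  refine ⟨hx₃, ?_⟩
  set A := ℓ - α with hAdef
  set B := ℓ - β with hBdef
  have hξ₁ : y₁ - α * x₁ = A * x₁ + c := by rw [hy₁, hAdef]; ring
  have hξ₂ : y₂ - α * x₂ = A * x₂ + c := by rw [hy₂, hAdef]; ring
  have hξ₃ : y₃ - α * x₃ = A * x₃ + c := by rw [hy₃, hAdef]; ring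
  have hη₁ : y₁ - β * x₁ = B * x₁ + c := by rw [hy₁, hBdef]; ring
  have hη₂ : y₂ - β * x₂ = B * x₂ + c := by rw [hy₂, hBdef]; ring
  have hη₃ : y₃ - β * x₃ = B * x₃ + c := by rw [hy₃, hBdef]; ring
  have hPξ : (y₁ - α * x₁) * (y₂ - α * x₂) * (y₃ - α * x₃) = c * (c ^ 2 + W.a₄ * A ^ 2) := by
    rw [hξ₁, hξ₂, hξ₃]
    linear_combination (A ^ 3) * E3 + (A ^ 2 * c) * E2 + (A * c ^ 2) * E1
  have hPη : (y₁ - β * x₁) * (y₂ - β * x₂) * (y₃ - β * x₃) = c * (c ^ 2 + W.a₄ * B ^ 2) := by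
    rw [hη₁, hη₂, hη₃]
    linear_combination (B ^ 3) * E3 + (B ^ 2 * c) * E2 + (B * c ^ 2) * E1
  have hccpos : 0 < v c * v c := lt_of_le_of_lt zero_le hA
  have hcpos : 0 < v c := by
    rcases eq_or_ne (v c) 0 with h0 | h0
    · rw [h0, mul_zero] at hccpos; exact absurd hccpos (lt_irrefl _)
    · exact zero_lt_iff.mpr h0
  have hvA : v (W.a₄ * A ^ 2) < v (c ^ 2) := by
    rw [map_mul, map_pow, map_pow, pow_two, pow_two]; exact hA
  have hvB : v (W.a₄ * B ^ 2) < v (c ^ 2) := by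
    rw [map_mul, map_pow, map_pow, pow_two, pow_two]; exact hB
  have hden : v (c ^ 2 + W.a₄ * B ^ 2) = v c * v c := by
    rw [Valuation.map_add_eq_of_lt_left v hvB, map_pow, pow_two]
  have hPηval : v ((y₁ - β * x₁) * (y₂ - β * x₂) * (y₃ - β * x₃)) = v c * (v c * v c) := by
    rw [hPη, map_mul, hden]
  have hPηpos : 0 < v ((y₁ - β * x₁) * (y₂ - β * x₂) * (y₃ - β * x₃)) := by
    rw [hPηval]; exact mul_pos hcpos hccpos
  have hPηne : (y₁ - β * x₁) * (y₂ - β * x₂) * (y₃ - β * x₃) ≠ 0 :=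
    (Valuation.ne_zero_iff v).mp hPηpos.ne'
  have hne₁ : y₁ - β * x₁ ≠ 0 := fun h => hPηne (by rw [h]; ring)
  have hne₂ : y₂ - β * x₂ ≠ 0 := fun h => hPηne (by rw [h]; ring)
  have hne₃ : y₃ - β * x₃ ≠ 0 := fun h => hPηne (by rw [h]; ring)
  have e : (y₁ - α * x₁) / (y₁ - β * x₁) * ((y₂ - α * x₂) / (y₂ - β * x₂)) *
        ((y₃ - α * x₃) / (y₃ - β * x₃)) - 1 =
      ((y₁ - α * x₁) * (y₂ - α * x₂) * (y₃ - α * x₃) -
        (y₁ - β * x₁) * (y₂ - β * x₂) * (y₃ - β * x₃)) /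
        ((y₁ - β * x₁) * (y₂ - β * x₂) * (y₃ - β * x₃)) := by
    rw [div_mul_div_comm, div_mul_div_comm, div_sub_one hPηne]
  rw [e, map_div₀, div_lt_one₀ hPηpos, hPηval, hPξ, hPη]
  have e' : c * (c ^ 2 + W.a₄ * A ^ 2) - c * (c ^ 2 + W.a₄ * B ^ 2) =
      c * (W.a₄ * A ^ 2 - W.a₄ * B ^ 2) := by ring
  rw [e', map_mul]
  apply mul_lt_mul_of_pos_left _ hcpos
  have h := Valuation.map_sub_lt v hvA hvB
  rw [map_pow] at h
  rw [← pow_two]
  exact h

/-! ### The reduction character -/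

/-- The reduction character: `(y - αx) / (y - βx)` at an affine point `(x, y)`, and `1` at the
point at infinity. -/
noncomputable def nodeU (α β : K) : W.toAffine.Point → K
  | .zero => 1
  | .some x y _ => (y - α * x) / (y - β * x)

theorem nodeU_zero : nodeU α β (0 : W.toAffine.Point) = 1 := rfl

theorem nodeU_some {x y : K} (h : W.toAffine.Nonsingular x y) :
    nodeU α β (Point.some x y h) = (y - α * x) / (y - β * x) := rfl

/-- `nodeU` of the opposite point (exact). -/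
theorem nodeU_neg (hN : NodeData v W α β) (P : W.toAffine.Point) :
    nodeU α β (-P) = (nodeU α β P)⁻¹ := by
  rcases P with _ | ⟨x, y, h⟩
  · have h0 : (Point.zero : W.toAffine.Point) = 0 := rfl
    rw [h0, Point.neg_zero, nodeU_zero, inv_one]
  · rw [Point.neg_some, nodeU_some, nodeU_some, hN.negY_sub, hN.symm.negY_sub, neg_div_neg_eq,
      inv_div]

/-- swapping the two tangent directions inverts `nodeU` -/
theorem nodeU_swap (P : W.toAffine.Point) : nodeU β α P = (nodeU α β P)⁻¹ := by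
  rcases P with _ | ⟨x, y, h⟩
  · have h0 : (Point.zero : W.toAffine.Point) = 0 := rfl
    rw [h0, nodeU_zero, nodeU_zero, inv_one]
  · rw [nodeU_some, nodeU_some, inv_div]

/-- On `E₀` the reduction character is a unit. -/
theorem val_nodeU (hN : NodeData v W α β) {P : W.toAffine.Point} (hP : InE0 v W P) :
    v (nodeU α β P) = 1 := by
  rcases hP with rfl | ⟨x, y, h, rfl, hx⟩
  · rw [nodeU_zero, map_one]
  · obtain ⟨h1, h2⟩ := val_ξ_η_of_one_le hN h.1 hx
    have hxpos : 0 < v x := lt_of_lt_of_le zero_lt_one hx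
    have hpos : 0 < v (y - α * x) * v (y - β * x) := by
      rw [h2]; exact mul_pos (mul_pos hxpos hxpos) hxpos
    have hη : v (y - β * x) ≠ 0 := fun h0 => by rw [h0, mul_zero] at hpos; exact lt_irrefl _ hpos
    rw [nodeU_some, map_div₀, h1, div_self hη]

theorem nodeU_ne_zero (hN : NodeData v W α β) {P : W.toAffine.Point} (hP : InE0 v W P) :
    nodeU α β P ≠ 0 := by
  intro h0
  have := val_nodeU hN hP
  rw [h0, map_zero] at this
  exact zero_ne_one this

/-- At an affine point of `E₀`, `nodeU ≡ 1` iff the point is in the kernel of reduction. -/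
theorem val_nodeU_sub_one_lt_iff (hN : NodeData v W α β) {x y : K}
    (h : W.toAffine.Nonsingular x y) (hx : 1 ≤ v x) :
    v (nodeU α β (Point.some x y h) - 1) < 1 ↔ 1 < v x := by
  obtain ⟨h1, h2⟩ := val_ξ_η_of_one_le hN h.1 hx
  have hxpos : 0 < v x := lt_of_lt_of_le zero_lt_one hx
  rw [h1] at h2
  have hηpos : 0 < v (y - β * x) := by
    rcases eq_or_ne (v (y - β * x)) 0 with h0 | h0
    · rw [h0, mul_zero] at h2
      exact absurd h2.symm (mul_pos (mul_pos hxpos hxpos) hxpos).ne'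
    · exact zero_lt_iff.mpr h0
  have hη0 : y - β * x ≠ 0 := (Valuation.ne_zero_iff v).mp hηpos.ne'
  have e : (y - α * x) / (y - β * x) - 1 = -((α - β) * x) / (y - β * x) := by
    rw [div_sub_one hη0]; congr 1; ring
  rw [nodeU_some, e, map_div₀, Valuation.map_neg, map_mul, hN.sep, one_mul, div_lt_one₀ hηpos]
  constructor
  · intro hlt
    have h3 : v x * v x < v (y - β * x) * v (y - β * x) := sq_lt_sq_of_lt hlt
    rw [h2] at h3
    have h4 : (v x * v x) * 1 < (v x * v x) * v x := by rwa [mul_one]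
    exact lt_of_mul_lt_mul_left h4 zero_le
  · intro hlt
    apply lt_of_mul_self_lt
    rw [h2]
    calc v x * v x = (v x * v x) * 1 := (mul_one _).symm
      _ < v x * v x * v x := mul_lt_mul_of_pos_left hlt (mul_pos hxpos hxpos)

/-- **The kernel of the reduction character is the kernel of reduction.** -/
theorem inKer_iff_val_nodeU_sub_one_lt (hN : NodeData v W α β) {P : W.toAffine.Point}
    (hP : InE0 v W P) : InKer v W P ↔ v (nodeU α β P - 1) < 1 := by
  rcases hP with rfl | ⟨x, y, h, rfl, hx⟩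
  · rw [nodeU_zero, sub_self, map_zero]
    exact ⟨fun _ => zero_lt_one, fun _ => Or.inl rfl⟩
  · rw [val_nodeU_sub_one_lt_iff hN h hx]
    constructor
    · rintro (h0 | ⟨x', y', h', heq, hx'⟩)
      · exact absurd h0 (Point.some_ne_zero h)
      · rw [Point.some.injEq] at heq
        rw [heq.1]; exact hx'
    · intro hlt
      exact Or.inr ⟨x, y, h, rfl, hlt⟩

theorem inE0_of_inKer {P : W.toAffine.Point} (hP : InKer v W P) : InE0 v W P := by
  rcases hP with rfl | ⟨x, y, h, rfl, hx⟩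
  · exact Or.inl rfl
  · exact Or.inr ⟨x, y, h, rfl, hx.le⟩

end Fermat.Agent.S13.NodeRed

namespace Fermat.Agent.S13.NodeRed

open WeierstrassCurve WeierstrassCurve.Affine Fermat.Agent.S05

variable {K : Type*} [Field K] [DecidableEq K] {Γ₀ : Type*} [LinearOrderedCommGroupWithZero Γ₀]
variable {v : Valuation K Γ₀} {W : WeierstrassCurve K} {α β : K}

/-! ### Multiplicativity modulo the maximal ideal -/

/-- `E₀` is stable under addition and the reduction character is multiplicative modulo the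
maximal ideal. -/
theorem add_aux (hN : NodeData v W α β) {P Q : W.toAffine.Point} (hP : InE0 v W P)
    (hQ : InE0 v W Q) :
    InE0 v W (P + Q) ∧ v (nodeU α β (P + Q) - nodeU α β P * nodeU α β Q) < 1 := by
  rcases hP with rfl | ⟨x₁, y₁, h₁, rfl, hx₁⟩
  · rw [zero_add, nodeU_zero, one_mul, sub_self, map_zero]
    exact ⟨hQ, zero_lt_one⟩
  rcases hQ with rfl | ⟨x₂, y₂, h₂, rfl, hx₂⟩
  · rw [add_zero, nodeU_zero, mul_one, sub_self, map_zero]
    exact ⟨Or.inr ⟨x₁, y₁, h₁, rfl, hx₁⟩, zero_lt_one⟩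
  have hP : InE0 v W (Point.some x₁ y₁ h₁) := Or.inr ⟨x₁, y₁, h₁, rfl, hx₁⟩
  by_cases hsum : Point.some x₁ y₁ h₁ + Point.some x₂ y₂ h₂ = 0
  · refine ⟨Or.inl hsum, ?_⟩
    have hneg : Point.some x₂ y₂ h₂ = -Point.some x₁ y₁ h₁ :=
      (neg_eq_of_add_eq_zero_right hsum).symm
    rw [hsum, hneg, nodeU_neg hN, nodeU_zero, mul_inv_cancel₀ (nodeU_ne_zero hN hP), sub_self,
      map_zero]
    exact zero_lt_one
  · obtain ⟨x₃, y₃, h₃, hP₃⟩ : ∃ x₃ y₃ h₃,
        -(Point.some x₁ y₁ h₁ + Point.some x₂ y₂ h₂) = Point.some x₃ y₃ h₃ := by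
      cases hq : -(Point.some x₁ y₁ h₁ + Point.some x₂ y₂ h₂) with
      | zero => exact absurd (neg_eq_zero.mp hq) hsum
      | some x y h => exact ⟨x, y, h, rfl⟩
    have hsum0 : Point.some x₁ y₁ h₁ + Point.some x₂ y₂ h₂ + Point.some x₃ y₃ h₃ = 0 := by
      rw [← hP₃]; exact add_neg_cancel _
    obtain ⟨ℓ, c, hy₁, hy₂, hy₃, e1, e2, e3⟩ :=
      Kernel.exists_line_of_add_add_eq_zero W.toAffine hsum0
    obtain ⟨hx₃, hmain⟩ := collinear_main (α := α) (β := β) hN h₁.1 h₂.1 hx₁ hx₂ hy₁ hy₂ hy₃ e1 e2 e3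
    have hPQ : Point.some x₁ y₁ h₁ + Point.some x₂ y₂ h₂ = -Point.some x₃ y₃ h₃ := by
      rw [← hP₃, neg_neg]
    have hE0 : InE0 v W (Point.some x₁ y₁ h₁ + Point.some x₂ y₂ h₂) := by
      rw [hPQ, Point.neg_some]
      exact Or.inr ⟨_, _, _, rfl, hx₃⟩
    refine ⟨hE0, ?_⟩
    set U := nodeU α β (Point.some x₁ y₁ h₁ + Point.some x₂ y₂ h₂) with hU
    have hUval : v U = 1 := val_nodeU hN hE0
    have hU0 : U ≠ 0 := nodeU_ne_zero hN hE0
    have hu₃ : (y₃ - α * x₃) / (y₃ - β * x₃) = U⁻¹ := by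
      rw [hU, ← nodeU_neg hN, hP₃, nodeU_some]
    rw [hu₃] at hmain
    rw [nodeU_some, nodeU_some]
    have e : U - (y₁ - α * x₁) / (y₁ - β * x₁) * ((y₂ - α * x₂) / (y₂ - β * x₂)) =
        -(U * ((y₁ - α * x₁) / (y₁ - β * x₁) * ((y₂ - α * x₂) / (y₂ - β * x₂)) * U⁻¹ - 1)) := by
      field_simp
      ring
    rw [e, Valuation.map_neg, map_mul, hUval, one_mul]
    exact hmain

theorem inE0_add (hN : NodeData v W α β) {P Q : W.toAffine.Point} (hP : InE0 v W P)
    (hQ : InE0 v W Q) : InE0 v W (P + Q) :=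
  (add_aux hN hP hQ).1

/-- **Multiplicativity of the reduction character modulo the maximal ideal.** -/
theorem val_nodeU_add_sub_lt (hN : NodeData v W α β) {P Q : W.toAffine.Point} (hP : InE0 v W P)
    (hQ : InE0 v W Q) : v (nodeU α β (P + Q) - nodeU α β P * nodeU α β Q) < 1 :=
  (add_aux hN hP hQ).2

/-! ### Multiples, differences -/

theorem inE0_nsmul (hN : NodeData v W α β) {P : W.toAffine.Point} (hP : InE0 v W P) (n : ℕ) :
    InE0 v W (n • P) := by
  induction n with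
  | zero => rw [zero_smul]; exact Or.inl rfl
  | succ n ih => rw [succ_nsmul]; exact inE0_add hN ih hP

theorem inE0_sub (hN : NodeData v W α β) {P Q : W.toAffine.Point} (hP : InE0 v W P)
    (hQ : InE0 v W Q) : InE0 v W (P - Q) := by
  rw [sub_eq_add_neg]; exact inE0_add hN hP (inE0_neg hQ)

/-- `nodeU (n • P) ≡ (nodeU P) ^ n`. -/
theorem val_nodeU_nsmul_sub_lt (hN : NodeData v W α β) {P : W.toAffine.Point} (hP : InE0 v W P)
    (n : ℕ) : v (nodeU α β (n • P) - nodeU α β P ^ n) < 1 := by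
  induction n with
  | zero => rw [zero_smul, pow_zero, nodeU_zero, sub_self, map_zero]; exact zero_lt_one
  | succ n ih =>
    have h1 := val_nodeU_add_sub_lt hN (inE0_nsmul hN hP n) hP
    have e : nodeU α β ((n + 1) • P) - nodeU α β P ^ (n + 1) =
        (nodeU α β (n • P + P) - nodeU α β (n • P) * nodeU α β P) +
          (nodeU α β (n • P) - nodeU α β P ^ n) * nodeU α β P := by
      rw [succ_nsmul, pow_succ]; ring
    rw [e]
    refine Valuation.map_add_lt v h1 ?_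
    rw [map_mul, val_nodeU hN hP, mul_one]
    exact ih

/-- `nodeU (P - Q) ≡ nodeU P / nodeU Q`. -/
theorem val_nodeU_sub_sub_lt (hN : NodeData v W α β) {P Q : W.toAffine.Point} (hP : InE0 v W P)
    (hQ : InE0 v W Q) : v (nodeU α β (P - Q) - nodeU α β P / nodeU α β Q) < 1 := by
  have := val_nodeU_add_sub_lt hN hP (inE0_neg hQ)
  rwa [nodeU_neg hN, ← sub_eq_add_neg, ← div_eq_mul_inv] at this

omit [DecidableEq K] in
theorem val_sub_lt_one_congr {a b c : K} (h : v (a - b) < 1) :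
    v (a - c) < 1 ↔ v (b - c) < 1 := by
  constructor
  · intro h1
    have e : b - c = (a - c) - (a - b) := by ring
    rw [e]; exact Valuation.map_sub_lt v h1 h
  · intro h1
    have e : a - c = (a - b) + (b - c) := by ring
    rw [e]; exact Valuation.map_add_lt v h h1

/-- Two points of `E₀` have congruent reduction characters iff they differ by an element of the
kernel of reduction. -/
theorem val_nodeU_sub_lt_iff_inKer_sub (hN : NodeData v W α β) {P Q : W.toAffine.Point}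
    (hP : InE0 v W P) (hQ : InE0 v W Q) :
    v (nodeU α β P - nodeU α β Q) < 1 ↔ InKer v W (P - Q) := by
  rw [inKer_iff_val_nodeU_sub_one_lt hN (inE0_sub hN hP hQ),
    val_sub_lt_one_congr (val_nodeU_sub_sub_lt hN hP hQ)]
  have hQ0 : nodeU α β Q ≠ 0 := nodeU_ne_zero hN hQ
  have e : nodeU α β P / nodeU α β Q - 1 = (nodeU α β P - nodeU α β Q) / nodeU α β Q := by
    rw [div_sub_one hQ0]
  rw [e, map_div₀, val_nodeU hN hQ, div_one]

/-- **Injectivity of the reduction character on prime-to-residue-characteristic torsion.** -/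
theorem eq_of_val_nodeU_sub_lt (hN : NodeData v W α β) {p : ℕ} (hp : v (p : K) = 1)
    {P Q : W.toAffine.Point} (hP : InE0 v W P) (hQ : InE0 v W Q) (hpP : p • P = 0)
    (hpQ : p • Q = 0) (h : v (nodeU α β P - nodeU α β Q) < 1) : P = Q := by
  have hker := (val_nodeU_sub_lt_iff_inKer_sub hN hP hQ).mp h
  have htors : p • (P - Q) = 0 := by rw [smul_sub, hpP, hpQ, sub_zero]
  exact sub_eq_zero.mp
    (eq_zero_of_inKer_of_nsmul_eq_zero (NodeData.integralCoeffs hN) hker hp htors)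

/-- The value of the reduction character at a `p`-torsion point is a `p`-th root of unity modulo
the maximal ideal. -/
theorem val_nodeU_pow_sub_one_lt (hN : NodeData v W α β) {p : ℕ} {P : W.toAffine.Point}
    (hP : InE0 v W P) (hpP : p • P = 0) : v (nodeU α β P ^ p - 1) < 1 := by
  have := val_nodeU_nsmul_sub_lt hN hP p
  rw [hpP, nodeU_zero, ← Valuation.map_neg, neg_sub] at this
  exact this

/-! ### Equivariance -/

omit [DecidableEq K] in
theorem nodeU_map_some (σ : K →+* K) {x y : K} (h : W.toAffine.Nonsingular x y)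
    (h' : W.toAffine.Nonsingular (σ x) (σ y)) :
    nodeU (σ α) (σ β) (Point.some (σ x) (σ y) h') = σ (nodeU α β (Point.some x y h)) := by
  rw [nodeU_some, nodeU_some, map_div₀, map_sub, map_sub, map_mul, map_mul]

/-- Equivariance of the reduction character under a field endomorphism `σ` inducing `f` on the
points. -/
theorem nodeU_map (σ : K →+* K) (f : W.toAffine.Point →+ W.toAffine.Point)
    (hf : ∀ (x y : K) (h : W.toAffine.Nonsingular x y),
      ∃ h' : W.toAffine.Nonsingular (σ x) (σ y), f (Point.some x y h) = Point.some (σ x) (σ y) h')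
    (P : W.toAffine.Point) : nodeU (σ α) (σ β) (f P) = σ (nodeU α β P) := by
  rcases P with _ | ⟨x, y, h⟩
  · have h0 : (Point.zero : W.toAffine.Point) = 0 := rfl
    rw [h0, map_zero, nodeU_zero, nodeU_zero, map_one]
  · obtain ⟨h', hfP⟩ := hf x y h
    rw [hfP, nodeU_map_some]

/-- `σ` fixes both tangent directions. -/
theorem nodeU_map_of_fix (σ : K →+* K) (f : W.toAffine.Point →+ W.toAffine.Point)
    (hf : ∀ (x y : K) (h : W.toAffine.Nonsingular x y),
      ∃ h' : W.toAffine.Nonsingular (σ x) (σ y), f (Point.some x y h) = Point.some (σ x) (σ y) h')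
    (hα : σ α = α) (hβ : σ β = β) (P : W.toAffine.Point) :
    nodeU α β (f P) = σ (nodeU α β P) := by
  have := nodeU_map (α := α) (β := β) σ f hf P
  rwa [hα, hβ] at this

/-- `σ` swaps the two tangent directions. -/
theorem nodeU_map_of_swap (σ : K →+* K) (f : W.toAffine.Point →+ W.toAffine.Point)
    (hf : ∀ (x y : K) (h : W.toAffine.Nonsingular x y),
      ∃ h' : W.toAffine.Nonsingular (σ x) (σ y), f (Point.some x y h) = Point.some (σ x) (σ y) h')
    (hα : σ α = β) (hβ : σ β = α) (P : W.toAffine.Point) :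
    nodeU α β (f P) = (σ (nodeU α β P))⁻¹ := by
  have := nodeU_map (α := α) (β := β) σ f hf P
  rw [hα, hβ, nodeU_swap] at this
  rw [← this, inv_inv]

omit [DecidableEq K] in
set_option linter.unusedSectionVars false in
theorem inE0_map {σ : K →+* K} {f : W.toAffine.Point → W.toAffine.Point}
    (hval : ∀ x, v (σ x) = v x) (hf0 : f 0 = 0)
    (hf : ∀ (x y : K) (h : W.toAffine.Nonsingular x y),
      ∃ h' : W.toAffine.Nonsingular (σ x) (σ y), f (Point.some x y h) = Point.some (σ x) (σ y) h')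
    {P : W.toAffine.Point} (hP : InE0 v W P) : InE0 v W (f P) := by
  rcases hP with rfl | ⟨x, y, h, rfl, hx⟩
  · rw [hf0]; exact Or.inl rfl
  · obtain ⟨h', hfP⟩ := hf x y h
    rw [hfP]
    exact Or.inr ⟨_, _, h', rfl, by rw [hval]; exact hx⟩

/-! ### Frobenius-like endomorphisms -/

omit [DecidableEq K] in
theorem val_inv_sub_inv_lt {a b : K} (ha : v a = 1) (hb : v b = 1) (h : v (a - b) < 1) :
    v (a⁻¹ - b⁻¹) < 1 := by
  have ha0 : a ≠ 0 := fun h0 => by rw [h0, map_zero] at ha; exact zero_ne_one ha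
  have hb0 : b ≠ 0 := fun h0 => by rw [h0, map_zero] at hb; exact zero_ne_one hb
  have e : a⁻¹ - b⁻¹ = -(a - b) / (a * b) := by
    field_simp
    ring
  rw [e, map_div₀, map_mul, ha, hb, mul_one, div_one, Valuation.map_neg]
  exact h

/-- A Frobenius-like endomorphism (`σ x ≡ x ^ q` on integers) fixing the tangent directions acts
on the `p`-torsion of `E₀` as multiplication by `q`. -/
theorem map_eq_nsmul_of_frob (hN : NodeData v W α β) {σ : K →+* K}
    {f : W.toAffine.Point →+ W.toAffine.Point} {q : ℕ}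
    (hval : ∀ x, v (σ x) = v x) (hfrob : ∀ x, v x ≤ 1 → v (σ x - x ^ q) < 1)
    (hf : ∀ (x y : K) (h : W.toAffine.Nonsingular x y),
      ∃ h' : W.toAffine.Nonsingular (σ x) (σ y), f (Point.some x y h) = Point.some (σ x) (σ y) h')
    (hα : σ α = α) (hβ : σ β = β) {p : ℕ} (hp : v (p : K) = 1)
    {P : W.toAffine.Point} (hP : InE0 v W P) (hpP : p • P = 0) : f P = q • P := by
  have hfP : InE0 v W (f P) := inE0_map hval (map_zero f) hf hP
  have hqP : InE0 v W (q • P) := inE0_nsmul hN hP q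
  have h1 : p • f P = 0 := by rw [← map_nsmul, hpP, map_zero]
  have h2 : p • (q • P) = 0 := by rw [smul_comm, hpP, smul_zero]
  apply eq_of_val_nodeU_sub_lt hN hp hfP hqP h1 h2
  rw [nodeU_map_of_fix σ f hf hα hβ]
  have h3 := hfrob _ (val_nodeU hN hP).le
  have h4 := val_nodeU_nsmul_sub_lt hN hP q
  have e : σ (nodeU α β P) - nodeU α β (q • P) =
      (σ (nodeU α β P) - nodeU α β P ^ q) - (nodeU α β (q • P) - nodeU α β P ^ q) := by ring
  rw [e]
  exact Valuation.map_sub_lt v h3 h4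

/-- A Frobenius-like endomorphism (`σ x ≡ x ^ q` on integers) swapping the tangent directions
acts on the `p`-torsion of `E₀` as multiplication by `-q`. -/
theorem map_eq_neg_nsmul_of_frob (hN : NodeData v W α β) {σ : K →+* K}
    {f : W.toAffine.Point →+ W.toAffine.Point} {q : ℕ}
    (hval : ∀ x, v (σ x) = v x) (hfrob : ∀ x, v x ≤ 1 → v (σ x - x ^ q) < 1)
    (hf : ∀ (x y : K) (h : W.toAffine.Nonsingular x y),
      ∃ h' : W.toAffine.Nonsingular (σ x) (σ y), f (Point.some x y h) = Point.some (σ x) (σ y) h')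
    (hα : σ α = β) (hβ : σ β = α) {p : ℕ} (hp : v (p : K) = 1)
    {P : W.toAffine.Point} (hP : InE0 v W P) (hpP : p • P = 0) : f P = -(q • P) := by
  have hfP : InE0 v W (f P) := inE0_map hval (map_zero f) hf hP
  have hqP : InE0 v W (q • P) := inE0_nsmul hN hP q
  have hqP' : InE0 v W (-(q • P)) := inE0_neg hqP
  have h1 : p • f P = 0 := by rw [← map_nsmul, hpP, map_zero]
  have h2 : p • -(q • P) = 0 := by rw [smul_neg, smul_comm, hpP, smul_zero, neg_zero]
  apply eq_of_val_nodeU_sub_lt hN hp hfP hqP' h1 h2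
  rw [nodeU_map_of_swap σ f hf hα hβ, nodeU_neg hN]
  apply val_inv_sub_inv_lt
  · rw [hval]; exact val_nodeU hN hP
  · exact val_nodeU hN hqP
  have h3 := hfrob _ (val_nodeU hN hP).le
  have h4 := val_nodeU_nsmul_sub_lt hN hP q
  have e : σ (nodeU α β P) - nodeU α β (q • P) =
      (σ (nodeU α β P) - nodeU α β P ^ q) - (nodeU α β (q • P) - nodeU α β P ^ q) := by ring
  rw [e]
  exact Valuation.map_sub_lt v h3 h4

end Fermat.Agent.S13.NodeRed
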