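import Mathlib
import Fermat.Prelude.Def_FLTPrelim_GaloisRep

set_option autoImplicit false

open WeierstrassCurve WeierstrassCurve.Affine WeierstrassCurve.Affine.Point IntermediateField

namespace Fermat.Agent.S13

variable {R : Type*} {S : Type*} {K : Type*} [CommRing R] [Field S] [Field K]
  [DecidableEq K] {W' : Affine R} [Algebra R S] [Algebra R K] [Algebra S K]
  [IsScalarTower R S K]

/-- The stabilizer of a point with algebraic coordinates is open in the Krull topology. -/
theorem isOpen_stabilizer_point [Algebra.IsAlgebraic S K] (P : (W'⁄K).Point) :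
    IsOpen (MulAction.stabilizer (K ≃ₐ[S] K) P : Set (K ≃ₐ[S] K)) := by
  rcases P with _ | ⟨x, y, h⟩
  · have : MulAction.stabilizer (K ≃ₐ[S] K) (0 : (W'⁄K).Point) = ⊤ := by
      ext σ
      simp only [MulAction.mem_stabilizer_iff, Subgroup.mem_top, iff_true]
      exact smul_zero σ
    show IsOpen (MulAction.stabilizer (K ≃ₐ[S] K) (0 : (W'⁄K).Point) : Set (K ≃ₐ[S] K))
    rw [this]
    exact isOpen_univ
  · let E : IntermediateField S K := adjoin S {x, y}
    haveI : FiniteDimensional S E := by
      apply IntermediateField.finiteDimensional_adjoin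
      intro z _
      exact (Algebra.IsAlgebraic.isAlgebraic z).isIntegral
    refine Subgroup.isOpen_mono (H₁ := E.fixingSubgroup) ?_ E.fixingSubgroup_isOpen
    intro σ hσ
    rw [IntermediateField.mem_fixingSubgroup_iff] at hσ
    rw [MulAction.mem_stabilizer_iff, algEquiv_smul_def, Point.map_some]
    have hx : σ x = x := hσ x (subset_adjoin S _ (by simp))
    have hy : σ y = y := hσ y (subset_adjoin S _ (by simp))
    congr 1

end Fermat.Agent.S13
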